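import Mathlib

/-!
# Case II of Fermat's Last Theorem for a prime `p`, assuming `𝓞 K` is a PID and Kummer's lemma

Kummer's descent in the ring of integers of the `p`-th cyclotomic field.
-/

open NumberField Polynomial

set_option linter.unusedSectionVars false

namespace Fermat.Agent.S11.H911

section CaseII

variable {p : ℕ} [hp : Fact p.Prime] {K : Type*} [Field K] [NumberField K]
  [IsCyclotomicExtension {p} ℚ K] {ζ : K} (hζ : IsPrimitiveRoot ζ p)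

include hζ in
lemma card_quotient_pi (hodd : p ≠ 2) :
    Nat.card (𝓞 K ⧸ Ideal.span {hζ.toInteger - 1}) = p := by
  rw [hζ.card_quotient_toInteger_sub_one, hζ.norm_toInteger_sub_one_of_prime_ne_two' hodd]
  simp

/-- Every element of `𝓞 K` is congruent to a rational integer modulo `ζ - 1`. -/
lemma exists_int_sub_dvd (hodd : p ≠ 2) (x : 𝓞 K) : ∃ n : ℤ, hζ.toInteger - 1 ∣ x - n := by
  classical
  have hfin := hζ.finite_quotient_toInteger_sub_one hp.out.one_lt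
  have hcard := card_quotient_pi hζ hodd
  set I : Ideal (𝓞 K) := Ideal.span {hζ.toInteger - 1} with hI
  -- the map `ZMod p → 𝓞 K ⧸ I`
  have hpI : (p : 𝓞 K) ∈ I := by
    rw [hI, Ideal.mem_span_singleton]
    exact hζ.toInteger_sub_one_dvd_prime'
  let f : ℤ →+* (𝓞 K ⧸ I) := (Ideal.Quotient.mk I).comp (Int.castRingHom (𝓞 K))
  have hker : ∀ n : ℤ, f n = 0 ↔ (p : ℤ) ∣ n := by
    intro n
    simp only [f, RingHom.comp_apply, Ideal.Quotient.eq_zero_iff_mem, hI,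
      Ideal.mem_span_singleton]
    exact IsCyclotomicExtension.Rat.zeta_sub_one_dvd_intCast_iff' p hζ
  -- injective map from `Fin p`
  let g : Fin p → (𝓞 K ⧸ I) := fun i => f (i : ℕ)
  have hg : Function.Injective g := by
    intro i j hij
    have h1 : f ((i : ℕ) - (j : ℕ) : ℤ) = 0 := by
      simp only [g] at hij
      rw [map_sub, sub_eq_zero]
      exact_mod_cast hij
    rw [hker] at h1
    have hi := i.2
    have hj := j.2
    apply Fin.ext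
    have := Int.eq_of_sub_eq_zero (Int.eq_zero_of_abs_lt_dvd h1 (by rw [abs_lt]; constructor <;> omega))
    exact_mod_cast this
  have hbij := hg.bijective_of_nat_card_le (by rw [hcard]; simp)
  obtain ⟨i, hi⟩ := hbij.2 (Ideal.Quotient.mk I x)
  refine ⟨(i : ℕ), ?_⟩
  rw [← Ideal.mem_span_singleton, ← hI, ← Ideal.Quotient.eq_zero_iff_mem, map_sub, ← hi]
  simp [g, f]

/-- The integer `ζ` as a primitive root in `𝓞 K`. -/
lemma eta_mem_roots : hζ.toInteger ∈ nthRootsFinset p (1 : 𝓞 K) :=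
  (mem_nthRootsFinset hp.out.pos 1).2 hζ.toInteger_isPrimitiveRoot.pow_eq_one

lemma pi_dvd_root_sub_root {μ ν : 𝓞 K} (hμ : μ ∈ nthRootsFinset p (1 : 𝓞 K))
    (hν : ν ∈ nthRootsFinset p (1 : 𝓞 K)) : hζ.toInteger - 1 ∣ μ - ν :=
  hζ.toInteger_isPrimitiveRoot.sub_one_dvd_sub hp.out hμ hν

lemma pi_assoc_root_sub_root {μ ν : 𝓞 K} (hμ : μ ∈ nthRootsFinset p (1 : 𝓞 K))
    (hν : ν ∈ nthRootsFinset p (1 : 𝓞 K)) (hne : μ ≠ ν) : Associated (hζ.toInteger - 1) (μ - ν) :=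
  hζ.toInteger_isPrimitiveRoot.nthRootsFinset_pairwise_associated_sub_one_sub_of_prime hp.out
    hμ hν hne

lemma one_mem_roots : (1 : 𝓞 K) ∈ nthRootsFinset p (1 : 𝓞 K) :=
  (mem_nthRootsFinset hp.out.pos 1).2 (one_pow _)

include hζ in
lemma card_roots : (nthRootsFinset p (1 : 𝓞 K)).card = p :=
  IsPrimitiveRoot.card_nthRootsFinset hζ.toInteger_isPrimitiveRoot

/-- If `x ≡ y mod π` then `x ^ p ≡ y ^ p mod π ^ p`. -/
lemma pi_pow_dvd_pow_sub_pow {x y : 𝓞 K} (h : hζ.toInteger - 1 ∣ x - y) :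
    (hζ.toInteger - 1) ^ p ∣ x ^ p - y ^ p := by
  rw [hζ.toInteger_isPrimitiveRoot.pow_sub_pow_eq_prod_sub_mul x y hp.out.pos]
  have : (hζ.toInteger - 1) ^ p = ∏ _μ ∈ nthRootsFinset p (1 : 𝓞 K), (hζ.toInteger - 1) := by
    rw [Finset.prod_const, card_roots hζ]
  rw [this]
  refine Finset.prod_dvd_prod_of_dvd _ _ fun μ hμ => ?_
  have h1 : hζ.toInteger - 1 ∣ 1 - μ := pi_dvd_root_sub_root hζ (one_mem_roots) hμ
  have : x - μ * y = (x - y) + (1 - μ) * y := by ring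
  rw [this]
  exact dvd_add h (Dvd.dvd.mul_right h1 _)

lemma p_dvd_pi_pow : (p : 𝓞 K) ∣ (hζ.toInteger - 1) ^ p := by
  have h := (IsCyclotomicExtension.Rat.associated_zeta_sub_one_pow_prime p hζ).symm.dvd
  refine h.trans (pow_dvd_pow _ (Nat.sub_le _ _))


/-- A solution of the generalized Fermat equation `x ^ p + y ^ p = ε * (π ^ m * z) ^ p`
with `π ∤ x y z` and `x`, `y` coprime. -/
def IsSol (m : ℕ) (x y z : 𝓞 K) (ε : (𝓞 K)ˣ) : Prop :=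
  ¬ hζ.toInteger - 1 ∣ x ∧ ¬ hζ.toInteger - 1 ∣ y ∧ ¬ hζ.toInteger - 1 ∣ z ∧ IsCoprime x y ∧
    x ^ p + y ^ p = ε * ((hζ.toInteger - 1) ^ m * z) ^ p

variable {hζ}

lemma IsSol.prod_eq (hodd : p ≠ 2) {m : ℕ} {x y z : 𝓞 K} {ε : (𝓞 K)ˣ} (h : IsSol hζ m x y z ε) :
    ∏ μ ∈ nthRootsFinset p (1 : 𝓞 K), (x + μ * y) = ε * ((hζ.toInteger - 1) ^ m * z) ^ p := by
  rw [← h.2.2.2.2]
  exact (hζ.toInteger_isPrimitiveRoot.pow_add_pow_eq_prod_add_mul x y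
    (hp.out.odd_of_ne_two hodd)).symm

/-- In a solution, `π` divides every factor `x + μ y`. -/
lemma IsSol.pi_dvd_factor (hodd : p ≠ 2) {m : ℕ} (hm : 1 ≤ m) {x y z : 𝓞 K} {ε : (𝓞 K)ˣ}
    (h : IsSol hζ m x y z ε) {μ : 𝓞 K} (hμ : μ ∈ nthRootsFinset p (1 : 𝓞 K)) :
    hζ.toInteger - 1 ∣ x + μ * y := by
  have hprime : Prime (hζ.toInteger - 1) := hζ.zeta_sub_one_prime'
  have h1 : hζ.toInteger - 1 ∣ ∏ μ ∈ nthRootsFinset p (1 : 𝓞 K), (x + μ * y) := by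
    rw [h.prod_eq hodd]
    refine Dvd.dvd.mul_left ?_ _
    refine dvd_pow ?_ hp.out.ne_zero
    exact Dvd.dvd.mul_right (dvd_pow_self _ (by omega)) _
  obtain ⟨ν, hν, hdvd⟩ := (Prime.dvd_finsetProd_iff hprime _).1 h1
  have : x + μ * y = (x + ν * y) + (μ - ν) * y := by ring
  rw [this]
  exact dvd_add hdvd (Dvd.dvd.mul_right (pi_dvd_root_sub_root hζ hμ hν) _)

/-- Normalization: we may assume `π ^ 2 ∣ x + y`. -/
lemma IsSol.exists_normalized (hodd : p ≠ 2) {m : ℕ} (hm : 1 ≤ m) {x y z : 𝓞 K} {ε : (𝓞 K)ˣ}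
    (h : IsSol hζ m x y z ε) :
    ∃ y' : 𝓞 K, IsSol hζ m x y' z ε ∧ (hζ.toInteger - 1) ^ 2 ∣ x + y' := by
  classical
  have hprime : Prime (hζ.toInteger - 1) := hζ.zeta_sub_one_prime'
  have hfin := hζ.finite_quotient_toInteger_sub_one hp.out.one_lt
  have hcard := card_quotient_pi hζ hodd
  set I : Ideal (𝓞 K) := Ideal.span {hζ.toInteger - 1} with hI
  have hdvd : ∀ μ : nthRootsFinset p (1 : 𝓞 K), ∃ t : 𝓞 K, x + μ * y = (hζ.toInteger - 1) * t :=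
    fun μ => h.pi_dvd_factor hodd hm μ.2
  choose g hg using hdvd
  let f : nthRootsFinset p (1 : 𝓞 K) → 𝓞 K ⧸ I := fun μ => Ideal.Quotient.mk I (g μ)
  have hf : Function.Injective f := by
    intro μ ν hμν
    by_contra hne
    have hne' : (μ : 𝓞 K) ≠ ν := fun h => hne (Subtype.ext h)
    have h1 : hζ.toInteger - 1 ∣ g μ - g ν := by
      rw [← Ideal.mem_span_singleton, ← hI, ← Ideal.Quotient.eq_zero_iff_mem, map_sub, sub_eq_zero]
      exact hμν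
    obtain ⟨u, hu⟩ := pi_assoc_root_sub_root hζ μ.2 ν.2 hne'
    have h2 : (hζ.toInteger - 1) * (g μ - g ν) = (hζ.toInteger - 1) * (u * y) := by
      rw [mul_sub, ← hg, ← hg, ← mul_assoc, hu]; ring
    have h3 := mul_left_cancel₀ hprime.ne_zero h2
    rw [h3] at h1
    exact h.2.1 ((Units.dvd_mul_left).1 h1)
  have hbij := hf.bijective_of_nat_card_le (by
    rw [hcard, Nat.card_eq_fintype_card, Fintype.card_coe, card_roots hζ])
  obtain ⟨μ, hμ⟩ := hbij.2 0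
  have hμ' : hζ.toInteger - 1 ∣ g μ := by
    rw [← Ideal.mem_span_singleton, ← hI, ← Ideal.Quotient.eq_zero_iff_mem]
    exact hμ
  have hμunit : IsUnit (μ : 𝓞 K) :=
    IsUnit.of_pow_eq_one ((mem_nthRootsFinset hp.out.pos 1).1 μ.2) hp.out.ne_zero
  refine ⟨μ * y, ⟨h.1, ?_, h.2.2.1, ?_, ?_⟩, ?_⟩
  · intro hd
    exact h.2.1 ((hμunit.dvd_mul_left).1 hd)
  · exact (isCoprime_mul_unit_left_right hμunit _ _).2 h.2.2.2.1
  · rw [mul_pow, (mem_nthRootsFinset hp.out.pos 1).1 μ.2, one_mul]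
    exact h.2.2.2.2
  · rw [hg μ, pow_two]
    exact mul_dvd_mul_left _ hμ'


/-- For a normalized solution, the factors `x + μ y` with `μ ≠ 1` are exactly divisible by `π`. -/
lemma IsSol.not_pi_sq_dvd_factor {m : ℕ} {x y z : 𝓞 K} {ε : (𝓞 K)ˣ}
    (h : IsSol hζ m x y z ε) (hxy : (hζ.toInteger - 1) ^ 2 ∣ x + y)
    {μ : 𝓞 K} (hμ : μ ∈ nthRootsFinset p (1 : 𝓞 K)) (hμ1 : μ ≠ 1) :
    ¬ (hζ.toInteger - 1) ^ 2 ∣ x + μ * y := by
  have hprime : Prime (hζ.toInteger - 1) := hζ.zeta_sub_one_prime'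
  intro hd
  obtain ⟨u, hu⟩ := pi_assoc_root_sub_root hζ hμ one_mem_roots hμ1
  have h1 : (hζ.toInteger - 1) ^ 2 ∣ (x + μ * y) - (x + y) := dvd_sub hd hxy
  have h2 : (x + μ * y) - (x + y) = (hζ.toInteger - 1) * (u * y) := by
    rw [← mul_assoc, hu]; ring
  rw [h2, pow_two] at h1
  have h3 := (mul_dvd_mul_iff_left hprime.ne_zero).1 h1
  exact h.2.1 ((Units.dvd_mul_left).1 h3)

/-- Pairwise "coprimality up to `π`" of the factors. -/
lemma IsSol.dvd_pi_of_dvd_factors {m : ℕ} {x y z : 𝓞 K} {ε : (𝓞 K)ˣ}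
    (h : IsSol hζ m x y z ε) {μ ν : 𝓞 K} (hμ : μ ∈ nthRootsFinset p (1 : 𝓞 K))
    (hν : ν ∈ nthRootsFinset p (1 : 𝓞 K)) (hne : μ ≠ ν) {q : 𝓞 K}
    (hqμ : q ∣ x + μ * y) (hqν : q ∣ x + ν * y) : q ∣ hζ.toInteger - 1 := by
  obtain ⟨a, b, hab⟩ := h.2.2.2.1
  have h1 : q ∣ (μ - ν) * y := by
    have : (μ - ν) * y = (x + μ * y) - (x + ν * y) := by ring
    rw [this]; exact dvd_sub hqμ hqν
  have h2 : q ∣ (μ - ν) * x := by
    have : (μ - ν) * x = μ * (x + ν * y) - ν * (x + μ * y) := by ring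
    rw [this]; exact dvd_sub (Dvd.dvd.mul_left hqν _) (Dvd.dvd.mul_left hqμ _)
  have h3 : q ∣ μ - ν := by
    have : μ - ν = a * ((μ - ν) * x) + b * ((μ - ν) * y) := by
      calc μ - ν = (μ - ν) * (a * x + b * y) := by rw [hab, mul_one]
        _ = _ := by ring
    rw [this]; exact dvd_add (Dvd.dvd.mul_left h2 _) (Dvd.dvd.mul_left h1 _)
  exact h3.trans (pi_assoc_root_sub_root hζ hμ hν hne).symm.dvd


/-- Key structural lemma for a normalized solution. -/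
lemma IsSol.exists_factors (hodd : p ≠ 2) {m : ℕ} (hm : 1 ≤ m) {x y z : 𝓞 K} {ε : (𝓞 K)ˣ}
    (h : IsSol hζ m x y z ε) (hxy : (hζ.toInteger - 1) ^ 2 ∣ x + y) :
    2 ≤ m ∧ ∃ H : 𝓞 K → 𝓞 K,
      x + y = (hζ.toInteger - 1) ^ ((m - 1) * p + 1) * H 1 ∧
      (∀ μ ∈ nthRootsFinset p (1 : 𝓞 K), μ ≠ 1 → x + μ * y = (hζ.toInteger - 1) * H μ) ∧
      (∀ μ ∈ nthRootsFinset p (1 : 𝓞 K), ¬ hζ.toInteger - 1 ∣ H μ) ∧
      ∏ μ ∈ nthRootsFinset p (1 : 𝓞 K), H μ = ε * z ^ p := by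
  classical
  have hprime : Prime (hζ.toInteger - 1) := hζ.zeta_sub_one_prime'
  have hp1 : 1 ≤ p := hp.out.pos
  -- the quotients `G μ = (x + μ y) / π`
  have hdvd : ∀ μ : 𝓞 K, ∃ t : 𝓞 K, μ ∈ nthRootsFinset p (1 : 𝓞 K) →
      x + μ * y = (hζ.toInteger - 1) * t := by
    intro μ
    by_cases hμ : μ ∈ nthRootsFinset p (1 : 𝓞 K)
    · obtain ⟨t, ht⟩ := h.pi_dvd_factor hodd hm hμ
      exact ⟨t, fun _ => ht⟩
    · exact ⟨0, fun h' => absurd h' hμ⟩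
  choose G hG using hdvd
  have hGndvd : ∀ μ ∈ (nthRootsFinset p (1 : 𝓞 K)).erase 1, ¬ hζ.toInteger - 1 ∣ G μ := by
    intro μ hμ hd
    rw [Finset.mem_erase] at hμ
    apply h.not_pi_sq_dvd_factor hxy hμ.2 hμ.1
    rw [hG μ hμ.2, pow_two]
    exact mul_dvd_mul_left _ hd
  set P := ∏ μ ∈ (nthRootsFinset p (1 : 𝓞 K)).erase 1, G μ with hP
  have hPndvd : ¬ hζ.toInteger - 1 ∣ P := by
    intro hd
    obtain ⟨μ, hμ, hd'⟩ := (Prime.dvd_finsetProd_iff hprime _).1 hd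
    exact hGndvd μ hμ hd'
  -- the product formula
  have hprod : (x + y) * ((hζ.toInteger - 1) ^ (p - 1) * P) =
      ε * ((hζ.toInteger - 1) ^ m * z) ^ p := by
    rw [← h.prod_eq hodd, ← Finset.mul_prod_erase _ _ (one_mem_roots (p := p) (K := K)), one_mul]
    congr 1
    have hcard : ((nthRootsFinset p (1 : 𝓞 K)).erase 1).card = p - 1 := by
      rw [Finset.card_erase_of_mem (one_mem_roots (p := p) (K := K)), card_roots hζ]
    rw [hP, ← hcard, ← Finset.prod_const, ← Finset.prod_mul_distrib]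
    refine Finset.prod_congr rfl fun μ hμ => ?_
    exact (hG μ (Finset.mem_of_mem_erase hμ)).symm
  have hexp : m * p = (p - 1) + ((m - 1) * p + 1) := by
    obtain ⟨m', rfl⟩ : ∃ m', m = m' + 1 := ⟨m - 1, by omega⟩
    obtain ⟨p', hp'⟩ : ∃ p', p = p' + 1 := ⟨p - 1, by omega⟩
    rw [hp']
    simp only [Nat.add_sub_cancel]
    ring
  have hprod2 : (x + y) * P = (hζ.toInteger - 1) ^ ((m - 1) * p + 1) * (ε * z ^ p) := by
    have h1 : (hζ.toInteger - 1) ^ (p - 1) * ((x + y) * P) =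
        (hζ.toInteger - 1) ^ (p - 1) * ((hζ.toInteger - 1) ^ ((m - 1) * p + 1) * (ε * z ^ p)) := by
      calc (hζ.toInteger - 1) ^ (p - 1) * ((x + y) * P)
          = (x + y) * ((hζ.toInteger - 1) ^ (p - 1) * P) := by ring
        _ = ε * ((hζ.toInteger - 1) ^ m * z) ^ p := hprod
        _ = ε * ((hζ.toInteger - 1) ^ (m * p) * z ^ p) := by rw [mul_pow, ← pow_mul]
        _ = _ := by rw [hexp, pow_add]; ring
    exact mul_left_cancel₀ (pow_ne_zero _ hprime.ne_zero) h1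
  have hdvdxy : (hζ.toInteger - 1) ^ ((m - 1) * p + 1) ∣ x + y :=
    hprime.pow_dvd_of_dvd_mul_right _ hPndvd (hprod2 ▸ dvd_mul_right _ _)
  obtain ⟨X₀, hX₀⟩ := hdvdxy
  have hX₀P : X₀ * P = ε * z ^ p := by
    have h1 : (hζ.toInteger - 1) ^ ((m - 1) * p + 1) * (X₀ * P) =
        (hζ.toInteger - 1) ^ ((m - 1) * p + 1) * (ε * z ^ p) := by
      rw [← hprod2, hX₀]; ring
    exact mul_left_cancel₀ (pow_ne_zero _ hprime.ne_zero) h1
  have hX₀ndvd : ¬ hζ.toInteger - 1 ∣ X₀ := by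
    intro hd
    have h1 : hζ.toInteger - 1 ∣ (ε : 𝓞 K) * z ^ p := hX₀P ▸ Dvd.dvd.mul_right hd _
    have h2 := (Units.dvd_mul_left).1 h1
    exact h.2.2.1 (hprime.dvd_of_dvd_pow h2)
  have hm2 : 2 ≤ m := by
    by_contra hlt
    have hm1 : m = 1 := by omega
    subst hm1
    simp only [Nat.sub_self, zero_mul, zero_add, pow_one] at hX₀
    rw [hX₀, pow_two] at hxy
    exact hX₀ndvd ((mul_dvd_mul_iff_left hprime.ne_zero).1 hxy)
  refine ⟨hm2, fun μ => if μ = 1 then X₀ else G μ, ?_, ?_, ?_, ?_⟩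
  · simpa using hX₀
  · intro μ hμ hμ1
    simp only [hμ1, if_false]
    exact hG μ hμ
  · intro μ hμ
    by_cases hμ1 : μ = 1
    · simpa [hμ1] using hX₀ndvd
    · simp only [hμ1, if_false]
      exact hGndvd μ (Finset.mem_erase.2 ⟨hμ1, hμ⟩)
  · rw [← Finset.mul_prod_erase _ _ (one_mem_roots (p := p) (K := K))]
    simp only [if_true]
    rw [← hX₀P, hP]
    congr 1
    refine Finset.prod_congr rfl fun μ hμ => ?_
    simp [Finset.ne_of_mem_erase hμ]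


/-- The descent step. -/
lemma IsSol.descent [IsPrincipalIdealRing (𝓞 K)] (hodd : p ≠ 2)
    (KL : ∀ u : (𝓞 K)ˣ, (∃ n : ℤ, (p : 𝓞 K) ∣ (u : 𝓞 K) - n) → ∃ v : (𝓞 K)ˣ, u = v ^ p)
    {m : ℕ} (hm : 1 ≤ m) {x y z : 𝓞 K} {ε : (𝓞 K)ˣ}
    (h : IsSol hζ m x y z ε) (hxy : (hζ.toInteger - 1) ^ 2 ∣ x + y) :
    2 ≤ m ∧ ∃ (x' y' z' : 𝓞 K) (ε' : (𝓞 K)ˣ), IsSol hζ (m - 1) x' y' z' ε' := by
  classical
  have hprime : Prime (hζ.toInteger - 1) := hζ.zeta_sub_one_prime'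
  have hp3 : 3 ≤ p := by
    have := hp.out.two_le
    omega
  obtain ⟨hm2, H, hH1, hHμ, hHndvd, hHprod⟩ := h.exists_factors hodd hm hxy
  refine ⟨hm2, ?_⟩
  -- `H μ` divides `x + μ y`
  have hHdvd : ∀ μ ∈ nthRootsFinset p (1 : 𝓞 K), H μ ∣ x + μ * y := by
    intro μ hμ
    by_cases hμ1 : μ = 1
    · subst hμ1
      rw [one_mul, hH1]
      exact dvd_mul_left _ _
    · rw [hHμ μ hμ hμ1]
      exact dvd_mul_left _ _
  -- pairwise coprimality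
  have hcop : ∀ μ ∈ nthRootsFinset p (1 : 𝓞 K), ∀ ν ∈ nthRootsFinset p (1 : 𝓞 K), μ ≠ ν →
      IsCoprime (H μ) (H ν) := by
    intro μ hμ ν hν hne
    refine isCoprime_of_prime_dvd ?_ ?_
    · rintro ⟨h0, -⟩
      exact hHndvd μ hμ (h0 ▸ dvd_zero _)
    · intro q hq hqμ hqν
      have hqpi : q ∣ hζ.toInteger - 1 :=
        h.dvd_pi_of_dvd_factors hμ hν hne (hqμ.trans (hHdvd μ hμ)) (hqν.trans (hHdvd ν hν))
      have hass : Associated q (hζ.toInteger - 1) := hq.associated_of_dvd hprime hqpi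
      exact hHndvd μ hμ (hass.symm.dvd.trans hqμ)
  -- each `H μ` is a `p`-th power up to a unit
  have hpow : ∀ μ ∈ nthRootsFinset p (1 : 𝓞 K), ∃ d : 𝓞 K, Associated (d ^ p) (H μ) := by
    intro μ hμ
    have h1 : H μ * ∏ ν ∈ (nthRootsFinset p (1 : 𝓞 K)).erase μ, H ν = ε * z ^ p := by
      rw [Finset.mul_prod_erase _ _ hμ, hHprod]
    have h2 : IsCoprime (H μ) (∏ ν ∈ (nthRootsFinset p (1 : 𝓞 K)).erase μ, H ν) := by
      refine IsCoprime.prod_right fun ν hν => ?_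
      rw [Finset.mem_erase] at hν
      exact hcop μ hμ ν hν.2 (Ne.symm hν.1)
    refine exists_associated_pow_of_associated_pow_mul h2 (c := z) ?_
    rw [h1]
    exact ⟨ε, by rw [mul_comm]⟩
  -- the three roots `1`, `η`, `η ^ 2`
  have hηprim := hζ.toInteger_isPrimitiveRoot
  have hη : hζ.toInteger ∈ nthRootsFinset p (1 : 𝓞 K) := eta_mem_roots hζ
  have hη2 : hζ.toInteger ^ 2 ∈ nthRootsFinset p (1 : 𝓞 K) := by
    rw [mem_nthRootsFinset hp.out.pos 1, ← pow_mul, mul_comm, pow_mul, hηprim.pow_eq_one, one_pow]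
  have hη_ne : hζ.toInteger ≠ 1 := hηprim.ne_one hp.out.one_lt
  have hη2_ne : hζ.toInteger ^ 2 ≠ 1 := hηprim.pow_ne_one_of_pos_of_lt (by norm_num) (by omega)
  have hη_ne_η2 : hζ.toInteger ≠ hζ.toInteger ^ 2 := by
    intro heq
    apply hη_ne
    have h0 : hζ.toInteger ≠ 0 := hηprim.ne_zero hp.out.ne_zero
    have : hζ.toInteger * 1 = hζ.toInteger * hζ.toInteger := by rw [mul_one, ← pow_two]; exact heq
    exact (mul_left_cancel₀ h0 this).symm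
  obtain ⟨d₀, u₀, hd₀⟩ := hpow 1 one_mem_roots
  obtain ⟨d₁, u₁, hd₁⟩ := hpow _ hη
  obtain ⟨d₂, u₂, hd₂⟩ := hpow _ hη2
  have hX1 := hHμ _ hη hη_ne
  have hX2 := hHμ _ hη2 hη2_ne
  -- `1 + η` is a unit
  have hunit : IsUnit (1 + hζ.toInteger) := by
    have := hηprim.geom_sum_isUnit hp.out.two_le (j := 2)
      ((Nat.coprime_primes Nat.prime_two hp.out).2 (Ne.symm hodd))
    simpa [Finset.sum_range_succ] using this
  obtain ⟨w, hw⟩ := hunit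
  -- the linear relation
  have hrel : (1 + hζ.toInteger) * H hζ.toInteger - H (hζ.toInteger ^ 2) =
      hζ.toInteger * (hζ.toInteger - 1) ^ ((m - 1) * p) * H 1 := by
    have h1 : (hζ.toInteger - 1) * ((1 + hζ.toInteger) * H hζ.toInteger - H (hζ.toInteger ^ 2)) =
        (hζ.toInteger - 1) * (hζ.toInteger * (hζ.toInteger - 1) ^ ((m - 1) * p) * H 1) := by
      calc (hζ.toInteger - 1) * ((1 + hζ.toInteger) * H hζ.toInteger - H (hζ.toInteger ^ 2))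
          = (1 + hζ.toInteger) * ((hζ.toInteger - 1) * H hζ.toInteger) -
              (hζ.toInteger - 1) * H (hζ.toInteger ^ 2) := by ring
        _ = (1 + hζ.toInteger) * (x + hζ.toInteger * y) - (x + hζ.toInteger ^ 2 * y) := by
            rw [← hX1, ← hX2]
        _ = hζ.toInteger * (x + y) := by ring
        _ = _ := by rw [hH1, pow_succ]; ring
    exact mul_left_cancel₀ hprime.ne_zero h1
  -- `π ∤ d_i`
  have hd₀ndvd : ¬ hζ.toInteger - 1 ∣ d₀ := fun hd =>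
    hHndvd 1 one_mem_roots (hd₀ ▸ Dvd.dvd.mul_right (dvd_pow hd hp.out.ne_zero) _)
  have hd₁ndvd : ¬ hζ.toInteger - 1 ∣ d₁ := fun hd =>
    hHndvd _ hη (hd₁ ▸ Dvd.dvd.mul_right (dvd_pow hd hp.out.ne_zero) _)
  have hd₂ndvd : ¬ hζ.toInteger - 1 ∣ d₂ := fun hd =>
    hHndvd _ hη2 (hd₂ ▸ Dvd.dvd.mul_right (dvd_pow hd hp.out.ne_zero) _)
  -- the unit `ω`
  set ω : (𝓞 K)ˣ := -(u₂ * w⁻¹ * u₁⁻¹) with hω
  set ε' : (𝓞 K)ˣ := (hηprim.isUnit hp.out.ne_zero).unit * u₀ * w⁻¹ * u₁⁻¹ with hε'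
  have hwinv : (w⁻¹ : (𝓞 K)ˣ) * (1 + hζ.toInteger) = (1 : 𝓞 K) := by
    rw [← hw]; simp
  have hnew : d₁ ^ p + ω * d₂ ^ p = ε' * ((hζ.toInteger - 1) ^ (m - 1) * d₀) ^ p := by
    have e1 : (u₁⁻¹ : (𝓞 K)ˣ) * (u₁ : 𝓞 K) = 1 := by simp
    have key : (w⁻¹ : (𝓞 K)ˣ) * (u₁⁻¹ : (𝓞 K)ˣ) *
        ((1 + hζ.toInteger) * (d₁ ^ p * u₁) - d₂ ^ p * u₂) =
        (w⁻¹ : (𝓞 K)ˣ) * (u₁⁻¹ : (𝓞 K)ˣ) *
        (hζ.toInteger * (hζ.toInteger - 1) ^ ((m - 1) * p) * (d₀ ^ p * u₀)) := by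
      rw [hd₀, hd₁, hd₂, hrel]
    have lhs : (w⁻¹ : (𝓞 K)ˣ) * (u₁⁻¹ : (𝓞 K)ˣ) *
        ((1 + hζ.toInteger) * (d₁ ^ p * u₁) - d₂ ^ p * u₂) = d₁ ^ p + ω * d₂ ^ p := by
      calc (w⁻¹ : (𝓞 K)ˣ) * (u₁⁻¹ : (𝓞 K)ˣ) *
            ((1 + hζ.toInteger) * (d₁ ^ p * u₁) - d₂ ^ p * u₂)
          = ((w⁻¹ : (𝓞 K)ˣ) * (1 + hζ.toInteger)) * ((u₁⁻¹ : (𝓞 K)ˣ) * (u₁ : 𝓞 K)) * d₁ ^ p
              - (u₂ * (w⁻¹ : (𝓞 K)ˣ) * (u₁⁻¹ : (𝓞 K)ˣ)) * d₂ ^ p := by ring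
        _ = d₁ ^ p + ω * d₂ ^ p := by
            rw [hwinv, e1, hω]
            push_cast
            ring
    have rhs : (w⁻¹ : (𝓞 K)ˣ) * (u₁⁻¹ : (𝓞 K)ˣ) *
        (hζ.toInteger * (hζ.toInteger - 1) ^ ((m - 1) * p) * (d₀ ^ p * u₀)) =
        ε' * ((hζ.toInteger - 1) ^ (m - 1) * d₀) ^ p := by
      rw [hε', mul_pow, ← pow_mul]
      push_cast
      rw [IsUnit.unit_spec]
      ring
    rw [← lhs, key, rhs]
  -- Kummer's lemma applies to `ω`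
  have hωcong : ∃ n : ℤ, (p : 𝓞 K) ∣ (ω : 𝓞 K) - n := by
    obtain ⟨a, ha⟩ := exists_int_sub_dvd hζ hodd d₁
    obtain ⟨b, hb⟩ := exists_int_sub_dvd hζ hodd d₂
    have ha' := pi_pow_dvd_pow_sub_pow hζ ha
    have hb' := pi_pow_dvd_pow_sub_pow hζ hb
    have hpb : ¬ (p : ℤ) ∣ b := by
      intro hpb
      have h1 : hζ.toInteger - 1 ∣ (b : 𝓞 K) :=
        (IsCyclotomicExtension.Rat.zeta_sub_one_dvd_intCast_iff' p hζ).2 hpb
      have h2 : hζ.toInteger - 1 ∣ (d₂ - b) + b := dvd_add hb h1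
      rw [sub_add_cancel] at h2
      exact hd₂ndvd h2
    have hsum : (hζ.toInteger - 1) ^ p ∣ d₁ ^ p + ω * d₂ ^ p := by
      rw [hnew, mul_pow, ← pow_mul]
      refine Dvd.dvd.mul_left (Dvd.dvd.mul_right (pow_dvd_pow _ ?_) _) _
      calc p = 1 * p := (one_mul p).symm
        _ ≤ (m - 1) * p := Nat.mul_le_mul_right _ (by omega)
    have h3 : (hζ.toInteger - 1) ^ p ∣ (a : 𝓞 K) ^ p + ω * (b : 𝓞 K) ^ p := by
      have : (a : 𝓞 K) ^ p + ω * (b : 𝓞 K) ^ p =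
          (d₁ ^ p + ω * d₂ ^ p) - (d₁ ^ p - (a : 𝓞 K) ^ p) - ω * (d₂ ^ p - (b : 𝓞 K) ^ p) := by
        ring
      rw [this]
      exact dvd_sub (dvd_sub hsum ha') (Dvd.dvd.mul_left hb' _)
    have h4 : (p : 𝓞 K) ∣ (a : 𝓞 K) ^ p + ω * (b : 𝓞 K) ^ p := (p_dvd_pi_pow hζ).trans h3
    have hcopb : IsCoprime (b ^ p) (p : ℤ) := by
      refine IsCoprime.pow_left ?_
      exact ((Nat.prime_iff_prime_int.1 hp.out).coprime_iff_not_dvd.2 hpb).symm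
    obtain ⟨c, e, hce⟩ := hcopb
    refine ⟨-(c * a ^ p), ?_⟩
    have hce' : (c : 𝓞 K) * (b : 𝓞 K) ^ p + (e : 𝓞 K) * (p : 𝓞 K) = 1 := by
      have := congrArg (Int.cast : ℤ → 𝓞 K) hce
      push_cast at this
      exact this
    have : (ω : 𝓞 K) - ((-(c * a ^ p) : ℤ) : 𝓞 K) =
        c * ((a : 𝓞 K) ^ p + ω * (b : 𝓞 K) ^ p) + (p : 𝓞 K) * (ω * e) := by
      push_cast
      calc (ω : 𝓞 K) - -(c * (a : 𝓞 K) ^ p)
          = ω * 1 + c * (a : 𝓞 K) ^ p := by ring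
        _ = ω * ((c : 𝓞 K) * (b : 𝓞 K) ^ p + (e : 𝓞 K) * (p : 𝓞 K)) + c * (a : 𝓞 K) ^ p := by
            rw [hce']
        _ = _ := by ring
    rw [this]
    exact dvd_add (Dvd.dvd.mul_left h4 _) (dvd_mul_right _ _)
  obtain ⟨v, hv⟩ := KL ω hωcong
  refine ⟨d₁, v * d₂, d₀, ε', hd₁ndvd, ?_, hd₀ndvd, ?_, ?_⟩
  · intro hd
    exact hd₂ndvd ((Units.dvd_mul_left).1 hd)
  · have h1 : IsCoprime (d₁ ^ p) (d₂ ^ p) := by
      have := hcop _ hη _ hη2 hη_ne_η2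
      rw [← hd₁, ← hd₂] at this
      exact (isCoprime_mul_unit_right_left u₁.isUnit _ _).1
        ((isCoprime_mul_unit_right_right u₂.isUnit _ _).1 this)
    have h2 : IsCoprime d₁ d₂ := (IsCoprime.pow_iff hp.out.pos hp.out.pos).1 h1
    exact (isCoprime_mul_unit_left_right v.isUnit _ _).2 h2
  · rw [mul_pow, ← hnew, hv]
    push_cast
    rfl


/-- Case II of Fermat's Last Theorem in `𝓞 K`, generalized equation. -/
theorem not_isSol [IsPrincipalIdealRing (𝓞 K)] (hodd : p ≠ 2)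
    (KL : ∀ u : (𝓞 K)ˣ, (∃ n : ℤ, (p : 𝓞 K) ∣ (u : 𝓞 K) - n) → ∃ v : (𝓞 K)ˣ, u = v ^ p)
    (m : ℕ) (hm : 1 ≤ m) (x y z : 𝓞 K) (ε : (𝓞 K)ˣ) : ¬ IsSol hζ m x y z ε := by
  induction m generalizing x y z ε with
  | zero => omega
  | succ n ih =>
    intro h
    obtain ⟨y', hy', hxy'⟩ := h.exists_normalized hodd hm
    obtain ⟨h2, x'', y'', z'', ε'', h''⟩ := hy'.descent hodd KL hm hxy'
    simp only [Nat.add_sub_cancel] at h''
    exact ih (by omega) x'' y'' z'' ε'' h''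

variable (hζ)

include hζ in
/-- Case II of Fermat's Last Theorem over `ℤ` for the prime `p`, assuming that the ring of
integers of the `p`-th cyclotomic field is a PID and Kummer's lemma. -/
theorem caseII_int [IsPrincipalIdealRing (𝓞 K)] (hodd : p ≠ 2)
    (KL : ∀ u : (𝓞 K)ˣ, (∃ n : ℤ, (p : 𝓞 K) ∣ (u : 𝓞 K) - n) → ∃ v : (𝓞 K)ˣ, u = v ^ p)
    {a b c : ℤ} (hc : c ≠ 0) (hpa : ¬ (p : ℤ) ∣ a) (hpb : ¬ (p : ℤ) ∣ b) (hpc : (p : ℤ) ∣ c)
    (hab : IsCoprime a b) : a ^ p + b ^ p ≠ c ^ p := by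
  intro hF
  have hprime : Prime (hζ.toInteger - 1) := hζ.zeta_sub_one_prime'
  have hc' : (c : 𝓞 K) ≠ 0 := by exact_mod_cast hc
  have hfin : FiniteMultiplicity (hζ.toInteger - 1) (c : 𝓞 K) :=
    FiniteMultiplicity.of_not_isUnit hprime.not_isUnit hc'
  obtain ⟨z, hz, hzndvd⟩ := hfin.exists_eq_pow_mul_and_not_dvd
  have hπc : hζ.toInteger - 1 ∣ (c : 𝓞 K) :=
    (IsCyclotomicExtension.Rat.zeta_sub_one_dvd_intCast_iff' p hζ).2 hpc
  have hm : 1 ≤ multiplicity (hζ.toInteger - 1) (c : 𝓞 K) := by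
    by_contra hlt
    have h0 : multiplicity (hζ.toInteger - 1) (c : 𝓞 K) = 0 := by omega
    rw [h0, pow_zero, one_mul] at hz
    exact hzndvd (hz ▸ hπc)
  refine not_isSol (hζ := hζ) hodd KL _ hm (a : 𝓞 K) (b : 𝓞 K) z 1 ⟨?_, ?_, hzndvd, ?_, ?_⟩
  · rwa [IsCyclotomicExtension.Rat.zeta_sub_one_dvd_intCast_iff' p hζ]
  · rwa [IsCyclotomicExtension.Rat.zeta_sub_one_dvd_intCast_iff' p hζ]
  · exact IsCoprime.intCast hab
  · rw [← hz, Units.val_one, one_mul]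
    exact_mod_cast hF


/-- Case II of Fermat's Last Theorem in `𝓞 K` (generalized equation), generic in the odd prime
`p`, assuming `𝓞 K` is a PID and Kummer's lemma. -/
theorem caseII_gen_of_prime [IsPrincipalIdealRing (𝓞 K)] (hodd : p ≠ 2)
    (KL : ∀ u : (𝓞 K)ˣ, (∃ n : ℤ, (p : 𝓞 K) ∣ (u : 𝓞 K) - n) → ∃ v : (𝓞 K)ˣ, u = v ^ p)
    (a b c : 𝓞 K) (u : (𝓞 K)ˣ) (hc : c ≠ 0) (ha : ¬ (hζ.toInteger - 1) ∣ a)
    (hb : ¬ (hζ.toInteger - 1) ∣ b) (hcdvd : (hζ.toInteger - 1) ∣ c) (hab : IsCoprime a b) :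
    a ^ p + b ^ p ≠ u * c ^ p := by
  intro hF
  have hprime : Prime (hζ.toInteger - 1) := hζ.zeta_sub_one_prime'
  have hfin : FiniteMultiplicity (hζ.toInteger - 1) c :=
    FiniteMultiplicity.of_not_isUnit hprime.not_isUnit hc
  obtain ⟨z, hz, hzndvd⟩ := hfin.exists_eq_pow_mul_and_not_dvd
  have hm : 1 ≤ multiplicity (hζ.toInteger - 1) c := by
    by_contra hlt
    have h0 : multiplicity (hζ.toInteger - 1) c = 0 := by omega
    rw [h0, pow_zero, one_mul] at hz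
    exact hzndvd (hz ▸ hcdvd)
  refine not_isSol (hζ := hζ) hodd KL _ hm a b z u ⟨ha, hb, hzndvd, hab, ?_⟩
  rw [← hz]
  exact hF


end CaseII

end Fermat.Agent.S11.H911

namespace Fermat.Agent.S11.CaseII

/-- T4 final (team skeleton name): the generalized Case II statement, generic in the odd prime
`p`, assuming `𝓞 K` is a PID and Kummer's lemma. -/
theorem caseII_gen {K : Type*} [Field K] [NumberField K] {p : ℕ} [hp : Fact p.Prime]
    [hK : IsCyclotomicExtension {p} ℚ K] {ζ : K} (hζ : IsPrimitiveRoot ζ p)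
    (hp2 : p ≠ 2) [IsPrincipalIdealRing (𝓞 K)]
    (hkummer : ∀ u : (𝓞 K)ˣ, (∃ m : ℤ, (p : 𝓞 K) ∣ (u : 𝓞 K) - (m : 𝓞 K)) →
      ∃ v : (𝓞 K)ˣ, u = v ^ p)
    (a b c : 𝓞 K) (u : (𝓞 K)ˣ) (hc : c ≠ 0) (ha : ¬ (hζ.toInteger - 1) ∣ a)
    (hb : ¬ (hζ.toInteger - 1) ∣ b) (hcdvd : (hζ.toInteger - 1) ∣ c) (hab : IsCoprime a b) :
    a ^ p + b ^ p ≠ u * c ^ p :=
  Fermat.Agent.S11.H911.caseII_gen_of_prime hζ hp2 hkummer a b c u hc ha hb hcdvd hab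

/-- Case II over `ℤ`, generic in the odd prime `p`, assuming that the ring of integers of one
`p`-th cyclotomic field `K` is a PID and Kummer's lemma for `K`. -/
theorem caseII_int {K : Type*} [Field K] [NumberField K] {p : ℕ} [hp : Fact p.Prime]
    [hK : IsCyclotomicExtension {p} ℚ K] (hp2 : p ≠ 2) [IsPrincipalIdealRing (𝓞 K)]
    (hkummer : ∀ u : (𝓞 K)ˣ, (∃ m : ℤ, (p : 𝓞 K) ∣ (u : 𝓞 K) - (m : 𝓞 K)) →
      ∃ v : (𝓞 K)ˣ, u = v ^ p)
    {a b c : ℤ} (hc : c ≠ 0) (ha : ¬ (p : ℤ) ∣ a) (hb : ¬ (p : ℤ) ∣ b) (hcdvd : (p : ℤ) ∣ c)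
    (hab : IsCoprime a b) : a ^ p + b ^ p ≠ c ^ p :=
  Fermat.Agent.S11.H911.caseII_int (IsCyclotomicExtension.zeta_spec p ℚ K) hp2 hkummer hc ha hb
    hcdvd hab

end Fermat.Agent.S11.CaseII

namespace Fermat.Agent.S11

open Fermat.Agent.S11.H911

/-- Case II descent for `p = 11`, in the exact form of the team interface. -/
theorem caseII_gen {K : Type*} [Field K] [NumberField K] [IsCyclotomicExtension {11} ℚ K]
    {ζ : K} (hζ : IsPrimitiveRoot ζ 11)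
    (hpid : IsPrincipalIdealRing (𝓞 K))
    (hkummer : ∀ u : (𝓞 K)ˣ, (∃ m : ℤ, (11 : 𝓞 K) ∣ (u : 𝓞 K) - (m : 𝓞 K)) →
      ∃ v : (𝓞 K)ˣ, u = v ^ 11)
    (a b c : 𝓞 K) (u : (𝓞 K)ˣ) (hc : c ≠ 0) (ha : ¬ (hζ.toInteger - 1) ∣ a)
    (hb : ¬ (hζ.toInteger - 1) ∣ b) (hcdvd : (hζ.toInteger - 1) ∣ c) (hab : IsCoprime a b) :
    a ^ 11 + b ^ 11 ≠ u * c ^ 11 := by
  have : Fact (Nat.Prime 11) := ⟨by norm_num⟩
  refine caseII_gen_of_prime (p := 11) hζ (by norm_num) ?_ a b c u hc ha hb hcdvd hab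
  intro w hw
  refine hkummer w ?_
  obtain ⟨n, hn⟩ := hw
  exact ⟨n, by simpa using hn⟩

/-- Case II over `ℤ` for `p = 11`, in the exact form of the team interface, assuming the PID
property and Kummer's lemma for one cyclotomic field `K`. -/
theorem caseII_eleven_of {K : Type*} [Field K] [NumberField K] [IsCyclotomicExtension {11} ℚ K]
    (hpid : IsPrincipalIdealRing (𝓞 K))
    (hkummer : ∀ u : (𝓞 K)ˣ, (∃ m : ℤ, (11 : 𝓞 K) ∣ (u : 𝓞 K) - (m : 𝓞 K)) →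
      ∃ v : (𝓞 K)ˣ, u = v ^ 11)
    {a b c : ℤ} (hc : c ≠ 0) (ha : ¬ (11 : ℤ) ∣ a) (hb : ¬ (11 : ℤ) ∣ b)
    (hcdvd : (11 : ℤ) ∣ c) (hab : IsCoprime a b) : a ^ 11 + b ^ 11 ≠ c ^ 11 := by
  have : Fact (Nat.Prime 11) := ⟨by norm_num⟩
  have hζ := IsCyclotomicExtension.zeta_spec 11 ℚ K
  refine caseII_int (p := 11) hζ (by norm_num) ?_ hc ?_ ?_ ?_ hab
  · intro w hw
    refine hkummer w ?_
    obtain ⟨n, hn⟩ := hw
    exact ⟨n, by simpa using hn⟩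
  · simpa using ha
  · simpa using hb
  · simpa using hcdvd

end Fermat.Agent.S11


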