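import Mathlib

/-!
# T5b: bridge from the generalized Case II statement in `𝓞 K` to Case II over `ℤ`.
-/

set_option autoImplicit false

namespace Fermat.Agent.S11.GlueBridge

open NumberField

theorem caseII_int_of_gen {p : ℕ} [hp : Fact p.Prime] {K : Type*} [Field K] [NumberField K]
    [IsCyclotomicExtension {p} ℚ K] {ζ : K} (hζ : IsPrimitiveRoot ζ p)
    (Hgen : ∀ a b c : 𝓞 K, ∀ u : (𝓞 K)ˣ, c ≠ 0 → ¬ (hζ.toInteger - 1) ∣ a →
      ¬ (hζ.toInteger - 1) ∣ b → (hζ.toInteger - 1) ∣ c → IsCoprime a b →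
      a ^ p + b ^ p ≠ u * c ^ p) :
    ∀ a b c : ℤ, c ≠ 0 → ¬ (p : ℤ) ∣ a → ¬ (p : ℤ) ∣ b → (p : ℤ) ∣ c → IsCoprime a b →
      a ^ p + b ^ p ≠ c ^ p := by
  intro a b c hc ha hb hcdvd hcoprime h
  refine Hgen a b c 1 (by simp [hc]) (fun hdvd ↦ ha ?_) (fun hdvd ↦ hb ?_) ?_ ?_ ?_
  · exact (IsCyclotomicExtension.Rat.zeta_sub_one_dvd_intCast_iff' p hζ).mp hdvd
  · exact (IsCyclotomicExtension.Rat.zeta_sub_one_dvd_intCast_iff' p hζ).mp hdvd
  · exact (IsCyclotomicExtension.Rat.zeta_sub_one_dvd_intCast_iff' p hζ).mpr hcdvd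
  · exact IsCoprime.intCast hcoprime
  · simpa using mod_cast h

end Fermat.Agent.S11.GlueBridge
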