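import Mathlib

/-!
# T5a: reduction of `FermatLastTheoremFor p` (odd prime `p`) to Case I and Case II over `ℤ`.
Generalisation of `fermatLastTheoremThree_of_three_dvd_only_c` from Mathlib.
-/

set_option autoImplicit false

namespace Fermat.Agent.S11.GlueZ

lemma p_dvd_b_of_dvd_a_of_gcd_eq_one_of_case2 {p : ℕ} (hp : p.Prime) (hodd : Odd p)
    {a b c : ℤ} (ha : a ≠ 0)
    (Hgcd : Finset.gcd {a, b, c} id = 1) (h3a : (p : ℤ) ∣ a) (HF : a ^ p + b ^ p + c ^ p = 0)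
    (H : ∀ a b c : ℤ, c ≠ 0 → ¬ (p : ℤ) ∣ a → ¬ (p : ℤ) ∣ b → (p : ℤ) ∣ c → IsCoprime a b →
      a ^ p + b ^ p ≠ c ^ p) :
    (p : ℤ) ∣ b := by
  have hpZ : Prime (p : ℤ) := Nat.prime_iff_prime_int.mp hp
  have hbc : IsCoprime (-b) (-c) := by
    refine IsCoprime.neg_neg ?_
    rw [add_comm (a ^ p), add_assoc, add_comm (a ^ p), ← add_assoc] at HF
    refine isCoprime_of_gcd_eq_one_of_FLT ?_ HF
    convert Hgcd using 2
    rw [Finset.pair_comm, Finset.insert_comm]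
  by_contra! h3b
  by_cases h3c : (p : ℤ) ∣ c
  · apply h3b
    rw [add_assoc, add_comm (b ^ p), ← add_assoc] at HF
    exact dvd_c_of_prime_of_dvd_a_of_dvd_b_of_FLT hpZ h3a h3c HF
  · refine H (-b) (-c) a ha (by simp [h3b]) (by simp [h3c]) h3a hbc ?_
    rw [add_eq_zero_iff_eq_neg, ← hodd.neg_pow] at HF
    rw [hodd.neg_pow, hodd.neg_pow]
    have : a ^ p = - (b ^ p) - c ^ p := by
      have h2 := HF
      rw [hodd.neg_pow] at h2
      linarith
    rw [this]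
    ring

open Finset in
lemma flt_of_dvd_a_of_gcd_eq_one_of_case2 {p : ℕ} (hp : p.Prime) (hodd : Odd p)
    {a b c : ℤ} (ha : a ≠ 0)
    (h3a : (p : ℤ) ∣ a) (Hgcd : Finset.gcd {a, b, c} id = 1)
    (H : ∀ a b c : ℤ, c ≠ 0 → ¬ (p : ℤ) ∣ a → ¬ (p : ℤ) ∣ b → (p : ℤ) ∣ c → IsCoprime a b →
      a ^ p + b ^ p ≠ c ^ p) :
    a ^ p + b ^ p + c ^ p ≠ 0 := by
  have hpZ : Prime (p : ℤ) := Nat.prime_iff_prime_int.mp hp
  intro HF
  apply hpZ.not_dvd_one
  rw [← Hgcd]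
  refine dvd_gcd (fun x hx ↦ ?_)
  simp only [mem_insert, mem_singleton] at hx
  have h3b : (p : ℤ) ∣ b := by
    refine p_dvd_b_of_dvd_a_of_gcd_eq_one_of_case2 hp hodd ha ?_ h3a HF H
    simp only [← Hgcd, gcd_insert, gcd_singleton, id_eq, ← Int.abs_eq_normalize]
  rcases hx with hx | hx | hx
  · exact hx ▸ h3a
  · exact hx ▸ h3b
  · simpa [hx] using dvd_c_of_prime_of_dvd_a_of_dvd_b_of_FLT hpZ h3a h3b HF

open Finset Int in
/-- To prove Fermat's Last Theorem for an odd prime `p`, it is enough to prove Case I and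
Case II (with `p ∣ c` only). -/
theorem flt_of_caseI_of_caseII {p : ℕ} (hp : p.Prime) (hodd : Odd p)
    (H1 : ∀ a b c : ℤ, IsCoprime a b → ¬ (p : ℤ) ∣ a * b * c → a ^ p + b ^ p ≠ c ^ p)
    (H : ∀ a b c : ℤ, c ≠ 0 → ¬ (p : ℤ) ∣ a → ¬ (p : ℤ) ∣ b → (p : ℤ) ∣ c → IsCoprime a b →
      a ^ p + b ^ p ≠ c ^ p) :
    FermatLastTheoremFor p := by
  have hpZ : Prime (p : ℤ) := Nat.prime_iff_prime_int.mp hp
  rw [fermatLastTheoremFor_iff_int]
  refine fermatLastTheoremWith_of_fermatLastTheoremWith_coprime (fun a b c ha hb hc Hgcd hF ↦ ?_)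
  have hF0 : a ^ p + b ^ p + (-c) ^ p = 0 := by
    rw [hodd.neg_pow, hF]; ring
  by_cases h1 : (p : ℤ) ∣ a * b * c
  swap
  · refine H1 a b c ?_ h1 hF
    refine isCoprime_of_gcd_eq_one_of_FLT (c := -c) ?_ hF0
    simp only [← Hgcd, gcd_insert, gcd_singleton, id_eq, ← abs_eq_normalize, abs_neg]
  rw [hpZ.dvd_mul, hpZ.dvd_mul] at h1
  rcases h1 with (h3a | h3b) | h3c
  · refine flt_of_dvd_a_of_gcd_eq_one_of_case2 hp hodd ha h3a ?_ H hF0
    simp only [← Hgcd, gcd_insert, gcd_singleton, id_eq, ← abs_eq_normalize, abs_neg]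
  · rw [add_comm (a ^ p)] at hF0
    refine flt_of_dvd_a_of_gcd_eq_one_of_case2 hp hodd hb h3b ?_ H hF0
    simp only [← Hgcd, insert_comm, gcd_insert, gcd_singleton, id_eq, ← abs_eq_normalize, abs_neg]
  · rw [add_comm _ ((-c) ^ p), ← add_assoc] at hF0
    refine flt_of_dvd_a_of_gcd_eq_one_of_case2 hp hodd (neg_ne_zero.2 hc) (by simp [h3c])
      ?_ H hF0
    rw [Finset.insert_comm (-c), Finset.pair_comm (-c) b]
    simp only [← Hgcd, gcd_insert, gcd_singleton, id_eq, ← abs_eq_normalize, abs_neg]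

end Fermat.Agent.S11.GlueZ
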