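import Fermat.Agent.S11.EchKummer11

/-!
# Kummer's lemma for `p = 11` — public interface
-/

set_option autoImplicit false

open NumberField

namespace Fermat.Agent.S11

/-- **Kummer's lemma for `p = 11`**: a unit of `ℤ[ζ₁₁]` congruent to a rational integer
modulo `11` is an `11`-th power. -/
theorem kummer_lemma_eleven (K : Type*) [Field K] [NumberField K]
    [IsCyclotomicExtension {11} ℚ K] (u : (𝓞 K)ˣ)
    (h : ∃ m : ℤ, (11 : 𝓞 K) ∣ (u : 𝓞 K) - (m : 𝓞 K)) :
    ∃ v : (𝓞 K)ˣ, u = v ^ 11 :=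
  Ech.kummer_lemma_eleven' u h

end Fermat.Agent.S11
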