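import Mathlib

/-
Independent hedge of T2 (helper791): the ring of integers of the 11-th cyclotomic field is a PID.
Method: Minkowski bound (floor at most 59) and the Galois criterion from Mathlib; the only primes
needing work are 11 (generated by zeta - 1) and 23 (generated by zeta^4 + zeta^3 - 1).
-/

open NumberField Polynomial Ideal

namespace Fermat.Agent.S11.H791

variable (K : Type*) [Field K] [NumberField K] [IsCyclotomicExtension {11} ℚ K]

instance fact_prime_eleven : Fact (Nat.Prime 11) := ⟨by norm_num⟩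
instance fact_prime_twentythree : Fact (Nat.Prime 23) := ⟨by norm_num⟩

/-- the chosen primitive root in `𝓞 K` -/
noncomputable def zt : 𝓞 K := (IsCyclotomicExtension.zeta_spec 11 ℚ K).toInteger

lemma zt_prim : IsPrimitiveRoot (zt K) 11 :=
  (IsCyclotomicExtension.zeta_spec 11 ℚ K).toInteger_isPrimitiveRoot

lemma zt_rel : 1 + zt K + zt K ^ 2 + zt K ^ 3 + zt K ^ 4 + zt K ^ 5 + zt K ^ 6 + zt K ^ 7
    + zt K ^ 8 + zt K ^ 9 + zt K ^ 10 = 0 := by
  have h := (zt_prim K).geom_sum_eq_zero (by norm_num)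
  simpa [Finset.sum_range_succ] using h

lemma minpoly_zt : minpoly ℤ (zt K) = cyclotomic 11 ℤ := by
  have hζ := IsCyclotomicExtension.zeta_spec 11 ℚ K
  rw [cyclotomic_eq_minpoly hζ (by norm_num)]
  have : algebraMap (𝓞 K) K (zt K) = IsCyclotomicExtension.zeta 11 ℚ K := rfl
  rw [← this]
  exact (minpoly.algebraMap_eq (RingOfIntegers.coe_injective) (zt K)).symm

/-- the power basis `1, ζ, …, ζ^9` of `𝓞 K` -/
noncomputable def pb : PowerBasis ℤ (𝓞 K) :=
  (IsCyclotomicExtension.zeta_spec 11 ℚ K).integralPowerBasis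

lemma pb_gen : (pb K).gen = zt K :=
  (IsCyclotomicExtension.zeta_spec 11 ℚ K).integralPowerBasis_gen

lemma aeval_two_minpoly : aeval (2 : ZMod 23) (minpoly ℤ (pb K).gen) = 0 := by
  rw [pb_gen, minpoly_zt, cyclotomic_prime]
  simp [Finset.sum_range_succ]
  decide

/-- reduction modulo the prime `(23, ζ - 2)` -/
noncomputable def rho : 𝓞 K →ₐ[ℤ] ZMod 23 := (pb K).lift 2 (aeval_two_minpoly K)

lemma rho_zt : rho K (zt K) = 2 := by
  have := (pb K).lift_gen 2 (aeval_two_minpoly K)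
  rwa [pb_gen] at this


/-- the generator of a prime above 23 -/
noncomputable def al : 𝓞 K := zt K ^ 4 + zt K ^ 3 - 1

noncomputable def be : 𝓞 K := 1 + 13 * zt K - 4 * zt K ^ 2 - zt K ^ 3 + 12 * zt K ^ 4 + 7 * zt K ^ 5
  - 7 * zt K ^ 6 + 9 * zt K ^ 7 + 17 * zt K ^ 8 - 2 * zt K ^ 9

noncomputable def ga : 𝓞 K := - zt K + zt K ^ 2 - zt K ^ 4 + zt K ^ 6 - zt K ^ 7 - zt K ^ 8 + zt K ^ 9

lemma al_mul_be : al K * be K = 23 := by
  unfold al be
  linear_combination (-24 + 11 * zt K + 17 * zt K ^ 2 - 2 * zt K ^ 3) * zt_rel K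

lemma al_mul_ga : al K * ga K = zt K - 2 := by
  unfold al ga
  linear_combination (2 - 2 * zt K - zt K ^ 2 + zt K ^ 3) * zt_rel K

lemma rho_al : rho K (al K) = 0 := by
  unfold al
  simp only [map_sub, map_add, map_pow, map_one, rho_zt]
  decide

lemma exists_aeval (x : 𝓞 K) : ∃ f : ℤ[X], x = aeval (zt K) f := by
  obtain ⟨f, -, hf⟩ := (pb K).exists_eq_aeval x
  exact ⟨f, by rw [hf, pb_gen]⟩

lemma ker_rho_le : RingHom.ker (rho K) ≤ Ideal.span {al K} := by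
  intro x hx
  obtain ⟨f, rfl⟩ := exists_aeval K x
  rw [RingHom.mem_ker] at hx
  -- f = f(2) + (X - 2) * h
  obtain ⟨h, hh⟩ : (X - C (2 : ℤ)) ∣ f - C (f.eval 2) := by
    rw [Polynomial.dvd_iff_isRoot]; simp
  have hf : f = C (f.eval 2) + (X - C 2) * h := by rw [← hh]; ring
  have h1 : aeval (zt K) f = (f.eval 2 : ℤ) + (zt K - 2) * aeval (zt K) h := by
    conv_lhs => rw [hf]
    simp [map_ofNat]
  have h2 : ((f.eval 2 : ℤ) : ZMod 23) = 0 := by
    have := hx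
    rw [h1] at this
    simpa [rho_zt, map_ofNat] using this
  rw [ZMod.intCast_zmod_eq_zero_iff_dvd] at h2
  obtain ⟨m, hm⟩ := h2
  rw [h1, Ideal.mem_span_singleton]
  refine ⟨be K * m + ga K * aeval (zt K) h, ?_⟩
  rw [hm, mul_add, ← mul_assoc, ← mul_assoc, al_mul_be, al_mul_ga]
  push_cast
  ring

lemma ker_rho_eq : RingHom.ker (rho K) = Ideal.span {al K} :=
  le_antisymm (ker_rho_le K) (by
    rw [Ideal.span_singleton_le_iff_mem, RingHom.mem_ker]; exact rho_al K)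

lemma ker_rho_mem_primesOver :
    RingHom.ker (rho K) ∈ Ideal.primesOver (Ideal.span {((23 : ℕ) : ℤ)}) (𝓞 K) := by
  refine ⟨RingHom.ker_isPrime _, ⟨?_⟩⟩
  ext n
  rw [Ideal.mem_span_singleton, Ideal.under_def, Ideal.mem_comap, RingHom.mem_ker]
  simp only [algebraMap_int_eq, eq_intCast, map_intCast]
  rw [ZMod.intCast_zmod_eq_zero_iff_dvd]


open InfinitePlace in
lemma minkowski_floor_le :
    ⌊(4 / Real.pi) ^ nrComplexPlaces K *
      ((Module.finrank ℚ K).factorial / (Module.finrank ℚ K) ^ (Module.finrank ℚ K) *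
        √|(discr K : ℝ)|)⌋₊ ≤ 59 := by
  rw [IsCyclotomicExtension.Rat.discr_prime 11 K, IsCyclotomicExtension.Rat.finrank 11 K,
    IsCyclotomicExtension.Rat.nrComplexPlaces_eq_totient_div_two 11,
    Nat.totient_prime (by norm_num : Nat.Prime 11)]
  have h1 : (4 / Real.pi : ℝ) ≤ 4 / 3.14 := by
    have := Real.pi_gt_d2
    gcongr
  have h1' : (0 : ℝ) ≤ 4 / Real.pi := by positivity
  have h2 : √|(((-1 : ℤ) ^ ((11 - 1) / 2) * ((11 : ℕ) : ℤ) ^ (11 - 2) : ℤ) : ℝ)| ≤ 48608.12 := by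
    rw [Real.sqrt_le_left (by norm_num)]
    norm_num
  apply Nat.le_of_lt_succ
  rw [Nat.floor_lt (by positivity)]
  calc (4 / Real.pi) ^ ((11 - 1) / 2) * (((11 - 1 : ℕ).factorial : ℝ) / ((11 - 1 : ℕ) : ℝ) ^ (11 - 1)
        * √|(((-1 : ℤ) ^ ((11 - 1) / 2) * ((11 : ℕ) : ℤ) ^ (11 - 2) : ℤ) : ℝ)|)
      ≤ (4 / 3.14) ^ ((11 - 1) / 2) * (((11 - 1 : ℕ).factorial : ℝ) / ((11 - 1 : ℕ) : ℝ) ^ (11 - 1)
        * 48608.12) := by gcongr
    _ < ((59 + 1 : ℕ) : ℝ) := by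
      norm_num [Nat.factorial]


lemma lt_pow_orderOf (p k : ℕ) (hk : 59 < p ^ k) (h1 : 1 < p)
    (hfin : ((p : ℕ) : ZMod 11) ^ 10 = 1)
    (h : ∀ m < k, 0 < m → ((p : ℕ) : ZMod 11) ^ m ≠ 1) :
    59 < p ^ orderOf ((p : ℕ) : ZMod 11) := by
  have hpos : 0 < orderOf ((p : ℕ) : ZMod 11) :=
    orderOf_pos_iff.2 (isOfFinOrder_iff_pow_eq_one.2 ⟨10, by norm_num, hfin⟩)
  have hle : k ≤ orderOf ((p : ℕ) : ZMod 11) := by
    by_contra hlt
    exact h _ (not_le.1 hlt) hpos (pow_orderOf_eq_one _)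
  exact lt_of_lt_of_le hk (Nat.pow_le_pow_right (by omega) hle)

theorem eleven_pid : IsPrincipalIdealRing (𝓞 K) := by
  have : IsGalois ℚ K := IsCyclotomicExtension.isGalois {11} ℚ K
  apply RingOfIntegers.isPrincipalIdealRing_of_isPrincipal_of_lt_or_isPrincipal_of_mem_primesOver_of_mem_Icc
  intro p hp hpp
  have hM := minkowski_floor_le K
  have hp59 : p ≤ 59 := (Finset.mem_Icc.1 hp).2.trans hM
  by_cases h11 : p = 11
  · subst h11
    have hζ := IsCyclotomicExtension.zeta_spec 11 ℚ K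
    have hK : IsCyclotomicExtension {11 ^ (0 + 1)} ℚ K := by simpa using ‹IsCyclotomicExtension {11} ℚ K›
    have hζ' : IsPrimitiveRoot (IsCyclotomicExtension.zeta 11 ℚ K) (11 ^ (0 + 1)) := by simpa using hζ
    exact ⟨Ideal.span {hζ'.toInteger - 1},
      ⟨IsCyclotomicExtension.Rat.isPrime_span_zeta_sub_one 11 0 hζ',
        IsCyclotomicExtension.Rat.liesOver_span_zeta_sub_one 11 0 hζ'⟩, Or.inr ⟨⟨_, rfl⟩⟩⟩
  by_cases h23 : p = 23
  · subst h23
    exact ⟨RingHom.ker (rho K), ker_rho_mem_primesOver K, Or.inr ⟨⟨al K, ker_rho_eq K⟩⟩⟩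
  have : Fact p.Prime := ⟨hpp⟩
  obtain ⟨⟨P, hP1, hP2⟩⟩ := (Ideal.span {(p : ℤ)}).nonempty_primesOver (S := 𝓞 K)
  refine ⟨P, ⟨hP1, hP2⟩, Or.inl ?_⟩
  have hnd : ¬ p ∣ 11 := by
    intro h
    rcases (Nat.dvd_prime (by norm_num : Nat.Prime 11)).1 h with h | h
    · exact hpp.one_lt.ne' h
    · exact h11 h
  rw [IsCyclotomicExtension.Rat.inertiaDeg_eq_of_not_dvd p K P hnd]
  apply lt_of_le_of_lt hM
  clear hP2 hP1 P hM hp this
  interval_cases p <;>
  first
  | (exfalso; revert hpp; norm_num; done)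
  | (exfalso; exact h11 rfl)
  | (exfalso; exact h23 rfl)
  | (refine lt_pow_orderOf _ 2 ?_ ?_ ?_ ?_
     · norm_num
     · norm_num
     · decide
     · decide)
  | (refine lt_pow_orderOf _ 3 ?_ ?_ ?_ ?_
     · norm_num
     · norm_num
     · decide
     · decide)
  | (refine lt_pow_orderOf _ 4 ?_ ?_ ?_ ?_
     · norm_num
     · norm_num
     · decide
     · decide)
  | (refine lt_pow_orderOf _ 6 ?_ ?_ ?_ ?_
     · norm_num
     · norm_num
     · decide
     · decide)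

end Fermat.Agent.S11.H791
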