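import Fermat.Agent.S11.CaseI
import Fermat.Agent.S11.GlueZ
import Fermat.Agent.S11.GlueBridge
import Fermat.Agent.S11.CaseII
import Fermat.Agent.S11.PID791
import Fermat.Agent.S11.Kummer11

/-!
# Fermat's Last Theorem for exponent 11 (Kummer; class number one)
-/

set_option autoImplicit false

namespace Fermat.Agent.S11

open NumberField

set_option backward.isDefEq.respectTransparency false in
/-- Fermat's Last Theorem for exponent `11` (Kummer). -/
theorem flt_eleven : FermatLastTheoremFor 11 := by
  haveI : Fact (Nat.Prime 11) := ⟨by norm_num⟩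
  haveI hcyc : IsCyclotomicExtension {11} ℚ (CyclotomicField 11 ℚ) :=
    CyclotomicField.isCyclotomicExtension 11 ℚ
  haveI : NumberField (CyclotomicField 11 ℚ) := IsCyclotomicExtension.numberField {11} ℚ _
  have hζ := IsCyclotomicExtension.zeta_spec 11 ℚ (CyclotomicField 11 ℚ)
  haveI : IsPrincipalIdealRing (𝓞 (CyclotomicField 11 ℚ)) :=
    H791.eleven_pid (CyclotomicField 11 ℚ)
  refine GlueZ.flt_of_caseI_of_caseII (p := 11) (by norm_num) (by decide)
    (fun a b c hab h => caseI_eleven hab h) ?_
  refine GlueBridge.caseII_int_of_gen (p := 11) hζ ?_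
  intro a b c u hc ha hb hcdvd hab
  exact CaseII.caseII_gen hζ (by norm_num)
    (fun u hu => kummer_lemma_eleven (CyclotomicField 11 ℚ) u (by simpa using hu))
    a b c u hc ha hb hcdvd hab

end Fermat.Agent.S11
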