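import Mathlib

/-!
# Sophie Germain's theorem for the exponent 11 (auxiliary prime 23)

If `x ^ 11 + y ^ 11 + z ^ 11 = 0` with `x, y, z` pairwise coprime integers then `11 ∣ x * y * z`
("first case" of Fermat's Last Theorem for the exponent `11`).
-/

set_option autoImplicit false

namespace Fermat.Agent.S11

/-- The cofactor `(y ^ 11 + z ^ 11) / (y + z)`. -/
def sgPhi (y z : ℤ) : ℤ :=
  y ^ 10 - y ^ 9 * z + y ^ 8 * z ^ 2 - y ^ 7 * z ^ 3 + y ^ 6 * z ^ 4 - y ^ 5 * z ^ 5 + y ^ 4 * z ^ 6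
    - y ^ 3 * z ^ 7 + y ^ 2 * z ^ 8 - y * z ^ 9 + z ^ 10

lemma sgPhi_mul (y z : ℤ) : (y + z) * sgPhi y z = y ^ 11 + z ^ 11 := by
  unfold sgPhi; ring

lemma sgPhi_comm (y z : ℤ) : sgPhi y z = sgPhi z y := by
  unfold sgPhi; ring

/-- `sgPhi y z = 11 * y ^ 10 + (y + z) * k`. -/
lemma sgPhi_eq_add (y z : ℤ) : ∃ k : ℤ, sgPhi y z = 11 * y ^ 10 + (y + z) * k := by
  refine ⟨-55 * y ^ 9 + 165 * y ^ 8 * (y + z) - 330 * y ^ 7 * (y + z) ^ 2
    + 462 * y ^ 6 * (y + z) ^ 3 - 462 * y ^ 5 * (y + z) ^ 4 + 330 * y ^ 4 * (y + z) ^ 5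
    - 165 * y ^ 3 * (y + z) ^ 6 + 55 * y ^ 2 * (y + z) ^ 7 - 11 * y * (y + z) ^ 8
    + (y + z) ^ 9, ?_⟩
  unfold sgPhi; ring

lemma sg_isCoprime_add_sgPhi {y z : ℤ} (hyz : IsCoprime y z) (h11 : ¬ (11 : ℤ) ∣ y + z) :
    IsCoprime (y + z) (sgPhi y z) := by
  obtain ⟨k, hk⟩ := sgPhi_eq_add y z
  rw [hk]
  apply IsCoprime.add_mul_left_right
  apply IsCoprime.mul_right
  · have hp : Prime (11 : ℤ) := by
      rw [Int.prime_iff_natAbs_prime]; norm_num
    exact ((Prime.coprime_iff_not_dvd hp).2 h11).symm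
  · apply IsCoprime.pow_right
    have : IsCoprime z y := hyz.symm
    simpa [add_comm] using (IsCoprime.add_mul_left_left this 1)

/-- If `x ^ 11 + y ^ 11 + z ^ 11 = 0`, `y, z` coprime and `11 ∤ x` then `y + z` and
`sgPhi y z` are eleventh powers. -/
lemma sg_exists_pow {x y z : ℤ} (hyz : IsCoprime y z) (h : x ^ 11 + y ^ 11 + z ^ 11 = 0)
    (h11 : ¬ (11 : ℤ) ∣ x) :
    (∃ a : ℤ, y + z = a ^ 11) ∧ (∃ α : ℤ, sgPhi y z = α ^ 11) := by
  have hmul : (y + z) * sgPhi y z = (-x) ^ 11 := by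
    rw [sgPhi_mul]; linear_combination h
  have hp : Prime (11 : ℤ) := by
    rw [Int.prime_iff_natAbs_prime]; norm_num
  have hnd : ¬ (11 : ℤ) ∣ y + z := by
    intro hd
    have h1 : (11 : ℤ) ∣ (-x) ^ 11 := by
      rw [← hmul]; exact Dvd.dvd.mul_right hd _
    have h2 : (11 : ℤ) ∣ -x := hp.dvd_of_dvd_pow h1
    exact h11 ((dvd_neg).1 h2)
  have hcop := sg_isCoprime_add_sgPhi hyz hnd
  have hodd : Odd 11 := by decide
  exact ⟨Int.eq_pow_of_mul_eq_pow_odd_left hcop hodd hmul,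
    Int.eq_pow_of_mul_eq_pow_odd_right hcop hodd hmul⟩

/-- Eleventh powers modulo `23` are `0`, `1` or `-1`. -/
lemma sg_pow_eleven_zmod (t : ZMod 23) : (t = 0 ∧ t ^ 11 = 0) ∨ (t ≠ 0 ∧ (t ^ 11 = 1 ∨ t ^ 11 = -1)) := by
  revert t; decide

lemma sg_zmod_sum_three {a b c : ZMod 23} (h : a ^ 11 + b ^ 11 + c ^ 11 = 0) :
    a = 0 ∨ b = 0 ∨ c = 0 := by
  rcases sg_pow_eleven_zmod a with ⟨ha, -⟩ | ⟨-, ha⟩
  · exact Or.inl ha
  rcases sg_pow_eleven_zmod b with ⟨hb, -⟩ | ⟨-, hb⟩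
  · exact Or.inr (Or.inl hb)
  rcases sg_pow_eleven_zmod c with ⟨hc, -⟩ | ⟨-, hc⟩
  · exact Or.inr (Or.inr hc)
  exfalso
  rcases ha with ha | ha <;> rcases hb with hb | hb <;> rcases hc with hc | hc <;>
    rw [ha, hb, hc] at h <;> revert h <;> decide

lemma sg_pow_ten_ne_zero : ∀ y : ZMod 23, y ≠ 0 → y ^ 10 ≠ 0 := by decide

lemma sg_zmod_final {y α γ : ZMod 23} (hy : y ≠ 0) (hα : α ^ 11 = 11 * y ^ 10)
    (hγ : γ ^ 11 = y ^ 10) : False := by
  have hy10 : y ^ 10 ≠ 0 := sg_pow_ten_ne_zero y hy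
  have hγ' : y ^ 10 = 1 ∨ y ^ 10 = -1 := by
    rcases sg_pow_eleven_zmod γ with ⟨-, h0⟩ | ⟨-, h1⟩
    · exact absurd (hγ ▸ h0) hy10
    · rwa [hγ] at h1
  rcases sg_pow_eleven_zmod α with ⟨-, h0⟩ | ⟨-, h1⟩
  · rw [hα] at h0
    rcases hγ' with h | h <;> rw [h] at h0 <;> revert h0 <;> decide
  · rw [hα] at h1
    rcases hγ' with h | h <;> rw [h] at h1 <;> revert h1 <;> decide

lemma sg_not_dvd_of_isCoprime {x y : ℤ} (hxy : IsCoprime x y) (hx : (23 : ℤ) ∣ x) :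
    ¬ (23 : ℤ) ∣ y := by
  intro hy
  have hu : IsUnit (23 : ℤ) := hxy.isUnit_of_dvd' hx hy
  rw [Int.isUnit_iff] at hu
  omega

/-- The core of Sophie Germain's argument: the case `23 ∣ x`. -/
lemma sg_aux {x y z : ℤ} (hxy : IsCoprime x y) (hyz : IsCoprime y z) (hzx : IsCoprime z x)
    (h : x ^ 11 + y ^ 11 + z ^ 11 = 0) (hx11 : ¬ (11 : ℤ) ∣ x) (hy11 : ¬ (11 : ℤ) ∣ y)
    (hz11 : ¬ (11 : ℤ) ∣ z) (hq : (23 : ℤ) ∣ x) : False := by
  obtain ⟨⟨a, ha⟩, ⟨α, hα⟩⟩ := sg_exists_pow hyz h hx11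
  have h' : y ^ 11 + z ^ 11 + x ^ 11 = 0 := by linear_combination h
  obtain ⟨⟨b, hb⟩, -⟩ := sg_exists_pow hzx h' hy11
  have h'' : z ^ 11 + x ^ 11 + y ^ 11 = 0 := by linear_combination h
  obtain ⟨⟨c, hc⟩, ⟨γ, hγ⟩⟩ := sg_exists_pow hxy h'' hz11
  have hx0 : (x : ZMod 23) = 0 := (ZMod.intCast_zmod_eq_zero_iff_dvd x 23).2 (by exact_mod_cast hq)
  have hy0 : (y : ZMod 23) ≠ 0 := by
    intro h0
    have := (ZMod.intCast_zmod_eq_zero_iff_dvd y 23).1 h0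
    exact sg_not_dvd_of_isCoprime hxy hq (by exact_mod_cast this)
  have hz0 : (z : ZMod 23) ≠ 0 := by
    intro h0
    have := (ZMod.intCast_zmod_eq_zero_iff_dvd z 23).1 h0
    exact sg_not_dvd_of_isCoprime hzx.symm hq (by exact_mod_cast this)
  have ha' : (y : ZMod 23) + z = (a : ZMod 23) ^ 11 := by
    have := congrArg (Int.cast : ℤ → ZMod 23) ha
    push_cast at this; exact this
  have hb' : (z : ZMod 23) + x = (b : ZMod 23) ^ 11 := by
    have := congrArg (Int.cast : ℤ → ZMod 23) hb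
    push_cast at this; exact this
  have hc' : (x : ZMod 23) + y = (c : ZMod 23) ^ 11 := by
    have := congrArg (Int.cast : ℤ → ZMod 23) hc
    push_cast at this; exact this
  have hα' : (α : ZMod 23) ^ 11 = ((sgPhi y z : ℤ) : ZMod 23) := by
    have := congrArg (Int.cast : ℤ → ZMod 23) hα
    push_cast at this; exact this.symm
  have hγ' : (γ : ZMod 23) ^ 11 = ((sgPhi x y : ℤ) : ZMod 23) := by
    have := congrArg (Int.cast : ℤ → ZMod 23) hγ
    push_cast at this; exact this.symm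
  rw [hx0] at hb' hc'
  have hsum : (c : ZMod 23) ^ 11 + (b : ZMod 23) ^ 11 + (-(a : ZMod 23)) ^ 11 = 0 := by
    have : (-(a : ZMod 23)) ^ 11 = - (a : ZMod 23) ^ 11 := by ring
    rw [this, ← ha', ← hb', ← hc']; ring
  rcases sg_zmod_sum_three hsum with hc0 | hb0 | ha0
  · rw [hc0] at hc'
    apply hy0
    simpa using hc'
  · rw [hb0] at hb'
    apply hz0
    simpa using hb'
  · have ha0' : (a : ZMod 23) = 0 := by simpa using ha0
    rw [ha0'] at ha'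
    have hzy : (z : ZMod 23) = -y := by
      have : (y : ZMod 23) + z = 0 := by simpa using ha'
      linear_combination this
    have e1 : ((sgPhi y z : ℤ) : ZMod 23) = 11 * (y : ZMod 23) ^ 10 := by
      unfold sgPhi; push_cast; rw [hzy]; ring
    have e2 : ((sgPhi x y : ℤ) : ZMod 23) = (y : ZMod 23) ^ 10 := by
      unfold sgPhi; push_cast; rw [hx0]; ring
    rw [e1] at hα'
    rw [e2] at hγ'
    exact sg_zmod_final hy0 hα' hγ'

/-- **Sophie Germain's theorem** for the exponent `11` (auxiliary prime `23 = 2 * 11 + 1`). -/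
theorem sophieGermain_eleven (x y z : ℤ) (hxy : IsCoprime x y) (hyz : IsCoprime y z)
    (hzx : IsCoprime z x) (h : x ^ 11 + y ^ 11 + z ^ 11 = 0) : (11 : ℤ) ∣ x * y * z := by
  by_contra hnd
  have hx11 : ¬ (11 : ℤ) ∣ x := fun hd => hnd (Dvd.dvd.mul_right (Dvd.dvd.mul_right hd _) _)
  have hy11 : ¬ (11 : ℤ) ∣ y := fun hd => hnd (Dvd.dvd.mul_right (Dvd.dvd.mul_left hd _) _)
  have hz11 : ¬ (11 : ℤ) ∣ z := fun hd => hnd (Dvd.dvd.mul_left hd _)
  have hmod : (x : ZMod 23) ^ 11 + (y : ZMod 23) ^ 11 + (z : ZMod 23) ^ 11 = 0 := by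
    have := congrArg (Int.cast : ℤ → ZMod 23) h
    push_cast at this; exact this
  have key : ∀ t : ℤ, (t : ZMod 23) = 0 → (23 : ℤ) ∣ t := fun t ht => by
    have := (ZMod.intCast_zmod_eq_zero_iff_dvd t 23).1 ht
    exact_mod_cast this
  rcases sg_zmod_sum_three hmod with hx0 | hy0 | hz0
  · exact sg_aux hxy hyz hzx h hx11 hy11 hz11 (key x hx0)
  · exact sg_aux hyz hzx hxy (by linear_combination h) hy11 hz11 hx11 (key y hy0)
  · exact sg_aux hzx hxy hyz (by linear_combination h) hz11 hx11 hy11 (key z hz0)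

/-- First case of Fermat's Last Theorem for exponent `11`, pairwise coprime version. -/
theorem caseI_eleven_aux (a b c : ℤ) (hab : IsCoprime a b) (hac : IsCoprime a c)
    (hbc : IsCoprime b c) (h : a ^ 11 + b ^ 11 = c ^ 11) : (11 : ℤ) ∣ a * b * c := by
  have h' : a ^ 11 + b ^ 11 + (-c) ^ 11 = 0 := by
    have : (-c) ^ 11 = - c ^ 11 := by ring
    rw [this, h]; ring
  have := sophieGermain_eleven a b (-c) hab hbc.neg_right hac.symm.neg_left h'
  have h2 : a * b * -c = -(a * b * c) := by ring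
  rw [h2] at this
  exact (dvd_neg).1 this

lemma sg_isCoprime_of_eq {a b c : ℤ} (hab : IsCoprime a b) (h : a ^ 11 + b ^ 11 = c ^ 11) :
    IsCoprime a c := by
  have h1 : IsCoprime a (b ^ 11 + a * a ^ 10) :=
    IsCoprime.add_mul_left_right (hab.pow_right) _
  have h2 : b ^ 11 + a * a ^ 10 = c ^ 11 := by rw [← h]; ring
  rw [h2] at h1
  exact (IsCoprime.pow_right_iff (by norm_num)).1 h1

/-- **T1**: first case of Fermat's Last Theorem for exponent `11` (Sophie Germain, `q = 23`). -/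
theorem caseI_eleven {a b c : ℤ} (hab : IsCoprime a b) (h : ¬ (11 : ℤ) ∣ a * b * c) :
    a ^ 11 + b ^ 11 ≠ c ^ 11 := by
  intro heq
  have hac : IsCoprime a c := sg_isCoprime_of_eq hab heq
  have hbc : IsCoprime b c := sg_isCoprime_of_eq hab.symm (by rw [add_comm]; exact heq)
  exact h (caseI_eleven_aux a b c hab hac hbc heq)

end Fermat.Agent.S11
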