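import Mathlib

/-!
# Abstract counting lemma for Kummer's lemma (echelon method)

Let `G` be a commutative group generated (as a group) by a family `gens : ι → G`, let `H` be a
submonoid containing all `p`-th powers, and let `e : κ → G` be a family with
`card ι ≤ card κ` which is "independent modulo `H`".  Then every element of `H` is a `p`-th power.
-/

set_option autoImplicit false

namespace Fermat.Agent.S11.Ech

open Function

variable {G : Type*} [CommGroup G]

theorem prod_zpow_eq_prod_pow_mul_pow {ι : Type*} [Fintype ι] (p : ℕ) (hp : 0 < p)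
    (g : ι → G) (K : ι → ℤ) :
    ∏ i, g i ^ K i = (∏ i, g i ^ ((K i % (p : ℤ)).toNat)) * (∏ i, g i ^ (K i / (p : ℤ))) ^ p := by
  rw [← Finset.prod_pow, ← Finset.prod_mul_distrib]
  refine Finset.prod_congr rfl fun i _ => ?_
  have hp' : (0 : ℤ) < p := by exact_mod_cast hp
  have h1 : (0 : ℤ) ≤ K i % p := Int.emod_nonneg _ hp'.ne'
  rw [← zpow_natCast (g i) (K i % (p : ℤ)).toNat, Int.toNat_of_nonneg h1, ← zpow_natCast _ p,
    ← zpow_mul, ← zpow_add]
  congr 1
  rw [mul_comm]
  exact (Int.emod_add_mul_ediv (K i) p).symm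

theorem exists_pow_eq_of_counting (p : ℕ) [hp : Fact p.Prime]
    {ι κ : Type*} [Fintype ι] [Fintype κ] (hcard : Fintype.card ι ≤ Fintype.card κ)
    (gens : ι → G) (hgens : ∀ x : G, ∃ k : ι → ℤ, x = ∏ i, gens i ^ k i)
    (H : Submonoid G) (hH : ∀ x : G, x ^ p ∈ H)
    (e : κ → G)
    (hind : ∀ n : κ → ℤ, (∏ i, e i ^ n i) ∈ H → ∀ i, (p : ℤ) ∣ n i) :
    ∀ u ∈ H, ∃ v : G, u = v ^ p := by
  classical
  have hp0 : 0 < p := hp.out.pos
  let P : Subgroup G := (powMonoidHom p : G →* G).range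
  have hP : ∀ x : G, x ∈ P ↔ ∃ w : G, w ^ p = x := fun x => by
    simp [P, MonoidHom.mem_range]
  let φ : (ι → Fin p) → G ⧸ P := fun k => QuotientGroup.mk (∏ i, gens i ^ (k i : ℕ))
  let ψ : (κ → Fin p) → G ⧸ P := fun n => QuotientGroup.mk (∏ i, e i ^ (n i : ℕ))
  have hφ : Surjective φ := by
    intro v
    obtain ⟨x, rfl⟩ := QuotientGroup.mk_surjective v
    obtain ⟨K, hK⟩ := hgens x
    have hp' : (0 : ℤ) < p := by exact_mod_cast hp0
    refine ⟨fun i => ⟨(K i % (p : ℤ)).toNat, ?_⟩, ?_⟩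
    · have h1 : (0 : ℤ) ≤ K i % p := Int.emod_nonneg _ hp'.ne'
      have h2 : K i % p < p := Int.emod_lt_of_pos _ hp'
      omega
    · simp only [φ]
      rw [QuotientGroup.eq, hP]
      refine ⟨∏ i, gens i ^ (K i / (p : ℤ)), ?_⟩
      rw [hK, prod_zpow_eq_prod_pow_mul_pow p hp0 gens K]
      simp
  have hψ : Injective ψ := by
    intro n m hnm
    simp only [ψ] at hnm
    rw [QuotientGroup.eq, hP] at hnm
    obtain ⟨w, hw⟩ := hnm
    have key : ∏ i, e i ^ ((m i : ℕ) - (n i : ℕ) : ℤ) ∈ H := by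
      have : ∏ i, e i ^ ((m i : ℕ) - (n i : ℕ) : ℤ) = w ^ p := by
        rw [hw, ← Finset.prod_inv_distrib, ← Finset.prod_mul_distrib]
        refine Finset.prod_congr rfl fun i _ => ?_
        rw [zpow_sub, zpow_natCast, zpow_natCast, mul_comm]
      rw [this]
      exact hH w
    have := hind _ key
    funext i
    have hi := this i
    have h1 := (n i).isLt
    have h2 := (m i).isLt
    apply Fin.ext
    obtain ⟨c, hc⟩ := hi
    have hp' : (0 : ℤ) < p := by exact_mod_cast hp0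
    have h1' : ((n i : ℕ) : ℤ) < p := by exact_mod_cast h1
    have h2' : ((m i : ℕ) : ℤ) < p := by exact_mod_cast h2
    have h3 : (0 : ℤ) ≤ ((n i : ℕ) : ℤ) := by positivity
    have h4 : (0 : ℤ) ≤ ((m i : ℕ) : ℤ) := by positivity
    have hc0 : c = 0 := by
      by_contra hne
      rcases lt_or_gt_of_ne hne with h | h
      · have : (p : ℤ) * c ≤ (p : ℤ) * (-1) := mul_le_mul_of_nonneg_left (by omega) hp'.le
        nlinarith
      · have : (p : ℤ) * 1 ≤ (p : ℤ) * c := mul_le_mul_of_nonneg_left (by omega) hp'.le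
        nlinarith
    rw [hc0, mul_zero] at hc
    have : ((n i : ℕ) : ℤ) = ((m i : ℕ) : ℤ) := by linarith
    exact_mod_cast this
  have : Finite (G ⧸ P) := Finite.of_surjective φ hφ
  have hcardV : Nat.card (G ⧸ P) ≤ Nat.card (κ → Fin p) := by
    calc Nat.card (G ⧸ P) ≤ Nat.card (ι → Fin p) := Nat.card_le_card_of_surjective φ hφ
      _ = p ^ Fintype.card ι := by simp [Nat.card_eq_fintype_card]
      _ ≤ p ^ Fintype.card κ := Nat.pow_le_pow_right hp0 hcard
      _ = Nat.card (κ → Fin p) := by simp [Nat.card_eq_fintype_card]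
  have hψb : Bijective ψ := hψ.bijective_of_nat_card_le hcardV
  intro u hu
  obtain ⟨n, hn⟩ := hψb.2 (QuotientGroup.mk u)
  simp only [ψ] at hn
  rw [QuotientGroup.eq, hP] at hn
  obtain ⟨w, hw⟩ := hn
  have hmem : ∏ i, e i ^ ((n i : ℕ) : ℤ) ∈ H := by
    have : ∏ i, e i ^ ((n i : ℕ) : ℤ) = u * (w⁻¹) ^ p := by
      simp only [zpow_natCast]
      rw [inv_pow, hw]
      simp
    rw [this]
    exact H.mul_mem hu (hH _)
  have hn0 : ∀ i, (n i : ℕ) = 0 := by
    intro i
    obtain ⟨c, hc⟩ := hind _ hmem i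
    have h1 := (n i).isLt
    have hp' : (0 : ℤ) < p := by exact_mod_cast hp0
    have h1' : ((n i : ℕ) : ℤ) < p := by exact_mod_cast h1
    have h3 : (0 : ℤ) ≤ ((n i : ℕ) : ℤ) := by positivity
    have hc0 : c = 0 := by
      by_contra hne
      rcases lt_or_gt_of_ne hne with h | h
      · have : (p : ℤ) * c ≤ (p : ℤ) * (-1) := mul_le_mul_of_nonneg_left (by omega) hp'.le
        nlinarith
      · have : (p : ℤ) * 1 ≤ (p : ℤ) * c := mul_le_mul_of_nonneg_left (by omega) hp'.le
        nlinarith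
    rw [hc0, mul_zero] at hc
    exact_mod_cast hc
  refine ⟨w, ?_⟩
  rw [hw]
  simp [hn0]

end Fermat.Agent.S11.Ech
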