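import Fermat.Agent.S11.EchLevel

/-!
# Explicit echelon units in `ℤ[ζ₁₁]` (machine-generated certificates)
-/

set_option autoImplicit false
set_option linter.unusedSectionVars false
set_option linter.style.longLine false

open NumberField

namespace Fermat.Agent.S11.Ech

variable {K : Type*} [Field K] [NumberField K] [IsCyclotomicExtension {11} ℚ K]
  {ζ : K} (hζ : IsPrimitiveRoot ζ 11)

theorem sum_zeta_eleven :
    1 + hζ.toInteger + hζ.toInteger ^ 2 + hζ.toInteger ^ 3 + hζ.toInteger ^ 4 + hζ.toInteger ^ 5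
      + hζ.toInteger ^ 6 + hζ.toInteger ^ 7 + hζ.toInteger ^ 8 + hζ.toInteger ^ 9
      + hζ.toInteger ^ 10 = 0 := by
  have h := hζ.toInteger_isPrimitiveRoot.geom_sum_eq_zero (by norm_num : 1 < 11)
  simpa [Finset.sum_range_succ] using h

/-- `ζ` as a unit. -/
noncomputable def zetaU : (𝓞 K)ˣ := (hζ.toInteger_isPrimitiveRoot.isUnit (by norm_num)).unit

@[simp] theorem zetaU_val : ((zetaU hζ : (𝓞 K)ˣ) : 𝓞 K) = hζ.toInteger := rfl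

/-- The cyclotomic unit `1 + ζ + ⋯ + ζ^(j-1)`. -/
noncomputable def cyc (j : ℕ) (hj : j.Coprime 11) : (𝓞 K)ˣ :=
  (hζ.toInteger_isPrimitiveRoot.geom_sum_isUnit (by norm_num) hj).unit

theorem cyc_val (j : ℕ) (hj : j.Coprime 11) :
    ((cyc hζ j hj : (𝓞 K)ˣ) : 𝓞 K) = ∑ i ∈ Finset.range j, hζ.toInteger ^ i := rfl

/-- Echelon unit of level 2. -/
noncomputable def ech2 : (𝓞 K)ˣ := zetaU hζ ^ 10 * cyc hζ 3 (by norm_num) ^ 1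

theorem ech2_val : ((ech2 hζ : (𝓞 K)ˣ) : 𝓞 K) = hζ.toInteger ^ 10 * (1 + hζ.toInteger + hζ.toInteger ^ 2) ^ 1 := by
  simp [ech2, cyc_val, Finset.sum_range_succ]

theorem ech2_level : (hζ.toInteger - 1) ^ (1 + 2) ∣
    ((ech2 hζ : (𝓞 K)ˣ) : 𝓞 K) - ((3 : ℤ) : 𝓞 K) - ((1 : ℤ) : 𝓞 K) * (hζ.toInteger - 1) ^ (1 + 1) := by
  refine ⟨(1) + (1) * hζ.toInteger + (1) * hζ.toInteger ^ 2 + (1) * hζ.toInteger ^ 3 + (1) * hζ.toInteger ^ 4 + (1) * hζ.toInteger ^ 5 + (1) * hζ.toInteger ^ 6 + (1) * hζ.toInteger ^ 7 + (1) * hζ.toInteger ^ 8 + (1) * hζ.toInteger ^ 9, ?_⟩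
  rw [ech2_val]
  push_cast
  linear_combination ((-3) + (3) * hζ.toInteger) * sum_zeta_eleven hζ

/-- Echelon unit of level 4. -/
noncomputable def ech4 : (𝓞 K)ˣ := zetaU hζ ^ 4 * cyc hζ 2 (by norm_num) ^ 1 * cyc hζ 3 (by norm_num) ^ 1

theorem ech4_val : ((ech4 hζ : (𝓞 K)ˣ) : 𝓞 K) = hζ.toInteger ^ 4 * (1 + hζ.toInteger) ^ 1 * (1 + hζ.toInteger + hζ.toInteger ^ 2) ^ 1 := by
  simp [ech4, cyc_val, Finset.sum_range_succ]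

theorem ech4_level : (hζ.toInteger - 1) ^ (3 + 2) ∣
    ((ech4 hζ : (𝓞 K)ˣ) : 𝓞 K) - ((-5 : ℤ) : 𝓞 K) - ((-1 : ℤ) : 𝓞 K) * (hζ.toInteger - 1) ^ (3 + 1) := by
  refine ⟨(1) * hζ.toInteger + (1) * hζ.toInteger ^ 2 + (-1) * hζ.toInteger ^ 4 + (-1) * hζ.toInteger ^ 5 + (1) * hζ.toInteger ^ 7 + (1) * hζ.toInteger ^ 8, ?_⟩
  rw [ech4_val]
  push_cast
  linear_combination ((6) + (-9) * hζ.toInteger + (5) * hζ.toInteger ^ 2 + (-1) * hζ.toInteger ^ 3) * sum_zeta_eleven hζ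

/-- Echelon unit of level 6. -/
noncomputable def ech6 : (𝓞 K)ˣ := zetaU hζ ^ 5 * cyc hζ 2 (by norm_num) ^ 1 * cyc hζ 4 (by norm_num) ^ 1 * cyc hζ 5 (by norm_num) ^ 2

theorem ech6_val : ((ech6 hζ : (𝓞 K)ˣ) : 𝓞 K) = hζ.toInteger ^ 5 * (1 + hζ.toInteger) ^ 1 * (1 + hζ.toInteger + hζ.toInteger ^ 2 + hζ.toInteger ^ 3) ^ 1 * (1 + hζ.toInteger + hζ.toInteger ^ 2 + hζ.toInteger ^ 3 + hζ.toInteger ^ 4) ^ 2 := by
  simp [ech6, cyc_val, Finset.sum_range_succ]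

theorem ech6_level : (hζ.toInteger - 1) ^ (5 + 2) ∣
    ((ech6 hζ : (𝓞 K)ˣ) : 𝓞 K) - ((2 : ℤ) : 𝓞 K) - ((-1 : ℤ) : 𝓞 K) * (hζ.toInteger - 1) ^ (5 + 1) := by
  refine ⟨(-61) + (-338) * hζ.toInteger + (-744) * hζ.toInteger ^ 2 + (-1150) * hζ.toInteger ^ 3 + (-1427) * hζ.toInteger ^ 4 + (-1487) * hζ.toInteger ^ 5 + (-1311) * hζ.toInteger ^ 6 + (-955) * hζ.toInteger ^ 7 + (-532) * hζ.toInteger ^ 8 + (-176) * hζ.toInteger ^ 9, ?_⟩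
  rw [ech6_val]
  push_cast
  linear_combination ((-62) + (145) * hζ.toInteger + (273) * hζ.toInteger ^ 2 + (-1281) * hζ.toInteger ^ 3 + (1634) * hζ.toInteger ^ 4 + (-871) * hζ.toInteger ^ 5 + (179) * hζ.toInteger ^ 6 + (1) * hζ.toInteger ^ 7) * sum_zeta_eleven hζ

/-- Echelon unit of level 8. -/
noncomputable def ech8 : (𝓞 K)ˣ := zetaU hζ ^ 4 * cyc hζ 2 (by norm_num) ^ 9 * cyc hζ 3 (by norm_num) ^ 1 * cyc hζ 4 (by norm_num) ^ 3 * cyc hζ 5 (by norm_num) ^ 4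

theorem ech8_val : ((ech8 hζ : (𝓞 K)ˣ) : 𝓞 K) = hζ.toInteger ^ 4 * (1 + hζ.toInteger) ^ 9 * (1 + hζ.toInteger + hζ.toInteger ^ 2) ^ 1 * (1 + hζ.toInteger + hζ.toInteger ^ 2 + hζ.toInteger ^ 3) ^ 3 * (1 + hζ.toInteger + hζ.toInteger ^ 2 + hζ.toInteger ^ 3 + hζ.toInteger ^ 4) ^ 4 := by
  simp [ech8, cyc_val, Finset.sum_range_succ]

theorem ech8_level : (hζ.toInteger - 1) ^ (7 + 2) ∣
    ((ech8 hζ : (𝓞 K)ˣ) : 𝓞 K) - ((-5 : ℤ) : 𝓞 K) - ((4 : ℤ) : 𝓞 K) * (hζ.toInteger - 1) ^ (7 + 1) := by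
  refine ⟨(56885668) + (140233759) * hζ.toInteger + (223581850) * hζ.toInteger ^ 2 + (280467514) * hζ.toInteger ^ 3 + (292829954) * hζ.toInteger ^ 4 + (256744179) * hζ.toInteger ^ 5 + (183667165) * hζ.toInteger ^ 6 + (96800349) * hζ.toInteger ^ 7 + (23723335) * hζ.toInteger ^ 8 + (-12362440) * hζ.toInteger ^ 9, ?_⟩
  rw [ech8_val]
  push_cast
  linear_combination ((56885669) + (-428622890) * hζ.toInteger + (1381099176) * hζ.toInteger ^ 2 + (-2471111655) * hζ.toInteger ^ 3 + (2667276761) * hζ.toInteger ^ 4 + (-1766437657) * hζ.toInteger ^ 5 + (696742928) * hζ.toInteger ^ 6 + (-147615941) * hζ.toInteger ^ 7 + (11912715) * hζ.toInteger ^ 8 + (-483727) * hζ.toInteger ^ 9 + (-352800) * hζ.toInteger ^ 10 + (-86291) * hζ.toInteger ^ 11 + (250865) * hζ.toInteger ^ 12 + (579452) * hζ.toInteger ^ 13 + (829691) * hζ.toInteger ^ 14 + (959388) * hζ.toInteger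 ^ 15 + (961242) * hζ.toInteger ^ 16 + (858496) * hζ.toInteger ^ 17 + (692365) * hζ.toInteger ^ 18 + (506994) * hζ.toInteger ^ 19 + (337407) * hζ.toInteger ^ 20 + (203577) * hζ.toInteger ^ 21 + (110743) * hζ.toInteger ^ 22 + (53831) * hζ.toInteger ^ 23 + (23075) * hζ.toInteger ^ 24 + (8557) * hζ.toInteger ^ 25 + (2669) * hζ.toInteger ^ 26 + (671) * hζ.toInteger ^ 27 + (127) * hζ.toInteger ^ 28 + (16) * hζ.toInteger ^ 29 + (1) * hζ.toInteger ^ 30) * sum_zeta_eleven hζ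

theorem zeta_level : (hζ.toInteger - 1) ^ (0 + 2) ∣
    ((zetaU hζ : (𝓞 K)ˣ) : 𝓞 K) - ((1 : ℤ) : 𝓞 K) - ((1 : ℤ) : 𝓞 K) * (hζ.toInteger - 1) ^ (0 + 1) := by
  refine ⟨0, ?_⟩
  simp

end Fermat.Agent.S11.Ech
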