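import Mathlib

/-!
# The unit group of `ℚ(ζ₁₁)` is generated by five elements (Dirichlet)
-/

set_option autoImplicit false

open NumberField

namespace Fermat.Agent.S11.Ech

theorem units_generated (K : Type*) [Field K] [NumberField K] :
    ∃ gens : Option (Fin (Units.rank K)) → (𝓞 K)ˣ,
      ∀ x : (𝓞 K)ˣ, ∃ k : Option (Fin (Units.rank K)) → ℤ, x = ∏ i, gens i ^ k i := by
  classical
  obtain ⟨t, ht⟩ := (inferInstance : IsCyclic (Units.torsion K)).exists_generator
  refine ⟨fun o => o.elim (t : (𝓞 K)ˣ) (Units.fundSystem K), fun x => ?_⟩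
  obtain ⟨⟨z, e⟩, hx, -⟩ := Units.exist_unique_eq_mul_prod K x
  obtain ⟨m, hm⟩ := Subgroup.mem_zpowers_iff.mp (ht z)
  refine ⟨fun o => o.elim m e, ?_⟩
  rw [Fintype.prod_option]
  simp only [Option.elim_none, Option.elim_some]
  rw [hx]
  congr 1
  rw [← hm]
  simp

theorem rank_eleven (K : Type*) [Field K] [NumberField K] [IsCyclotomicExtension {11} ℚ K] :
    Units.rank K = 4 := by
  have h1 : InfinitePlace.nrRealPlaces K = 0 :=
    IsCyclotomicExtension.Rat.nrRealPlaces_eq_zero (n := 11) K (by norm_num)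
  have h2 : InfinitePlace.nrComplexPlaces K = 5 := by
    rw [IsCyclotomicExtension.Rat.nrComplexPlaces_eq_totient_div_two 11 K]
    rw [Nat.totient_prime (by norm_num : Nat.Prime 11)]
  rw [Units.rank, InfinitePlace.card_eq_nrRealPlaces_add_nrComplexPlaces, h1, h2]

theorem card_option_rank_eleven (K : Type*) [Field K] [NumberField K]
    [IsCyclotomicExtension {11} ℚ K] :
    Fintype.card (Option (Fin (Units.rank K))) = 5 := by
  rw [Fintype.card_option, Fintype.card_fin, rank_eleven K]

end Fermat.Agent.S11.Ech
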