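import Fermat.Agent.S11.EchCounting
import Fermat.Agent.S11.EchUnitsGen
import Fermat.Agent.S11.EchUnits11

/-!
# Kummer's lemma for `p = 11` (echelon method)

Every unit of `ℤ[ζ₁₁]` congruent to a rational integer modulo `11` is an `11`-th power.
-/

set_option autoImplicit false
set_option linter.unusedSectionVars false

open NumberField

namespace Fermat.Agent.S11.Ech

theorem fact_prime_eleven : Fact (Nat.Prime 11) := ⟨by norm_num⟩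

attribute [local instance] fact_prime_eleven

variable {K : Type*} [Field K] [NumberField K] [IsCyclotomicExtension {11} ℚ K]
  {ζ : K} (hζ : IsPrimitiveRoot ζ 11)

theorem intMod_of_level {j : ℕ} {g : 𝓞 K} {a b : ℤ}
    (hg : (hζ.toInteger - 1) ^ (j + 2) ∣ g - a - b * (hζ.toInteger - 1) ^ (j + 1)) :
    IntMod hζ (j + 1) g := by
  obtain ⟨q, hq⟩ := hg
  refine ⟨a, b + (hζ.toInteger - 1) * q, ?_⟩
  linear_combination hq

theorem intMod_zpow_of_dvd {k : ℕ} (hk : k ≤ 10) (g : (𝓞 K)ˣ) {n : ℤ} (hn : (11 : ℤ) ∣ n) :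
    IntMod hζ k ((g ^ n : (𝓞 K)ˣ) : 𝓞 K) := by
  obtain ⟨c, rfl⟩ := hn
  have : (g ^ ((11 : ℤ) * c) : (𝓞 K)ˣ) = (g ^ c) ^ 11 := by
    rw [mul_comm, zpow_mul]
    norm_cast
  rw [this, Units.val_pow_eq_pow_val]
  exact IntMod.pow_p (p := 11) hζ (by simpa using hk) _

/-- The submonoid of units congruent to a rational integer modulo `11`. -/
def intUnits (K : Type*) [Field K] [NumberField K] : Submonoid (𝓞 K)ˣ where
  carrier := {u | ∃ N : ℤ, (11 : 𝓞 K) ∣ (u : 𝓞 K) - N}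
  one_mem' := ⟨1, by simp⟩
  mul_mem' := by
    rintro x y ⟨N, s, hs⟩ ⟨M, t, ht⟩
    refine ⟨N * M, s * y + N * t, ?_⟩
    push_cast
    linear_combination (y : 𝓞 K) * hs + (N : 𝓞 K) * ht

theorem mem_intUnits {u : (𝓞 K)ˣ} :
    u ∈ intUnits K ↔ ∃ N : ℤ, (11 : 𝓞 K) ∣ (u : 𝓞 K) - N := Iff.rfl

include hζ in
theorem pow_mem_intUnits (x : (𝓞 K)ˣ) : x ^ 11 ∈ intUnits K := by
  obtain ⟨n, hn⟩ := exists_int_sub_pow_prime_dvd (p := 11) hζ (x : 𝓞 K)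
  exact ⟨n, by simpa using hn⟩

theorem intMod_ten_of_mem {u : (𝓞 K)ˣ} (hu : u ∈ intUnits K) : IntMod hζ 10 (u : 𝓞 K) := by
  obtain ⟨N, hN⟩ := hu
  have := intMod_of_p_dvd (p := 11) hζ (x := (u : 𝓞 K)) ⟨N, by simpa using hN⟩
  simpa using this

/-- The five echelon units are independent modulo units congruent to integers. -/
theorem echelon_independent (n0 n1 n2 n3 n4 : ℤ)
    (h : zetaU hζ ^ n0 * ech2 hζ ^ n1 * ech4 hζ ^ n2 * ech6 hζ ^ n3 * ech8 hζ ^ n4 ∈ intUnits K) :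
    (11 : ℤ) ∣ n0 ∧ (11 : ℤ) ∣ n1 ∧ (11 : ℤ) ∣ n2 ∧ (11 : ℤ) ∣ n3 ∧ (11 : ℤ) ∣ n4 := by
  have h10 := intMod_ten_of_mem hζ h
  have i2 : IntMod hζ 2 ((ech2 hζ : (𝓞 K)ˣ) : 𝓞 K) := intMod_of_level hζ (ech2_level hζ)
  have i4 : IntMod hζ 4 ((ech4 hζ : (𝓞 K)ˣ) : 𝓞 K) := intMod_of_level hζ (ech4_level hζ)
  have i6 : IntMod hζ 6 ((ech6 hζ : (𝓞 K)ˣ) : 𝓞 K) := intMod_of_level hζ (ech6_level hζ)
  have i8 : IntMod hζ 8 ((ech8 hζ : (𝓞 K)ˣ) : 𝓞 K) := intMod_of_level hζ (ech8_level hζ)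
  have zp : ∀ {k : ℕ} (_ : k ≤ 10) {l : ℕ} (_ : k ≤ l) {u : (𝓞 K)ˣ} (_ : IntMod hζ l (u : 𝓞 K))
      (n : ℤ), IntMod hζ k ((u ^ n : (𝓞 K)ˣ) : 𝓞 K) := fun hk _ hkl _ hu n =>
    IntMod.unit_zpow (p := 11) hζ (by simpa using hk) (hu.mono hζ hkl) n
  -- step A
  have hn0 : (11 : ℤ) ∣ n0 := by
    refine step_int (p := 11) hζ (j := 0) (by norm_num) (zeta_level hζ) (by norm_num)
      (R := ech2 hζ ^ n1 * ech4 hζ ^ n2 * ech6 hζ ^ n3 * ech8 hζ ^ n4) ?_ n0 ?_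
    · simp only [Units.val_mul]
      exact (((zp (by norm_num) (by norm_num) i2 n1).mul hζ
        (zp (by norm_num) (by norm_num) i4 n2)).mul hζ
        (zp (by norm_num) (by norm_num) i6 n3)).mul hζ
        (zp (by norm_num) (by norm_num) i8 n4)
    · have : zetaU hζ ^ n0 * (ech2 hζ ^ n1 * ech4 hζ ^ n2 * ech6 hζ ^ n3 * ech8 hζ ^ n4)
          = zetaU hζ ^ n0 * ech2 hζ ^ n1 * ech4 hζ ^ n2 * ech6 hζ ^ n3 * ech8 hζ ^ n4 := by
        simp only [mul_assoc]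
      rw [this]
      exact h10.mono hζ (by norm_num)
  have p0 : ∀ {k : ℕ} (_ : k ≤ 10), IntMod hζ k ((zetaU hζ ^ n0 : (𝓞 K)ˣ) : 𝓞 K) :=
    fun hk => intMod_zpow_of_dvd hζ hk _ hn0
  -- step B
  have hn1 : (11 : ℤ) ∣ n1 := by
    refine step_int (p := 11) hζ (j := 1) (by norm_num) (ech2_level hζ) (by norm_num)
      (R := zetaU hζ ^ n0 * ech4 hζ ^ n2 * ech6 hζ ^ n3 * ech8 hζ ^ n4) ?_ n1 ?_
    · simp only [Units.val_mul]
      exact (((p0 (by norm_num)).mul hζ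
        (zp (by norm_num) (by norm_num) i4 n2)).mul hζ
        (zp (by norm_num) (by norm_num) i6 n3)).mul hζ
        (zp (by norm_num) (by norm_num) i8 n4)
    · have : ech2 hζ ^ n1 * (zetaU hζ ^ n0 * ech4 hζ ^ n2 * ech6 hζ ^ n3 * ech8 hζ ^ n4)
          = zetaU hζ ^ n0 * ech2 hζ ^ n1 * ech4 hζ ^ n2 * ech6 hζ ^ n3 * ech8 hζ ^ n4 := by
        simp only [mul_assoc, mul_left_comm, mul_comm]
      rw [this]
      exact h10.mono hζ (by norm_num)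
  have p1 : ∀ {k : ℕ} (_ : k ≤ 10), IntMod hζ k ((ech2 hζ ^ n1 : (𝓞 K)ˣ) : 𝓞 K) :=
    fun hk => intMod_zpow_of_dvd hζ hk _ hn1
  -- step C
  have hn2 : (11 : ℤ) ∣ n2 := by
    refine step_int (p := 11) hζ (j := 3) (by norm_num) (ech4_level hζ) (by norm_num)
      (R := zetaU hζ ^ n0 * ech2 hζ ^ n1 * ech6 hζ ^ n3 * ech8 hζ ^ n4) ?_ n2 ?_
    · simp only [Units.val_mul]
      exact (((p0 (by norm_num)).mul hζ
        (p1 (by norm_num))).mul hζ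
        (zp (by norm_num) (by norm_num) i6 n3)).mul hζ
        (zp (by norm_num) (by norm_num) i8 n4)
    · have : ech4 hζ ^ n2 * (zetaU hζ ^ n0 * ech2 hζ ^ n1 * ech6 hζ ^ n3 * ech8 hζ ^ n4)
          = zetaU hζ ^ n0 * ech2 hζ ^ n1 * ech4 hζ ^ n2 * ech6 hζ ^ n3 * ech8 hζ ^ n4 := by
        simp only [mul_assoc, mul_left_comm, mul_comm]
      rw [this]
      exact h10.mono hζ (by norm_num)
  have p2 : ∀ {k : ℕ} (_ : k ≤ 10), IntMod hζ k ((ech4 hζ ^ n2 : (𝓞 K)ˣ) : 𝓞 K) :=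
    fun hk => intMod_zpow_of_dvd hζ hk _ hn2
  -- step D
  have hn3 : (11 : ℤ) ∣ n3 := by
    refine step_int (p := 11) hζ (j := 5) (by norm_num) (ech6_level hζ) (by norm_num)
      (R := zetaU hζ ^ n0 * ech2 hζ ^ n1 * ech4 hζ ^ n2 * ech8 hζ ^ n4) ?_ n3 ?_
    · simp only [Units.val_mul]
      exact (((p0 (by norm_num)).mul hζ
        (p1 (by norm_num))).mul hζ
        (p2 (by norm_num))).mul hζ
        (zp (by norm_num) (by norm_num) i8 n4)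
    · have : ech6 hζ ^ n3 * (zetaU hζ ^ n0 * ech2 hζ ^ n1 * ech4 hζ ^ n2 * ech8 hζ ^ n4)
          = zetaU hζ ^ n0 * ech2 hζ ^ n1 * ech4 hζ ^ n2 * ech6 hζ ^ n3 * ech8 hζ ^ n4 := by
        simp only [mul_assoc, mul_left_comm, mul_comm]
      rw [this]
      exact h10.mono hζ (by norm_num)
  have p3 : ∀ {k : ℕ} (_ : k ≤ 10), IntMod hζ k ((ech6 hζ ^ n3 : (𝓞 K)ˣ) : 𝓞 K) :=
    fun hk => intMod_zpow_of_dvd hζ hk _ hn3
  -- step E
  have hn4 : (11 : ℤ) ∣ n4 := by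
    refine step_int (p := 11) hζ (j := 7) (by norm_num) (ech8_level hζ) (by norm_num)
      (R := zetaU hζ ^ n0 * ech2 hζ ^ n1 * ech4 hζ ^ n2 * ech6 hζ ^ n3) ?_ n4 ?_
    · simp only [Units.val_mul]
      exact (((p0 (by norm_num)).mul hζ
        (p1 (by norm_num))).mul hζ
        (p2 (by norm_num))).mul hζ
        (p3 (by norm_num))
    · have : ech8 hζ ^ n4 * (zetaU hζ ^ n0 * ech2 hζ ^ n1 * ech4 hζ ^ n2 * ech6 hζ ^ n3)
          = zetaU hζ ^ n0 * ech2 hζ ^ n1 * ech4 hζ ^ n2 * ech6 hζ ^ n3 * ech8 hζ ^ n4 := by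
        simp only [mul_assoc, mul_left_comm, mul_comm]
      rw [this]
      exact h10.mono hζ (by norm_num)
  exact ⟨hn0, hn1, hn2, hn3, hn4⟩

/-- **Kummer's lemma for `p = 11`.** -/
theorem kummer_lemma_eleven' (u : (𝓞 K)ˣ) (h : ∃ n : ℤ, (11 : 𝓞 K) ∣ (u : 𝓞 K) - n) :
    ∃ v : (𝓞 K)ˣ, u = v ^ 11 := by
  have hζ := IsCyclotomicExtension.zeta_spec 11 ℚ K
  obtain ⟨gens, hgens⟩ := units_generated K
  refine exists_pow_eq_of_counting 11 (ι := Option (Fin (Units.rank K))) (κ := Fin 5)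
    (by rw [card_option_rank_eleven K]; simp) gens hgens (intUnits K) (pow_mem_intUnits hζ)
    ![zetaU hζ, ech2 hζ, ech4 hζ, ech6 hζ, ech8 hζ] ?_ u h
  intro n hn
  rw [Fin.prod_univ_five] at hn
  simp only [Matrix.cons_val_zero, Matrix.cons_val_one, Matrix.cons_val] at hn
  obtain ⟨h0, h1, h2, h3, h4⟩ := echelon_independent hζ _ _ _ _ _ hn
  intro i
  fin_cases i <;> simpa

end Fermat.Agent.S11.Ech
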