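import Mathlib

/-!
# `λ`-adic levels of units in `ℤ[ζ_p]` (generic odd prime `p`)
-/

set_option autoImplicit false
set_option linter.unusedSectionVars false

open NumberField

namespace Fermat.Agent.S11.Ech

variable {p : ℕ} [hp : Fact p.Prime] {K : Type*} [Field K] [NumberField K]
  [hK : IsCyclotomicExtension {p} ℚ K] {ζ : K} (hζ : IsPrimitiveRoot ζ p)

include hζ in
/-- Every `p`-th power in `𝓞 K` is congruent to a rational integer modulo `p`. -/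
theorem exists_int_sub_pow_prime_dvd (w : 𝓞 K) : ∃ n : ℤ, (p : 𝓞 K) ∣ w ^ p - n := by
  have hw : w ∈ Algebra.adjoin ℤ {hζ.toInteger} := by
    rw [IsCyclotomicExtension.Rat.adjoin_singleton_eq_top hζ]; trivial
  induction hw using Algebra.adjoin_induction with
  | mem x hx =>
    rw [Set.mem_singleton_iff] at hx
    refine ⟨1, ?_⟩
    rw [hx, hζ.toInteger_isPrimitiveRoot.pow_eq_one]
    simp
  | algebraMap r =>
    refine ⟨r ^ p, ?_⟩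
    simp
  | add x y _ _ hx hy =>
    obtain ⟨n, s, hs⟩ := hx
    obtain ⟨m, t, ht⟩ := hy
    obtain ⟨r, hr⟩ := exists_add_pow_prime_eq hp.out x y
    refine ⟨n + m, s + t + x * y * r, ?_⟩
    push_cast
    linear_combination hr + hs + ht
  | mul x y _ _ hx hy =>
    obtain ⟨n, s, hs⟩ := hx
    obtain ⟨m, t, ht⟩ := hy
    refine ⟨n * m, s * y ^ p + n * t, ?_⟩
    push_cast
    linear_combination y ^ p * hs + (n : 𝓞 K) * ht

/-- `x` is congruent to a rational integer modulo `λ ^ k`. -/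
def IntMod (k : ℕ) (x : 𝓞 K) : Prop := ∃ N : ℤ, (hζ.toInteger - 1) ^ k ∣ x - N

theorem IntMod.mul {k : ℕ} {x y : 𝓞 K} (hx : IntMod hζ k x) (hy : IntMod hζ k y) :
    IntMod hζ k (x * y) := by
  obtain ⟨N, s, hs⟩ := hx
  obtain ⟨M, t, ht⟩ := hy
  refine ⟨N * M, s * y + N * t, ?_⟩
  push_cast
  linear_combination y * hs + (N : 𝓞 K) * ht

theorem IntMod.one (k : ℕ) : IntMod hζ k (1 : 𝓞 K) := ⟨1, by simp⟩

theorem IntMod.pow {k : ℕ} {x : 𝓞 K} (hx : IntMod hζ k x) (n : ℕ) : IntMod hζ k (x ^ n) := by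
  induction n with
  | zero => simpa using IntMod.one hζ k
  | succ n ih => rw [pow_succ]; exact ih.mul hζ hx

theorem IntMod.mono {k l : ℕ} (hkl : k ≤ l) {x : 𝓞 K} (hx : IntMod hζ l x) : IntMod hζ k x := by
  obtain ⟨N, hN⟩ := hx
  exact ⟨N, (pow_dvd_pow _ hkl).trans hN⟩

theorem lambda_pow_dvd_p : (hζ.toInteger - 1) ^ (p - 1) ∣ (p : 𝓞 K) :=
  (IsCyclotomicExtension.Rat.associated_zeta_sub_one_pow_prime p hζ).dvd

theorem p_dvd_lambda_pow : (p : 𝓞 K) ∣ (hζ.toInteger - 1) ^ (p - 1) :=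
  (IsCyclotomicExtension.Rat.associated_zeta_sub_one_pow_prime p hζ).symm.dvd

theorem intMod_of_p_dvd {x : 𝓞 K} (h : ∃ N : ℤ, (p : 𝓞 K) ∣ x - N) : IntMod hζ (p - 1) x := by
  obtain ⟨N, hN⟩ := h
  exact ⟨N, (lambda_pow_dvd_p hζ).trans hN⟩

theorem p_dvd_of_intMod {x : 𝓞 K} (h : IntMod hζ (p - 1) x) : ∃ N : ℤ, (p : 𝓞 K) ∣ x - N := by
  obtain ⟨N, hN⟩ := h
  exact ⟨N, (p_dvd_lambda_pow hζ).trans hN⟩

theorem IntMod.pow_p {k : ℕ} (hk : k ≤ p - 1) (w : 𝓞 K) : IntMod hζ k (w ^ p) :=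
  (intMod_of_p_dvd hζ (exists_int_sub_pow_prime_dvd hζ w)).mono hζ hk

theorem IntMod.unit_inv {k : ℕ} (hk : k ≤ p - 1) {u : (𝓞 K)ˣ} (hu : IntMod hζ k (u : 𝓞 K)) :
    IntMod hζ k ((u⁻¹ : (𝓞 K)ˣ) : 𝓞 K) := by
  have h1 : ((u⁻¹ : (𝓞 K)ˣ) : 𝓞 K) = (u : 𝓞 K) ^ (p - 1) * ((u⁻¹ : (𝓞 K)ˣ) : 𝓞 K) ^ p := by
    obtain ⟨q, hq⟩ : ∃ q, p = q + 1 := ⟨p - 1, by have := hp.out.pos; omega⟩
    rw [hq, Nat.add_sub_cancel, pow_succ, ← mul_assoc, ← mul_pow]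
    simp
  rw [h1]
  exact (hu.pow hζ _).mul hζ (IntMod.pow_p hζ hk _)

theorem IntMod.unit_zpow {k : ℕ} (hk : k ≤ p - 1) {u : (𝓞 K)ˣ} (hu : IntMod hζ k (u : 𝓞 K))
    (n : ℤ) : IntMod hζ k ((u ^ n : (𝓞 K)ˣ) : 𝓞 K) := by
  cases n with
  | ofNat m =>
    simp only [Int.ofNat_eq_natCast, zpow_natCast, Units.val_pow_eq_pow_val]
    exact hu.pow hζ m
  | negSucc m =>
    rw [zpow_negSucc, ← inv_pow]
    simp only [Units.val_pow_eq_pow_val]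
    exact (hu.unit_inv hζ hk).pow hζ _

theorem lambda_not_isUnit : ¬ IsUnit (hζ.toInteger - 1) := hζ.zeta_sub_one_prime'.not_isUnit

theorem lambda_ne_zero : (hζ.toInteger - 1 : 𝓞 K) ≠ 0 := hζ.zeta_sub_one_prime'.ne_zero

theorem lambda_dvd_int_iff {n : ℤ} : (hζ.toInteger - 1) ∣ (n : 𝓞 K) ↔ (p : ℤ) ∣ n :=
  IsCyclotomicExtension.Rat.zeta_sub_one_dvd_intCast_iff' p hζ

/-- If a unit is congruent to the integer `N` modulo `λ`, then `p ∤ N`. -/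
theorem not_dvd_of_unit_sub_int {u : (𝓞 K)ˣ} {N : ℤ} (h : (hζ.toInteger - 1) ∣ (u : 𝓞 K) - N) :
    ¬ (p : ℤ) ∣ N := by
  intro hN
  have h2 : (hζ.toInteger - 1) ∣ (N : 𝓞 K) := (lambda_dvd_int_iff hζ).mpr hN
  have h3 : (hζ.toInteger - 1) ∣ (u : 𝓞 K) := by
    have := dvd_add h h2
    simpa using this
  exact lambda_not_isUnit hζ (isUnit_of_dvd_unit h3 u.isUnit)

/-- power lemma: if `g ≡ a + b λ^(j+1) mod λ^(j+2)` then
`a (g^n - a^n) ≡ n a^n b λ^(j+1) mod λ^(j+2)`. -/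
theorem level_pow {j : ℕ} {g : 𝓞 K} {a b : ℤ}
    (hg : (hζ.toInteger - 1) ^ (j + 2) ∣ g - a - b * (hζ.toInteger - 1) ^ (j + 1)) (n : ℕ) :
    (hζ.toInteger - 1) ^ (j + 2) ∣
      a * (g ^ n - a ^ n) - n * a ^ n * b * (hζ.toInteger - 1) ^ (j + 1) := by
  obtain ⟨q, hq⟩ := hg
  induction n with
  | zero => simp
  | succ n ih =>
    obtain ⟨qn, hqn⟩ := ih
    refine ⟨n * a ^ n * b ^ 2 * (hζ.toInteger - 1) ^ j
      + q * n * a ^ n * b * (hζ.toInteger - 1) ^ (j + 1) + g * qn + a ^ (n + 1) * q, ?_⟩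
    push_cast
    linear_combination g * hqn + ((a : 𝓞 K) ^ (n + 1)
      + n * a ^ n * b * (hζ.toInteger - 1) ^ (j + 1)) * hq

/-- One step of the echelon argument (natural exponent). -/
theorem step_nat {j : ℕ} (hj : j + 2 ≤ p - 1) {g R : (𝓞 K)ˣ} {a b : ℤ}
    (hg : (hζ.toInteger - 1) ^ (j + 2) ∣ (g : 𝓞 K) - a - b * (hζ.toInteger - 1) ^ (j + 1))
    (hb : ¬ (p : ℤ) ∣ b) (hR : IntMod hζ (j + 2) (R : 𝓞 K)) (m : ℕ)
    (h : IntMod hζ (j + 2) ((g : 𝓞 K) ^ m * R)) : (p : ℤ) ∣ m := by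
  have hprime : Prime (p : ℤ) := Nat.prime_iff_prime_int.mp hp.out
  -- `p ∤ a`
  have ha : ¬ (p : ℤ) ∣ a := by
    apply not_dvd_of_unit_sub_int hζ (u := g)
    obtain ⟨q, hq⟩ := hg
    refine ⟨b * (hζ.toInteger - 1) ^ j + (hζ.toInteger - 1) ^ (j + 1) * q, ?_⟩
    linear_combination hq
  obtain ⟨N, s, hs⟩ := hR
  have hN : ¬ (p : ℤ) ∣ N := by
    apply not_dvd_of_unit_sub_int hζ (u := R)
    refine ⟨(hζ.toInteger - 1) ^ (j + 1) * s, ?_⟩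
    linear_combination hs
  obtain ⟨N', t, ht⟩ := h
  obtain ⟨q, hq⟩ := level_pow hζ hg m
  -- the integer `L`
  set L : ℤ := a ^ (m + 1) * N - a * N' with hL
  have key : (L : 𝓞 K) = - (m * a ^ m * b * N : ℤ) * (hζ.toInteger - 1) ^ (j + 1)
      + (hζ.toInteger - 1) ^ (j + 2) * (a * t - q * R - (a : 𝓞 K) ^ (m + 1) * s
        - m * a ^ m * b * (hζ.toInteger - 1) ^ (j + 1) * s) := by
    rw [hL]
    push_cast
    linear_combination (a : 𝓞 K) * ht - (R : 𝓞 K) * hq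
      - ((a : 𝓞 K) ^ (m + 1) + m * a ^ m * b * (hζ.toInteger - 1) ^ (j + 1)) * hs
  have hL1 : (hζ.toInteger - 1) ∣ (L : 𝓞 K) := by
    rw [key]
    refine dvd_add (Dvd.dvd.mul_left (dvd_pow_self _ (by omega)) _)
      (Dvd.dvd.mul_right (dvd_pow_self _ (by omega)) _)
  have hL2 : (p : ℤ) ∣ L := (lambda_dvd_int_iff hζ).mp hL1
  have hL3 : (hζ.toInteger - 1) ^ (j + 2) ∣ (L : 𝓞 K) := by
    obtain ⟨c, hc⟩ := hL2
    rw [hc]
    push_cast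
    exact Dvd.dvd.mul_right (((pow_dvd_pow _ hj).trans (lambda_pow_dvd_p hζ))) _
  have h4 : (hζ.toInteger - 1) ^ (j + 2) ∣
      ((m * a ^ m * b * N : ℤ) : 𝓞 K) * (hζ.toInteger - 1) ^ (j + 1) := by
    have h5 : ((m * a ^ m * b * N : ℤ) : 𝓞 K) * (hζ.toInteger - 1) ^ (j + 1)
        = (hζ.toInteger - 1) ^ (j + 2) * (a * t - q * R - (a : 𝓞 K) ^ (m + 1) * s
        - m * a ^ m * b * (hζ.toInteger - 1) ^ (j + 1) * s) - (L : 𝓞 K) := by
      rw [key]; ring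
    rw [h5]
    exact dvd_sub (dvd_mul_right _ _) hL3
  have h6 : (hζ.toInteger - 1) ∣ ((m * a ^ m * b * N : ℤ) : 𝓞 K) := by
    have h4' : (hζ.toInteger - 1) ^ (j + 1) * (hζ.toInteger - 1) ∣
        (hζ.toInteger - 1) ^ (j + 1) * ((m * a ^ m * b * N : ℤ) : 𝓞 K) := by
      rw [← pow_succ, mul_comm ((hζ.toInteger - 1) ^ (j + 1))]
      exact h4
    exact (mul_dvd_mul_iff_left (pow_ne_zero _ (lambda_ne_zero hζ))).mp h4'
  have h7 : (p : ℤ) ∣ m * a ^ m * b * N := (lambda_dvd_int_iff hζ).mp h6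
  rcases hprime.dvd_or_dvd h7 with h8 | h8
  · rcases hprime.dvd_or_dvd h8 with h9 | h9
    · rcases hprime.dvd_or_dvd h9 with h10 | h10
      · exact h10
      · exact absurd (hprime.dvd_of_dvd_pow h10) ha
    · exact absurd h9 hb
  · exact absurd h8 hN

/-- One step of the echelon argument (integer exponent). -/
theorem step_int {j : ℕ} (hj : j + 2 ≤ p - 1) {g R : (𝓞 K)ˣ} {a b : ℤ}
    (hg : (hζ.toInteger - 1) ^ (j + 2) ∣ (g : 𝓞 K) - a - b * (hζ.toInteger - 1) ^ (j + 1))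
    (hb : ¬ (p : ℤ) ∣ b) (hR : IntMod hζ (j + 2) (R : 𝓞 K)) (n : ℤ)
    (h : IntMod hζ (j + 2) ((g ^ n * R : (𝓞 K)ˣ) : 𝓞 K)) : (p : ℤ) ∣ n := by
  cases n with
  | ofNat m =>
    simp only [Int.ofNat_eq_natCast, zpow_natCast, Units.val_mul, Units.val_pow_eq_pow_val] at h
    exact step_nat hζ hj hg hb hR m h
  | negSucc m =>
    have h1 : IntMod hζ (j + 2) ((g : 𝓞 K) ^ (m + 1) * ((g ^ (Int.negSucc m) * R : (𝓞 K)ˣ))) := by
      have : (g : 𝓞 K) ^ (m + 1) * ((g ^ (Int.negSucc m) * R : (𝓞 K)ˣ)) = (R : 𝓞 K) := by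
        rw [← Units.val_pow_eq_pow_val, ← Units.val_mul, zpow_negSucc]
        congr 1
        rw [← mul_assoc, mul_inv_cancel, one_mul]
      rw [this]
      exact hR
    have := step_nat hζ hj hg hb h (m + 1) h1
    rw [Int.negSucc_eq, dvd_neg]
    exact_mod_cast this

end Fermat.Agent.S11.Ech
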