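import Fermat.Agent.S11.H851Descent

/-!
# Case II of Fermat's Last Theorem for an odd prime `p` such that `ℤ[ζ_p]` is a PID and
Kummer's lemma holds.
-/

open NumberField Polynomial

namespace Fermat.Agent.S11.H851

section IntSide

variable {p : ℕ}

lemma p_dvd_b_of_dvd_a_of_gcd_eq_one_of_case2 (hp : p.Prime) (hodd : Odd p) {a b c : ℤ}
    (ha : a ≠ 0)
    (Hgcd : Finset.gcd {a, b, c} id = 1) (hpa : (p : ℤ) ∣ a) (HF : a ^ p + b ^ p + c ^ p = 0)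
    (H : ∀ a b c : ℤ, c ≠ 0 → ¬ (p : ℤ) ∣ a → ¬ (p : ℤ) ∣ b → (p : ℤ) ∣ c → IsCoprime a b →
      a ^ p + b ^ p ≠ c ^ p) :
    (p : ℤ) ∣ b := by
  have hpZ : Prime (p : ℤ) := Nat.prime_iff_prime_int.mp hp
  have hbc : IsCoprime (-b) (-c) := by
    refine IsCoprime.neg_neg ?_
    rw [add_comm (a ^ p), add_assoc, add_comm (a ^ p), ← add_assoc] at HF
    refine isCoprime_of_gcd_eq_one_of_FLT ?_ HF
    convert Hgcd using 2
    rw [Finset.pair_comm, Finset.insert_comm]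
  by_contra! hpb
  by_cases hpc : (p : ℤ) ∣ c
  · apply hpb
    rw [add_assoc, add_comm (b ^ p), ← add_assoc] at HF
    exact dvd_c_of_prime_of_dvd_a_of_dvd_b_of_FLT hpZ hpa hpc HF
  · refine H (-b) (-c) a ha (by simp [hpb]) (by simp [hpc]) hpa hbc ?_
    rw [add_eq_zero_iff_eq_neg, ← hodd.neg_pow] at HF
    rw [← HF, hodd.neg_pow]
    ring

open Finset in
lemma flt_of_dvd_a_of_gcd_eq_one_of_case2 (hp : p.Prime) (hodd : Odd p) {a b c : ℤ} (ha : a ≠ 0)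
    (hpa : (p : ℤ) ∣ a) (Hgcd : Finset.gcd {a, b, c} id = 1)
    (H : ∀ a b c : ℤ, c ≠ 0 → ¬ (p : ℤ) ∣ a → ¬ (p : ℤ) ∣ b → (p : ℤ) ∣ c → IsCoprime a b →
      a ^ p + b ^ p ≠ c ^ p) :
    a ^ p + b ^ p + c ^ p ≠ 0 := by
  have hpZ : Prime (p : ℤ) := Nat.prime_iff_prime_int.mp hp
  intro HF
  apply hpZ.not_dvd_one
  rw [← Hgcd]
  refine dvd_gcd (fun x hx ↦ ?_)
  simp only [mem_insert, mem_singleton] at hx
  have hpb : (p : ℤ) ∣ b := by
    refine p_dvd_b_of_dvd_a_of_gcd_eq_one_of_case2 hp hodd ha ?_ hpa HF H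
    simp only [← Hgcd, gcd_insert, gcd_singleton, id_eq, ← Int.abs_eq_normalize]
  rcases hx with hx | hx | hx
  · exact hx ▸ hpa
  · exact hx ▸ hpb
  · simpa [hx] using dvd_c_of_prime_of_dvd_a_of_dvd_b_of_FLT hpZ hpa hpb HF

open Finset Int in
/-- To prove Fermat's Last Theorem for an odd prime `p`, it is enough to treat case I and the
case where `p` divides only `c`. -/
theorem fermatLastTheoremFor_of_caseI_of_caseII (hp : p.Prime) (hodd : Odd p)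
    (caseI : ∀ a b c : ℤ, ¬ (p : ℤ) ∣ a * b * c → a ^ p + b ^ p ≠ c ^ p)
    (H : ∀ a b c : ℤ, c ≠ 0 → ¬ (p : ℤ) ∣ a → ¬ (p : ℤ) ∣ b → (p : ℤ) ∣ c → IsCoprime a b →
      a ^ p + b ^ p ≠ c ^ p) :
    FermatLastTheoremFor p := by
  have hpZ : Prime (p : ℤ) := Nat.prime_iff_prime_int.mp hp
  rw [fermatLastTheoremFor_iff_int]
  refine fermatLastTheoremWith_of_fermatLastTheoremWith_coprime (fun a b c ha hb hc Hgcd hF ↦ ?_)
  by_cases h1 : (p : ℤ) ∣ a * b * c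
  swap
  · exact caseI a b c h1 hF
  rw [hpZ.dvd_mul, hpZ.dvd_mul] at h1
  rw [← sub_eq_zero, sub_eq_add_neg, ← hodd.neg_pow] at hF
  rcases h1 with (hpa | hpb) | hpc
  · refine flt_of_dvd_a_of_gcd_eq_one_of_case2 hp hodd ha hpa ?_ H hF
    simp only [← Hgcd, gcd_insert, gcd_singleton, id_eq, ← abs_eq_normalize, abs_neg]
  · rw [add_comm (a ^ p)] at hF
    refine flt_of_dvd_a_of_gcd_eq_one_of_case2 hp hodd hb hpb ?_ H hF
    simp only [← Hgcd, insert_comm, gcd_insert, gcd_singleton, id_eq, ← abs_eq_normalize, abs_neg]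
  · rw [add_comm _ ((-c) ^ p), ← add_assoc] at hF
    refine flt_of_dvd_a_of_gcd_eq_one_of_case2 hp hodd (neg_ne_zero.2 hc) (by simp [hpc])
      ?_ H hF
    rw [Finset.insert_comm (-c), Finset.pair_comm (-c) b]
    simp only [← Hgcd, gcd_insert, gcd_singleton, id_eq, ← abs_eq_normalize, abs_neg]

end IntSide


section RingOfIntegers

variable {p : ℕ} [hp : Fact p.Prime] {K : Type*} [Field K] [NumberField K]
  [IsCyclotomicExtension {p} ℚ K] {ζ : K} (hζ : IsPrimitiveRoot ζ p)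

include hζ in
lemma exists_int_congr_mod_lambda (x : 𝓞 K) : ∃ n : ℤ, (hζ.toInteger - 1) ∣ x - n := by
  obtain ⟨f, hf⟩ := (hζ.integralPowerBasis).exists_eq_aeval' x
  rw [hζ.integralPowerBasis_gen] at hf
  refine ⟨f.eval 1, ?_⟩
  have h1 := Polynomial.sub_dvd_eval_sub hζ.toInteger 1 (f.map (algebraMap ℤ (𝓞 K)))
  rw [Polynomial.eval_map_algebraMap, ← hf] at h1
  have h2 : (f.map (algebraMap ℤ (𝓞 K))).eval 1 = ((f.eval 1 : ℤ) : 𝓞 K) := by
    simp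
  rwa [h2] at h1

/-- **Case II** in the ring of integers of the `p`-th cyclotomic field, assuming it is a PID and
Kummer's lemma. -/
theorem caseII_ringOfIntegers (hp2 : p ≠ 2) [IsPrincipalIdealRing (𝓞 K)]
    (KL : ∀ u : (𝓞 K)ˣ, (∃ n : ℤ, (p : 𝓞 K) ∣ (u : 𝓞 K) - n) → ∃ v : (𝓞 K)ˣ, u = v ^ p)
    (a b c : 𝓞 K) (u : (𝓞 K)ˣ) (hc : c ≠ 0) (ha : ¬ (hζ.toInteger - 1) ∣ a)
    (hb : ¬ (hζ.toInteger - 1) ∣ b) (hlc : (hζ.toInteger - 1) ∣ c) (hab : IsCoprime a b) :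
    a ^ p + b ^ p ≠ u * c ^ p :=
  caseII_abstract hp.out hp2 hζ.toInteger_isPrimitiveRoot hζ.zeta_sub_one_prime'
    (IsCyclotomicExtension.Rat.associated_zeta_sub_one_pow_prime p hζ)
    (exists_int_congr_mod_lambda hζ) KL a b c u hc ha hb hlc hab


/-- Kummer's lemma for the prime `p` and the field `K`: a unit congruent to a rational integer
modulo `p` is a `p`-th power. -/
def KummerLemma (p : ℕ) (K : Type*) [Field K] [NumberField K] : Prop :=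
  ∀ u : (𝓞 K)ˣ, (∃ n : ℤ, (p : 𝓞 K) ∣ (u : 𝓞 K) - n) → ∃ v : (𝓞 K)ˣ, u = v ^ p

include hζ in
/-- **Case II** over `ℤ`. -/
theorem caseII_int_aux (hp2 : p ≠ 2) [IsPrincipalIdealRing (𝓞 K)] (KL : KummerLemma p K)
    (a b c : ℤ) (hc : c ≠ 0) (ha : ¬ (p : ℤ) ∣ a) (hb : ¬ (p : ℤ) ∣ b) (hpc : (p : ℤ) ∣ c)
    (hab : IsCoprime a b) : a ^ p + b ^ p ≠ c ^ p := by
  intro h
  refine caseII_ringOfIntegers hζ hp2 KL (a : 𝓞 K) b c 1 (by exact_mod_cast hc) ?_ ?_ ?_ ?_ ?_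
  · rwa [IsCyclotomicExtension.Rat.zeta_sub_one_dvd_intCast_iff' p hζ]
  · rwa [IsCyclotomicExtension.Rat.zeta_sub_one_dvd_intCast_iff' p hζ]
  · rwa [IsCyclotomicExtension.Rat.zeta_sub_one_dvd_intCast_iff' p hζ]
  · exact IsCoprime.intCast hab
  · rw [Units.val_one, one_mul]
    exact_mod_cast congrArg (Int.cast : ℤ → 𝓞 K) h

variable (K) in
/-- **Case II** over `ℤ`, for any `p`-th cyclotomic field `K` whose ring of integers is a PID
and satisfies Kummer's lemma. -/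
theorem caseII_int (hp2 : p ≠ 2) [IsPrincipalIdealRing (𝓞 K)] (KL : KummerLemma p K)
    (a b c : ℤ) (hc : c ≠ 0) (ha : ¬ (p : ℤ) ∣ a) (hb : ¬ (p : ℤ) ∣ b) (hpc : (p : ℤ) ∣ c)
    (hab : IsCoprime a b) : a ^ p + b ^ p ≠ c ^ p :=
  caseII_int_aux (IsCyclotomicExtension.zeta_spec p ℚ K) hp2 KL a b c hc ha hb hpc hab

variable (K) in
/-- Fermat's Last Theorem for an odd prime `p`, from case I, the PID property and Kummer's
lemma. -/
theorem fermatLastTheoremFor_of_caseI_of_PID_of_KL (hp2 : p ≠ 2)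
    (caseI : ∀ a b c : ℤ, ¬ (p : ℤ) ∣ a * b * c → a ^ p + b ^ p ≠ c ^ p)
    [IsPrincipalIdealRing (𝓞 K)] (KL : KummerLemma p K) : FermatLastTheoremFor p :=
  fermatLastTheoremFor_of_caseI_of_caseII hp.out (hp.out.odd_of_ne_two hp2) caseI
    (caseII_int K hp2 KL)

end RingOfIntegers

end Fermat.Agent.S11.H851
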