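import Mathlib

/-!
# Case II descent (Kummer), abstract form.

`R` is a principal ideal domain containing a primitive `p`-th root of unity `ζ` (`p` an odd
prime) such that `l = ζ - 1` is prime, `l ^ (p - 1)` is associated to `p`, every element of `R` is
congruent to a rational integer modulo `l`, and every unit congruent to a rational integer
modulo `p` is a `p`-th power.  Then `a ^ p + b ^ p = u * c ^ p` has no solution with
`l ∣ c`, `c ≠ 0`, `¬ l ∣ a`, `¬ l ∣ b`, `IsCoprime a b`.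
-/

open Finset

namespace Fermat.Agent.S11.H851

section Abstract

variable {R : Type*} [CommRing R]
variable {p : ℕ} {ζ : R}

/-- every `p`-th power is congruent to a rational integer modulo `p`. -/
lemma exists_int_pow_congr (hp : p.Prime)
    (hpl : Associated ((ζ - 1) ^ (p - 1)) (p : R))
    (hres : ∀ x : R, ∃ n : ℤ, (ζ - 1) ∣ x - n) (x : R) :
    ∃ n : ℤ, (p : R) ∣ x ^ p - n := by
  obtain ⟨n, y, hy⟩ := hres x
  obtain ⟨r, hr⟩ := exists_add_pow_prime_eq hp (n : R) ((ζ - 1) * y)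
  refine ⟨n ^ p, ?_⟩
  have hx : x = n + (ζ - 1) * y := by rw [← hy]; ring
  have h1 : (p : R) ∣ (ζ - 1) ^ p := by
    have : (ζ - 1) ^ p = (ζ - 1) ^ (p - 1) * (ζ - 1) := by
      rw [← pow_succ, Nat.sub_add_cancel hp.one_le]
    rw [this]
    exact Dvd.dvd.mul_right hpl.symm.dvd _
  obtain ⟨s, hs⟩ := h1
  refine ⟨s * y ^ p + n * ((ζ - 1) * y) * r, ?_⟩
  rw [hx, hr, mul_pow, hs]
  push_cast
  ring

lemma l_dvd_p (hp : p.Prime) (hpl : Associated ((ζ - 1) ^ (p - 1)) (p : R)) :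
    (ζ - 1) ∣ (p : R) :=
  (dvd_pow_self _ (Nat.sub_ne_zero_of_lt hp.one_lt)).trans hpl.dvd

lemma l_dvd_intCast (hp : p.Prime) (hpl : Associated ((ζ - 1) ^ (p - 1)) (p : R)) {n : ℤ}
    (hn : (p : ℤ) ∣ n) : (ζ - 1) ∣ (n : R) := by
  refine (l_dvd_p hp hpl).trans ?_
  have := map_dvd (Int.castRingHom R) hn
  simpa using this

lemma p_dvd_l_pow (hp : p.Prime) (hpl : Associated ((ζ - 1) ^ (p - 1)) (p : R)) {k : ℕ}
    (hk : p ≤ k) : (p : R) ∣ (ζ - 1) ^ k :=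
  hpl.symm.dvd.trans (pow_dvd_pow _ (by omega))

variable [IsDomain R]

lemma assoc_l_pow_sub_one (hp : p.Prime) (hζ : IsPrimitiveRoot ζ p) {k : ℕ} (hk0 : 0 < k)
    (hkp : k < p) : Associated (ζ - 1) (ζ ^ k - 1) := by
  apply hζ.associated_sub_one_pow_sub_one_of_coprime
  exact (Nat.coprime_of_lt_prime hk0.ne' hkp hp).symm

lemma prod_formula (hodd : Odd p) (hζ : IsPrimitiveRoot ζ p) (a b : R) :
    a ^ p + b ^ p = ∏ i ∈ range p, (a + ζ ^ i * b) := by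
  classical
  have : NeZero p := ⟨hodd.pos.ne'⟩
  rw [hζ.pow_add_pow_eq_prod_add_mul a b hodd]
  have h1 : Polynomial.nthRootsFinset p (1 : R) = (range p).image (fun i => ζ ^ i) := by
    ext x
    rw [Polynomial.mem_nthRootsFinset hodd.pos, Finset.mem_image]
    constructor
    · intro hx
      obtain ⟨i, hi, rfl⟩ := hζ.eq_pow_of_pow_eq_one hx
      exact ⟨i, Finset.mem_range.2 hi, rfl⟩
    · rintro ⟨i, -, rfl⟩
      rw [← pow_mul, mul_comm, pow_mul, hζ.pow_eq_one, one_pow]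
  rw [h1, Finset.prod_image]
  intro i hi j hj hij
  exact hζ.pow_inj (Finset.mem_range.1 hi) (Finset.mem_range.1 hj) hij

/-- a common prime divisor of two distinct factors divides `ζ - 1`. -/
lemma prime_dvd_two_factors_lt (hp : p.Prime) (hζ : IsPrimitiveRoot ζ p) {a b : R}
    (hab : IsCoprime a b) {i j : ℕ} (hj : j < p) (hij : i < j) {q : R}
    (h1 : q ∣ a + ζ ^ i * b) (h2 : q ∣ a + ζ ^ j * b) : q ∣ ζ - 1 := by
  obtain ⟨x, y, hxy⟩ := hab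
  obtain ⟨e, he⟩ := assoc_l_pow_sub_one hp hζ (k := j - i) (by omega) (by omega)
  have hζu : IsUnit (ζ ^ i) := (hζ.isUnit hp.ne_zero).pow i
  have hji : ζ ^ j = ζ ^ i * ζ ^ (j - i) := by rw [← pow_add]; congr 1; omega
  have hb : q ∣ (ζ ^ j - ζ ^ i) * b := by
    have : (ζ ^ j - ζ ^ i) * b = (a + ζ ^ j * b) - (a + ζ ^ i * b) := by ring
    rw [this]; exact dvd_sub h2 h1
  have ha : q ∣ (ζ ^ j - ζ ^ i) * a := by
    have : (ζ ^ j - ζ ^ i) * a = ζ ^ j * (a + ζ ^ i * b) - ζ ^ i * (a + ζ ^ j * b) := by ring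
    rw [this]; exact dvd_sub (h1.mul_left _) (h2.mul_left _)
  have h3 : q ∣ ζ ^ j - ζ ^ i := by
    have : ζ ^ j - ζ ^ i = x * ((ζ ^ j - ζ ^ i) * a) + y * ((ζ ^ j - ζ ^ i) * b) := by
      linear_combination (-(ζ ^ j - ζ ^ i)) * hxy
    rw [this]; exact dvd_add (ha.mul_left _) (hb.mul_left _)
  have h4 : ζ ^ j - ζ ^ i = ζ ^ i * ((ζ - 1) * e) := by rw [he, hji]; ring
  rw [h4, hζu.dvd_mul_left] at h3
  exact (Units.dvd_mul_right).1 h3

lemma prime_dvd_two_factors (hp : p.Prime) (hζ : IsPrimitiveRoot ζ p) {a b : R}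
    (hab : IsCoprime a b) {i j : ℕ} (hi : i < p) (hj : j < p) (hij : i ≠ j) {q : R}
    (h1 : q ∣ a + ζ ^ i * b) (h2 : q ∣ a + ζ ^ j * b) : q ∣ ζ - 1 := by
  rcases lt_or_gt_of_ne hij with h | h
  · exact prime_dvd_two_factors_lt hp hζ hab hj h h1 h2
  · exact prime_dvd_two_factors_lt hp hζ hab hi h h2 h1

/-- If `l ∣ a + b` and `¬ l ∣ b` then `l ^ 2 ∣ a + ζ ^ k * b` for some `k`. -/
lemma exists_sq_dvd (hp : p.Prime) (hpl : Associated ((ζ - 1) ^ (p - 1)) (p : R))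
    (hres : ∀ x : R, ∃ n : ℤ, (ζ - 1) ∣ x - n) {a b : R} (h1 : (ζ - 1) ∣ a + b)
    (hb : ¬ (ζ - 1) ∣ b) : ∃ k : ℕ, (ζ - 1) ^ 2 ∣ a + ζ ^ k * b := by
  obtain ⟨t, ht⟩ := h1
  obtain ⟨t₀, ht₀⟩ := hres t
  obtain ⟨b₀, hb₀⟩ := hres b
  have hpb₀ : ¬ (p : ℤ) ∣ b₀ := by
    intro hdiv
    apply hb
    have := dvd_add hb₀ (l_dvd_intCast hp hpl hdiv)
    simpa using this
  have : Fact p.Prime := ⟨hp⟩
  have hb₀' : (b₀ : ZMod p) ≠ 0 := by rwa [Ne, ZMod.intCast_zmod_eq_zero_iff_dvd]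
  let k : ℕ := ((-(t₀ : ZMod p)) * (b₀ : ZMod p)⁻¹).val
  have hk : (p : ℤ) ∣ t₀ + k * b₀ := by
    rw [← ZMod.intCast_zmod_eq_zero_iff_dvd]
    push_cast
    rw [ZMod.natCast_zmod_val]
    field_simp
    ring
  refine ⟨k, ?_⟩
  have hg : (ζ - 1) ∣ (∑ i ∈ range k, ζ ^ i) - (k : R) := by
    have : (∑ i ∈ range k, ζ ^ i) - (k : R) = ∑ i ∈ range k, (ζ ^ i - 1) := by
      simp [Finset.sum_sub_distrib]
    rw [this]
    apply Finset.dvd_sum
    intro i _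
    simpa using sub_dvd_pow_sub_pow ζ 1 i
  have key : a + ζ ^ k * b = (ζ - 1) * (t + (∑ i ∈ range k, ζ ^ i) * b) := by
    have := mul_geom_sum ζ k
    linear_combination ht - b * this
  rw [key, pow_two]
  apply mul_dvd_mul_left
  have e : t + (∑ i ∈ range k, ζ ^ i) * b = (t - t₀) + ((∑ i ∈ range k, ζ ^ i) - k) * b
      + k * (b - b₀) + ((t₀ + k * b₀ : ℤ) : R) := by
    push_cast; ring
  rw [e]
  exact dvd_add (dvd_add (dvd_add ht₀ (hg.mul_right _)) (hb₀.mul_left _))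
    (l_dvd_intCast hp hpl hk)

/-- The descent predicate: a solution whose `c` has `l`-adic valuation exactly `n`. -/
def Sol (p : ℕ) (ζ : R) (n : ℕ) : Prop :=
  ∃ a b c : R, ∃ u : Rˣ, ¬ (ζ - 1) ∣ a ∧ ¬ (ζ - 1) ∣ b ∧ ¬ (ζ - 1) ∣ c ∧ IsCoprime a b ∧
    a ^ p + b ^ p = u * ((ζ - 1) ^ n * c) ^ p

/-- A normalised solution: moreover `l ^ 2 ∣ a + b`. -/
def SolN (p : ℕ) (ζ : R) (n : ℕ) : Prop :=
  ∃ a b c : R, ∃ u : Rˣ, ¬ (ζ - 1) ∣ a ∧ ¬ (ζ - 1) ∣ b ∧ ¬ (ζ - 1) ∣ c ∧ IsCoprime a b ∧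
    a ^ p + b ^ p = u * ((ζ - 1) ^ n * c) ^ p ∧ (ζ - 1) ^ 2 ∣ a + b

lemma Sol.normalize (hp : p.Prime) (hζ : IsPrimitiveRoot ζ p) (hl : Prime (ζ - 1))
    (hpl : Associated ((ζ - 1) ^ (p - 1)) (p : R))
    (hres : ∀ x : R, ∃ n : ℤ, (ζ - 1) ∣ x - n) {n : ℕ} (hn : 1 ≤ n) (h : Sol p ζ n) :
    SolN p ζ n := by
  obtain ⟨a, b, c, u, ha, hb, hc, hab, H⟩ := h
  have h1 : (ζ - 1) ∣ a + b := by
    have : (ζ - 1) ∣ (a + b) ^ p := by
      obtain ⟨r, hr⟩ := exists_add_pow_prime_eq hp a b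
      rw [hr, H]
      apply dvd_add
      · apply Dvd.dvd.mul_left
        apply dvd_pow _ hp.ne_zero
        exact Dvd.dvd.mul_right (dvd_pow_self _ (by omega)) _
      · exact (((l_dvd_p hp hpl).mul_right _).mul_right _).mul_right _
    exact hl.dvd_of_dvd_pow this
  obtain ⟨k, hk⟩ := exists_sq_dvd hp hpl hres h1 hb
  have hζu : IsUnit (ζ ^ k) := (hζ.isUnit hp.ne_zero).pow k
  refine ⟨a, ζ ^ k * b, c, u, ha, ?_, hc, ?_, ?_, hk⟩
  · rwa [hζu.dvd_mul_left]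
  · exact (isCoprime_mul_unit_left_right hζu a b).2 hab
  · rw [mul_pow, ← pow_mul, mul_comm k p, pow_mul, hζ.pow_eq_one, one_pow, one_mul, H]


/-- The factorisation step: from a normalised solution we get three pairwise related `p`-th
powers. -/
lemma SolN.factor [IsPrincipalIdealRing R] (hp : p.Prime) (hp2 : p ≠ 2)
    (hζ : IsPrimitiveRoot ζ p) (hl : Prime (ζ - 1))
    {n : ℕ} (hn : 1 ≤ n) {a b c : R} {u : Rˣ} (hb : ¬ (ζ - 1) ∣ b)
    (hc : ¬ (ζ - 1) ∣ c) (hab : IsCoprime a b)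
    (H : a ^ p + b ^ p = u * ((ζ - 1) ^ n * c) ^ p) (hab2 : (ζ - 1) ^ 2 ∣ a + b) :
    2 ≤ n ∧ ∃ x₀ y₁ y₂ : R, ¬ (ζ - 1) ∣ x₀ ∧ ¬ (ζ - 1) ∣ y₁ ∧ ¬ (ζ - 1) ∣ y₂ ∧
      IsCoprime y₁ y₂ ∧ (∃ d, Associated (d ^ p) x₀) ∧ (∃ d, Associated (d ^ p) y₁) ∧
      (∃ d, Associated (d ^ p) y₂) ∧
      (1 + ζ) * y₁ = y₂ + ζ * ((ζ - 1) ^ (n - 1)) ^ p * x₀ := by
  have hp3 : 3 ≤ p := by
    have := hp.two_le
    omega
  have hE : ∀ i, 0 < i → i < p → ∃ y, a + ζ ^ i * b = (ζ - 1) * y ∧ ¬ (ζ - 1) ∣ y := by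
    intro i hi0 hip
    obtain ⟨e, he⟩ := assoc_l_pow_sub_one hp hζ hi0 hip
    obtain ⟨t', ht'⟩ := hab2
    refine ⟨(ζ - 1) * t' + e * b, ?_, ?_⟩
    · linear_combination ht' - b * he
    · intro hd
      have : (ζ - 1) ∣ e * b := (dvd_add_right (dvd_mul_right (ζ - 1) t')).1 hd
      exact hb ((e.isUnit.dvd_mul_left).1 this)
  choose! y hy using hE
  have hprod : (a + b) * ((ζ - 1) ^ (p - 1) * ∏ i ∈ Ico 1 p, y i) =
      u * ((ζ - 1) ^ n * c) ^ p := by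
    rw [← H, prod_formula (hp.odd_of_ne_two hp2) hζ, Finset.range_eq_Ico,
      Finset.prod_eq_prod_Ico_succ_bot hp.pos]
    simp only [pow_zero, one_mul]
    congr 1
    have hcard : (Ico 1 p).card = p - 1 := by simp
    rw [← hcard, ← Finset.prod_const, ← Finset.prod_mul_distrib]
    apply Finset.prod_congr rfl
    intro i hi
    rw [Finset.mem_Ico] at hi
    exact ((hy i hi.1 hi.2).1).symm
  -- the exponent of `l` in `a + b`
  obtain ⟨m, hm⟩ : ∃ m, m + (p - 1) = p * n := by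
    refine ⟨p * n - (p - 1), Nat.sub_add_cancel ?_⟩
    calc p - 1 ≤ p := Nat.sub_le _ _
      _ = p * 1 := (mul_one p).symm
      _ ≤ p * n := Nat.mul_le_mul_left p hn
  have hprod2 : (a + b) * ∏ i ∈ Ico 1 p, y i = (ζ - 1) ^ m * (u * c ^ p) := by
    apply mul_left_cancel₀ (pow_ne_zero (p - 1) hl.ne_zero)
    rw [mul_pow, ← pow_mul, mul_comm n p, ← hm, pow_add] at hprod
    linear_combination hprod
  have hnd : ¬ (ζ - 1) ∣ ∏ i ∈ Ico 1 p, y i := by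
    rw [Prime.dvd_finsetProd_iff hl]
    push Not
    intro i hi
    rw [mem_Ico] at hi
    exact (hy i hi.1 hi.2).2
  have hdvd : (ζ - 1) ^ m ∣ a + b :=
    hl.pow_dvd_of_dvd_mul_right m hnd (by rw [hprod2]; exact dvd_mul_right _ _)
  obtain ⟨x₀, hx₀⟩ := hdvd
  have hprod3 : x₀ * ∏ i ∈ Ico 1 p, y i = u * c ^ p := by
    apply mul_left_cancel₀ (pow_ne_zero m hl.ne_zero)
    rw [← hprod2, hx₀]
    ring
  have hx₀l : ¬ (ζ - 1) ∣ x₀ := by
    intro hd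
    have h1 : (ζ - 1) ∣ u * c ^ p := hprod3 ▸ hd.mul_right _
    exact hc (hl.dvd_of_dvd_pow ((u.isUnit.dvd_mul_left).1 h1))
  have hm2 : 2 ≤ m := by
    by_contra hlt
    have hm1 : m = 1 := by
      have : p - 1 < p * n := by
        calc p - 1 < p := Nat.sub_lt hp.pos one_pos
          _ = p * 1 := (mul_one p).symm
          _ ≤ p * n := Nat.mul_le_mul_left p hn
      omega
    rw [hx₀, hm1, pow_one, pow_two] at hab2
    exact hx₀l ((mul_dvd_mul_iff_left hl.ne_zero).1 hab2)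
  have hn2 : 2 ≤ n := by
    by_contra hlt
    have hn1 : n = 1 := by omega
    rw [hn1, mul_one] at hm
    have := hp.one_le
    omega
  refine ⟨hn2, ?_⟩
  -- the pairwise coprime family
  let g : ℕ → R := fun i => if i = 0 then x₀ else y i
  have hg0 : g 0 = x₀ := by simp [g]
  have hgi : ∀ i, 0 < i → g i = y i := fun i hi => by simp [g, hi.ne']
  have hgprod : ∏ i ∈ range p, g i = u * c ^ p := by
    rw [Finset.range_eq_Ico, Finset.prod_eq_prod_Ico_succ_bot hp.pos, hg0, ← hprod3]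
    congr 1
    apply Finset.prod_congr rfl
    intro i hi
    exact hgi i (by have := (Finset.mem_Ico.1 hi).1; omega)
  have hfg : ∀ i, i < p → g i ∣ a + ζ ^ i * b := by
    intro i hi
    rcases Nat.eq_zero_or_pos i with h0 | h0
    · subst h0
      rw [hg0, pow_zero, one_mul, hx₀]
      exact dvd_mul_left _ _
    · rw [hgi i h0, (hy i h0 hi).1]
      exact dvd_mul_left _ _
  have hgl : ∀ i, i < p → ¬ (ζ - 1) ∣ g i := by
    intro i hi
    rcases Nat.eq_zero_or_pos i with h0 | h0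
    · subst h0
      rwa [hg0]
    · rw [hgi i h0]
      exact (hy i h0 hi).2
  have hcop : ∀ i, i < p → ∀ j, j < p → i ≠ j → IsCoprime (g i) (g j) := by
    intro i hi j hj hij
    apply isCoprime_of_prime_dvd
    · rintro ⟨h0, -⟩
      exact hgl i hi (h0 ▸ dvd_zero _)
    · intro q hq hqi hqj
      have hql : q ∣ ζ - 1 :=
        prime_dvd_two_factors hp hζ hab hi hj hij (hqi.trans (hfg i hi)) (hqj.trans (hfg j hj))
      exact hgl i hi ((hq.associated_of_dvd hl hql).symm.dvd.trans hqi)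
  have hpow : ∀ i, i < p → ∃ d, Associated (d ^ p) (g i) := by
    intro i hi
    have h1 : g i * ∏ j ∈ (range p).erase i, g j = u * c ^ p := by
      rw [Finset.mul_prod_erase _ _ (Finset.mem_range.2 hi), hgprod]
    apply exists_associated_pow_of_associated_pow_mul (c := c)
      (b := ∏ j ∈ (range p).erase i, g j)
    · apply IsCoprime.prod_right
      intro j hj
      exact hcop i hi j (Finset.mem_range.1 (Finset.mem_of_mem_erase hj))
        (Finset.ne_of_mem_erase hj).symm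
    · rw [h1]
      exact ⟨u, mul_comm _ _⟩
  have h1p : 1 < p := by omega
  have h2p : 2 < p := by omega
  refine ⟨x₀, y 1, y 2, hx₀l, (hy 1 one_pos h1p).2, (hy 2 two_pos h2p).2, ?_, ?_, ?_, ?_, ?_⟩
  · have := hcop 1 h1p 2 h2p (by norm_num)
    rwa [hgi 1 one_pos, hgi 2 two_pos] at this
  · have := hpow 0 hp.pos
    rwa [hg0] at this
  · have := hpow 1 h1p
    rwa [hgi 1 one_pos] at this
  · have := hpow 2 h2p
    rwa [hgi 2 two_pos] at this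
  · apply mul_left_cancel₀ hl.ne_zero
    have e1 := (hy 1 one_pos h1p).1
    have e2 := (hy 2 two_pos h2p).1
    have hm' : m = p * (n - 1) + 1 := by
      have : p * n = p * (n - 1) + p := by
        conv_lhs => rw [show n = (n - 1) + 1 by omega]
        ring
      have := hp.one_le
      omega
    have e3 : (ζ - 1) ^ m = (ζ - 1) * ((ζ - 1) ^ (n - 1)) ^ p := by
      rw [hm', pow_succ', ← pow_mul, mul_comm p]
    rw [e3] at hx₀
    linear_combination (-(1 + ζ)) * e1 + e2 + ζ * hx₀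

/-- The descent step. -/
theorem SolN.descent [IsPrincipalIdealRing R] (hp : p.Prime) (hp2 : p ≠ 2)
    (hζ : IsPrimitiveRoot ζ p) (hl : Prime (ζ - 1))
    (hpl : Associated ((ζ - 1) ^ (p - 1)) (p : R))
    (hres : ∀ x : R, ∃ n : ℤ, (ζ - 1) ∣ x - n)
    (KL : ∀ u : Rˣ, (∃ n : ℤ, (p : R) ∣ (u : R) - n) → ∃ v : Rˣ, u = v ^ p)
    {n : ℕ} (hn : 1 ≤ n) (h : SolN p ζ n) : 2 ≤ n ∧ Sol p ζ (n - 1) := by
  obtain ⟨a, b, c, u, -, hb, hc, hab, H, hab2⟩ := h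
  obtain ⟨hn2, x₀, y₁, y₂, hx₀, hy₁, hy₂, hcop, ⟨ρ₀, ε₀, h₀⟩, ⟨ρ₁, ε₁, h₁⟩, ⟨ρ₂, ε₂, h₂⟩, rel⟩ :=
    SolN.factor hp hp2 hζ hl hn hb hc hab H hab2
  refine ⟨hn2, ?_⟩
  have hodd : Odd p := hp.odd_of_ne_two hp2
  have hp3 : 3 ≤ p := by
    have := hp.two_le
    omega
  -- `1 + ζ` is a unit
  obtain ⟨w, hw⟩ : ∃ w : Rˣ, (w : R) = 1 + ζ := by
    obtain ⟨e, he⟩ := assoc_l_pow_sub_one hp hζ (k := 2) (by norm_num) (by omega)
    refine ⟨e, ?_⟩
    apply mul_left_cancel₀ hl.ne_zero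
    rw [he]
    ring
  obtain ⟨z, hz⟩ : ∃ z : Rˣ, (z : R) = ζ := ⟨(hζ.isUnit hp.ne_zero).unit, rfl⟩
  -- non-divisibility of the roots
  have hρ₀ : ¬ (ζ - 1) ∣ ρ₀ := fun hd => hx₀ (h₀ ▸ (dvd_pow hd hp.ne_zero).mul_right _)
  have hρ₁ : ¬ (ζ - 1) ∣ ρ₁ := fun hd => hy₁ (h₁ ▸ (dvd_pow hd hp.ne_zero).mul_right _)
  have hρ₂ : ¬ (ζ - 1) ∣ ρ₂ := fun hd => hy₂ (h₂ ▸ (dvd_pow hd hp.ne_zero).mul_right _)
  -- the new equation, before Kummer's lemma
  set η : Rˣ := ε₂ * (w * ε₁)⁻¹ with hη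
  set u' : Rˣ := z * ε₀ * (w * ε₁)⁻¹ with hu'
  have hnew : ρ₁ ^ p + η * (-ρ₂) ^ p = u' * ((ζ - 1) ^ (n - 1) * ρ₀) ^ p := by
    have hwe : ((w * ε₁ : Rˣ) : R) * (((w * ε₁)⁻¹ : Rˣ) : R) = 1 := by
      rw [← Units.val_mul, mul_inv_cancel, Units.val_one]
    rw [hodd.neg_pow, hη, hu', mul_pow]
    push_cast
    rw [← h₁, ← h₂, ← h₀, ← hw] at rel
    push_cast at hwe
    rw [hz]
    linear_combination (↑(w * ε₁)⁻¹ : R) * rel + (- ρ₁ ^ p) * hwe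
  -- `η` is congruent to a rational integer modulo `p`
  have hcong : ∃ k : ℤ, (p : R) ∣ (η : R) - k := by
    obtain ⟨r₁, s₁, hr₁⟩ := exists_int_pow_congr hp hpl hres ρ₁
    obtain ⟨r₂, s₂, hr₂⟩ := exists_int_pow_congr hp hpl hres (-ρ₂)
    have hpr₂ : ¬ (p : ℤ) ∣ r₂ := by
      intro hdiv
      have h1 : (ζ - 1) ∣ (-ρ₂) ^ p := by
        have h2 : (-ρ₂) ^ p = (r₂ : R) + (p : R) * s₂ := by rw [← hr₂]; ring
        rw [h2]
        exact dvd_add (l_dvd_intCast hp hpl hdiv) ((l_dvd_p hp hpl).mul_right _)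
      exact hρ₂ ((dvd_neg).1 (hl.dvd_of_dvd_pow h1))
    have : Fact p.Prime := ⟨hp⟩
    have hr₂' : (r₂ : ZMod p) ≠ 0 := by rwa [Ne, ZMod.intCast_zmod_eq_zero_iff_dvd]
    obtain ⟨s, t, hs⟩ : ∃ s t : ℤ, r₂ * s - 1 = p * t := by
      have : (p : ℤ) ∣ r₂ * ((r₂ : ZMod p)⁻¹).val - 1 := by
        rw [← ZMod.intCast_zmod_eq_zero_iff_dvd]
        push_cast
        rw [ZMod.natCast_zmod_val, mul_inv_cancel₀ hr₂', sub_self]
      obtain ⟨t, ht⟩ := this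
      exact ⟨_, t, ht⟩
    have hs' : (r₂ : R) * s - 1 = p * t := by exact_mod_cast congrArg (Int.cast : ℤ → R) hs
    obtain ⟨q, hq⟩ : (p : R) ∣ ρ₁ ^ p + η * (-ρ₂) ^ p := by
      rw [hnew, mul_pow, ← pow_mul]
      apply Dvd.dvd.mul_left
      apply Dvd.dvd.mul_right
      apply p_dvd_l_pow hp hpl
      calc p = 1 * p := (one_mul p).symm
        _ ≤ (n - 1) * p := Nat.mul_le_mul_right p (by omega)
    refine ⟨-(r₁ * s), (η : R) * (-t) + s * (q - η * s₂ - s₁), ?_⟩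
    push_cast
    linear_combination (-(η : R)) * hs' + (s : R) * hq - (s : R) * hr₁ - (s : R) * (η : R) * hr₂
  obtain ⟨v, hv⟩ := KL η hcong
  refine ⟨ρ₁, v * (-ρ₂), ρ₀, u', hρ₁, ?_, hρ₀, ?_, ?_⟩
  · rw [v.isUnit.dvd_mul_left, dvd_neg]
    exact hρ₂
  · rw [isCoprime_mul_unit_left_right v.isUnit, IsCoprime.neg_right_iff]
    have h3 : IsCoprime (ρ₁ ^ p) (ρ₂ ^ p) := by
      rw [← h₁, ← h₂] at hcop
      exact (hcop.of_mul_left_left).of_mul_right_left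
    exact (IsCoprime.pow_iff hp.pos hp.pos).1 h3
  · rw [mul_pow, ← Units.val_pow_eq_pow_val, ← hv]
    exact hnew

theorem not_sol [IsPrincipalIdealRing R] (hp : p.Prime) (hp2 : p ≠ 2)
    (hζ : IsPrimitiveRoot ζ p) (hl : Prime (ζ - 1))
    (hpl : Associated ((ζ - 1) ^ (p - 1)) (p : R))
    (hres : ∀ x : R, ∃ n : ℤ, (ζ - 1) ∣ x - n)
    (KL : ∀ u : Rˣ, (∃ n : ℤ, (p : R) ∣ (u : R) - n) → ∃ v : Rˣ, u = v ^ p) :
    ∀ n : ℕ, 1 ≤ n → ¬ Sol p ζ n := by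
  intro n
  induction n with
  | zero => intro h; omega
  | succ k ih =>
    intro _ hS
    have hN := Sol.normalize hp hζ hl hpl hres (Nat.succ_pos k) hS
    obtain ⟨h2, hS'⟩ := SolN.descent hp hp2 hζ hl hpl hres KL (Nat.succ_pos k) hN
    have hk : k.succ - 1 = k := rfl
    rw [hk] at hS'
    exact ih (by omega) hS'

/-- **Case II, abstract form.** -/
theorem caseII_abstract [IsPrincipalIdealRing R] (hp : p.Prime) (hp2 : p ≠ 2)
    (hζ : IsPrimitiveRoot ζ p) (hl : Prime (ζ - 1))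
    (hpl : Associated ((ζ - 1) ^ (p - 1)) (p : R))
    (hres : ∀ x : R, ∃ n : ℤ, (ζ - 1) ∣ x - n)
    (KL : ∀ u : Rˣ, (∃ n : ℤ, (p : R) ∣ (u : R) - n) → ∃ v : Rˣ, u = v ^ p)
    (a b c : R) (u : Rˣ) (hc : c ≠ 0) (ha : ¬ (ζ - 1) ∣ a) (hb : ¬ (ζ - 1) ∣ b)
    (hlc : (ζ - 1) ∣ c) (hab : IsCoprime a b) : a ^ p + b ^ p ≠ u * c ^ p := by
  intro H
  have hfin : FiniteMultiplicity (ζ - 1) c := FiniteMultiplicity.of_not_isUnit hl.not_isUnit hc
  obtain ⟨c', hc', hlc'⟩ := hfin.exists_eq_pow_mul_and_not_dvd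
  have hn : 1 ≤ multiplicity (ζ - 1) c := by
    have := hfin.le_multiplicity_of_pow_dvd (k := 1) (by simpa using hlc)
    exact this
  refine not_sol hp hp2 hζ hl hpl hres KL _ hn ⟨a, b, c', u, ha, hb, hlc', hab, ?_⟩
  rw [← hc', H]

end Abstract

end Fermat.Agent.S11.H851
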