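import Mathlib
import Fermat.Agent.S11.PID791

/-
T3c (helper791): five units of the 11-th cyclotomic ring of integers that are independent modulo
the units congruent to a rational integer mod 11.
Method: the derivation D = (zeta - 1) d/d zeta with values in O_K / 11, built as the second
component of a ring hom into the trivial square zero extension; its logarithmic derivative is a
group hom on units killing the units congruent to an integer mod 11; the images of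
zeta, 1 + zeta, ..., 1 + zeta + ... + zeta^4 are independent by an explicit expansion in powers of
zeta - 1 and linear algebra mod 11.
-/

namespace Fermat.Agent.S11.H791

open NumberField Polynomial

variable (K : Type*) [Field K] [NumberField K] [IsCyclotomicExtension {11} ℚ K]

/-- the quotient ring `𝓞 K / 11` -/
abbrev Rq := 𝓞 K ⧸ Ideal.span {(11 : 𝓞 K)}

/-- the reduction map -/
noncomputable abbrev pq : 𝓞 K →+* Rq K := Ideal.Quotient.mk _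

omit [NumberField K] [IsCyclotomicExtension {11} ℚ K] in
lemma pq_eleven : pq K 11 = 0 := by
  rw [Ideal.Quotient.eq_zero_iff_mem]
  exact Ideal.mem_span_singleton_self _

omit [NumberField K] [IsCyclotomicExtension {11} ℚ K] in
lemma eleven_eq_zero : (11 : Rq K) = 0 := by
  have := pq_eleven K
  rwa [map_ofNat] at this

lemma pq_rel : 1 + pq K (zt K) + pq K (zt K) ^ 2 + pq K (zt K) ^ 3 + pq K (zt K) ^ 4
    + pq K (zt K) ^ 5 + pq K (zt K) ^ 6 + pq K (zt K) ^ 7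
    + pq K (zt K) ^ 8 + pq K (zt K) ^ 9 + pq K (zt K) ^ 10 = 0 := by
  have := congrArg (pq K) (zt_rel K)
  simpa using this

/-- the point `ζ + ε (ζ - 1)` of the trivial square zero extension of `𝓞 K / 11` -/
noncomputable def X0 : TrivSqZeroExt (Rq K) (Rq K) :=
  TrivSqZeroExt.inl (pq K (zt K)) + TrivSqZeroExt.inr (pq K (zt K) - 1)

lemma X0_fst : (X0 K).fst = pq K (zt K) := by simp [X0]
lemma X0_snd : (X0 K).snd = pq K (zt K) - 1 := by simp [X0]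

lemma aeval_X0_minpoly : aeval (X0 K) (minpoly ℤ (pb K).gen) = 0 := by
  rw [pb_gen, minpoly_zt, cyclotomic_prime]
  apply TrivSqZeroExt.ext
  · simp only [map_sum, map_pow, aeval_X, TrivSqZeroExt.fst_sum, TrivSqZeroExt.fst_pow, X0_fst,
      TrivSqZeroExt.fst_zero]
    simp only [Finset.sum_range_succ, Finset.sum_range_zero]
    linear_combination pq_rel K
  · simp only [map_sum, map_pow, aeval_X, TrivSqZeroExt.snd_sum, TrivSqZeroExt.snd_pow, X0_fst,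
      X0_snd, TrivSqZeroExt.snd_zero]
    simp only [Finset.sum_range_succ, Finset.sum_range_zero, smul_eq_mul, nsmul_eq_mul]
    simp only [Nat.pred_eq_sub_one]
    push_cast
    linear_combination (pq K (zt K) ^ 10) * eleven_eq_zero K - pq_rel K

/-- the ring hom `a ↦ a + ε D a` -/
noncomputable def phiD : 𝓞 K →ₐ[ℤ] TrivSqZeroExt (Rq K) (Rq K) :=
  (pb K).lift (X0 K) (aeval_X0_minpoly K)

lemma phiD_zt : phiD K (zt K) = X0 K := by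
  have := (pb K).lift_gen (X0 K) (aeval_X0_minpoly K)
  rwa [pb_gen] at this


lemma phiD_fst (a : 𝓞 K) : (phiD K a).fst = pq K a := by
  have h : (TrivSqZeroExt.fstHom ℤ (Rq K) (Rq K)).comp (phiD K) =
      Ideal.Quotient.mkₐ ℤ (Ideal.span {(11 : 𝓞 K)}) := by
    apply (pb K).algHom_ext
    rw [pb_gen]
    simp [phiD_zt, X0_fst]
  exact congrArg (fun f => f a) h

/-- the derivation `D = (ζ - 1) d/dζ : 𝓞 K → 𝓞 K / 11` -/
noncomputable def Dq (a : 𝓞 K) : Rq K := (phiD K a).snd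

lemma Dq_add (a b : 𝓞 K) : Dq K (a + b) = Dq K a + Dq K b := by
  simp [Dq]

lemma Dq_mul (a b : 𝓞 K) : Dq K (a * b) = pq K a * Dq K b + pq K b * Dq K a := by
  simp only [Dq, map_mul, TrivSqZeroExt.snd_mul, phiD_fst, smul_eq_mul, MulOpposite.smul_eq_mul_unop,
    MulOpposite.unop_op]
  ring

lemma Dq_intCast (m : ℤ) : Dq K (m : 𝓞 K) = 0 := by
  simp [Dq]

lemma Dq_zt : Dq K (zt K) = pq K (zt K) - 1 := by
  simp [Dq, phiD_zt, X0_snd]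

lemma Dq_pow (a : 𝓞 K) (n : ℕ) : Dq K (a ^ n) = n * pq K a ^ (n - 1) * Dq K a := by
  simp only [Dq, map_pow, TrivSqZeroExt.snd_pow, phiD_fst, smul_eq_mul, nsmul_eq_mul,
    Nat.pred_eq_sub_one]
  ring

lemma Dq_eq_zero_of_dvd (u : 𝓞 K) (m : ℤ) (h : (11 : 𝓞 K) ∣ u - m) : Dq K u = 0 := by
  obtain ⟨w, hw⟩ := h
  have : u = m + 11 * w := by rw [← hw]; ring
  rw [this, Dq_add, Dq_intCast, Dq_mul, pq_eleven, zero_add, zero_mul, zero_add]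
  have : Dq K (11 : 𝓞 K) = 0 := by
    have := Dq_intCast K 11
    simpa using this
  rw [this, mul_zero]

/-- the logarithmic derivative on units -/
noncomputable def dlog : (𝓞 K)ˣ →* Multiplicative (Rq K) where
  toFun u := Multiplicative.ofAdd (pq K (↑(u⁻¹) : 𝓞 K) * Dq K (u : 𝓞 K))
  map_one' := by
    have : Dq K (1 : 𝓞 K) = 0 := by
      have := Dq_intCast K 1
      simpa using this
    simp [this]
  map_mul' u v := by
    rw [← ofAdd_add]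
    congr 1
    have hu : pq K (↑(u⁻¹) : 𝓞 K) * pq K (u : 𝓞 K) = 1 := by
      rw [← map_mul]; simp
    have hv : pq K (↑(v⁻¹) : 𝓞 K) * pq K (v : 𝓞 K) = 1 := by
      rw [← map_mul]; simp
    simp only [mul_inv, Units.val_mul, map_mul, Dq_mul]
    linear_combination (pq K (↑(v⁻¹) : 𝓞 K) * Dq K (v : 𝓞 K)) * hu +
      (pq K (↑(u⁻¹) : 𝓞 K) * Dq K (u : 𝓞 K)) * hv

lemma dlog_apply (u : (𝓞 K)ˣ) :
    Multiplicative.toAdd (dlog K u) = pq K (↑(u⁻¹) : 𝓞 K) * Dq K (u : 𝓞 K) := rfl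

lemma dlog_eq_one_of_dvd (u : (𝓞 K)ˣ) (m : ℤ) (h : (11 : 𝓞 K) ∣ (u : 𝓞 K) - m) :
    dlog K u = 1 := by
  apply Multiplicative.toAdd.injective
  rw [dlog_apply, Dq_eq_zero_of_dvd K _ m h, mul_zero]
  rfl


lemma lam_dvd_intCast_iff (m : ℤ) : (zt K - 1) ∣ (m : 𝓞 K) ↔ (11 : ℤ) ∣ m :=
  IsCyclotomicExtension.Rat.zeta_sub_one_dvd_intCast_iff' 11
    (IsCyclotomicExtension.zeta_spec 11 ℚ K)

lemma lam_pow_ten_assoc : Associated ((zt K - 1) ^ 10) (11 : 𝓞 K) :=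
  IsCyclotomicExtension.Rat.associated_zeta_sub_one_pow_prime 11
    (IsCyclotomicExtension.zeta_spec 11 ℚ K)

lemma lam_ne_zero : zt K - 1 ≠ 0 := by
  intro h
  exact (zt_prim K).ne_one (by norm_num) (sub_eq_zero.1 h)

lemma filt_step (k : ℕ) (hk : k + 1 ≤ 10) (m : ℤ) (rest : 𝓞 K)
    (h : (zt K - 1) ^ (k + 1) ∣ (m : 𝓞 K) + (zt K - 1) * rest) :
    (11 : ℤ) ∣ m ∧ (zt K - 1) ^ k ∣ rest := by
  have h1 : (zt K - 1) ∣ (m : 𝓞 K) := by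
    have : (zt K - 1) ∣ (m : 𝓞 K) + (zt K - 1) * rest :=
      dvd_trans (dvd_pow_self _ (by omega)) h
    exact (dvd_add_left (dvd_mul_right _ _)).1 this
  have h2 : (11 : ℤ) ∣ m := (lam_dvd_intCast_iff K m).1 h1
  refine ⟨h2, ?_⟩
  have h3 : (zt K - 1) ^ (k + 1) ∣ (m : 𝓞 K) := by
    obtain ⟨m', rfl⟩ := h2
    push_cast
    refine dvd_mul_of_dvd_left ?_ _
    exact dvd_trans (pow_dvd_pow _ hk) (lam_pow_ten_assoc K).dvd
  have h4 : (zt K - 1) ^ (k + 1) ∣ (zt K - 1) * rest := (dvd_add_right h3).1 h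
  rw [pow_succ'] at h4
  exact (mul_dvd_mul_iff_left (lam_ne_zero K)).1 h4


/-- the unit `ζ` -/
noncomputable def cu0 : (𝓞 K)ˣ := ((zt_prim K).isUnit (by norm_num)).unit

/-- the cyclotomic unit `1 + ζ + ⋯ + ζ^(a-1)` -/
noncomputable def cu (a : ℕ) (ha : a.Coprime 11) : (𝓞 K)ˣ :=
  ((zt_prim K).geom_sum_isUnit (by norm_num) ha).unit

lemma cu0_val : ((cu0 K : (𝓞 K)ˣ) : 𝓞 K) = zt K := IsUnit.unit_spec _

lemma cu_val (a : ℕ) (ha : a.Coprime 11) :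
    ((cu K a ha : (𝓞 K)ˣ) : 𝓞 K) = ∑ i ∈ Finset.range a, zt K ^ i := IsUnit.unit_spec _

/-- the family of five independent units -/
noncomputable def cfam : Fin 5 → (𝓞 K)ˣ :=
  ![cu0 K, cu K 2 (by norm_num), cu K 3 (by norm_num), cu K 4 (by norm_num),
    cu K 5 (by norm_num)]

omit [NumberField K] [IsCyclotomicExtension {11} ℚ K] in
lemma pq_inv_mul (u : (𝓞 K)ˣ) : pq K (↑(u⁻¹) : 𝓞 K) * pq K (u : 𝓞 K) = 1 := by
  rw [← map_mul]; simp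

/-- the linear form `G(n)` -/
noncomputable def Gform (n : Fin 5 → ℤ) : 𝓞 K :=
  (n 0 : 𝓞 K) * ((1 + zt K) * (1 + zt K + zt K ^ 2) * (1 + zt K + zt K ^ 2 + zt K ^ 3) * (1 + zt K + zt K ^ 2 + zt K ^ 3 + zt K ^ 4)) + (n 1 : 𝓞 K) * (zt K * (1 + zt K + zt K ^ 2) * (1 + zt K + zt K ^ 2 + zt K ^ 3) * (1 + zt K + zt K ^ 2 + zt K ^ 3 + zt K ^ 4) * (1)) + (n 2 : 𝓞 K) * (zt K * (1 + zt K) * (1 + zt K + zt K ^ 2 + zt K ^ 3) * (1 + zt K + zt K ^ 2 + zt K ^ 3 + zt K ^ 4) * (1 + 2 * zt K)) + (n 3 : 𝓞 K) * (zt K * (1 + zt K) * (1 + zt K + zt K ^ 2) * (1 + zt K + zt K ^ 2 + zt K ^ 3 + zt K ^ 4) * (1 + 2 * zt K + 3 * zt K ^ 2)) + (n 4 : 𝓞 K) * (zt K * (1 + zt K) * (1 + zt K + zt K ^ 2) * (1 + zt K + zt K ^ 2 + zt K ^ 3) * (1 + 2 * zt K + 3 * zt K ^ 2 + 4 * zt K ^ 3))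

lemma Gform_horner (n : Fin 5 → ℤ) : Gform K n =
    ((((n 0 * 120 + n 1 * 60 + n 2 * 120 + n 3 * 180 + n 4 * 240 : ℤ)) : 𝓞 K) + (zt K - 1) * ((((n 0 * 600 + n 1 * 330 + n 2 * 680 + n 3 * 1050 + n 4 * 1440 : ℤ)) : 𝓞 K) + (zt K - 1) * ((((n 0 * 1450 + n 1 * 860 + n 2 * 1810 + n 3 * 2850 + n 4 * 3980 : ℤ)) : 𝓞 K) + (zt K - 1) * ((((n 0 * 2200 + n 1 * 1395 + n 2 * 2980 + n 3 * 4745 + n 4 * 6676 : ℤ)) : 𝓞 K) + (zt K - 1) * ((((n 0 * 2299 + n 1 * 1552 + n 2 * 3349 + n 3 * 5356 + n 4 * 7524 : ℤ)) : 𝓞 K) + (zt K - 1) * ((((n 0 * 1717 + n 1 * 1232 + n 2 * 2673 + n 3 * 4268 + n 4 * 5950 : ℤ)) : 𝓞 K) + (zt K - 1) * ((((n 0 * 923 + n 1 * 704 + n 2 * 1528 + n 3 * 2422 + n 4 * 3341 : ℤ)) : 𝓞 K) + (zt K - 1) * ((((n 0 * 351 + n 1 * 285 + n 2 * 615 + n 3 * 963 + n 4 * 1314 : ℤ)) : 𝓞 K) + (zt K - 1) * ((((n 0 * 90 + n 1 * 78 + n 2 * 166 + n 3 * 256 + n 4 * 346 : ℤ))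 : 𝓞 K) + (zt K - 1) * ((n 0 : 𝓞 K) * (14 + 1 * (zt K - 1)) + (n 1 : 𝓞 K) * (13 + 1 * (zt K - 1)) + (n 2 : 𝓞 K) * (27 + 2 * (zt K - 1)) + (n 3 : 𝓞 K) * (41 + 3 * (zt K - 1)) + (n 4 : 𝓞 K) * (55 + 4 * (zt K - 1)))))))))))) := by
  unfold Gform
  push_cast
  ring

lemma eleven_dvd_lam_mul_Gform (n : Fin 5 → ℤ) (m : ℤ)
    (h : (11 : 𝓞 K) ∣ ((∏ i, cfam K i ^ n i : (𝓞 K)ˣ) : 𝓞 K) - (m : 𝓞 K)) :
    (11 : 𝓞 K) ∣ (zt K - 1) * Gform K n := by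
  have h1 := dlog_eq_one_of_dvd K _ m h
  rw [map_prod] at h1
  simp only [map_zpow] at h1
  rw [Fin.prod_univ_five] at h1
  have h2 := congrArg Multiplicative.toAdd h1
  simp only [toAdd_mul, toAdd_zpow, toAdd_one, dlog_apply, zsmul_eq_mul] at h2
  simp only [cfam, Matrix.cons_val_zero, Matrix.cons_val_one, Matrix.cons_val] at h2
  have e0 := pq_inv_mul K (cu0 K)
  have e1 := pq_inv_mul K (cu K 2 (by norm_num))
  have e2 := pq_inv_mul K (cu K 3 (by norm_num))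
  have e3 := pq_inv_mul K (cu K 4 (by norm_num))
  have e4 := pq_inv_mul K (cu K 5 (by norm_num))
  simp only [cu0_val, cu_val, Finset.sum_range_succ, Finset.sum_range_zero, Dq_add, Dq_pow,
    Dq_zt, map_add, map_pow, zero_add, pow_zero, pow_one] at h2 e0 e1 e2 e3 e4
  have hD1 : Dq K (1 : 𝓞 K) = 0 := by
    have := Dq_intCast K 1
    simpa using this
  simp only [hD1, map_one, zero_add] at h2 e0 e1 e2 e3 e4
  rw [← Ideal.mem_span_singleton, ← Ideal.Quotient.eq_zero_iff_mem]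
  unfold Gform
  simp only [map_mul, map_add, map_sub, map_pow, map_one, map_intCast, map_ofNat]
  generalize pq K (zt K) = z at *
  generalize pq K ↑(cu0 K)⁻¹ = f0 at *
  generalize pq K ↑(cu K 2 (by norm_num))⁻¹ = f1 at *
  generalize pq K ↑(cu K 3 (by norm_num))⁻¹ = f2 at *
  generalize pq K ↑(cu K 4 (by norm_num))⁻¹ = f3 at *
  generalize pq K ↑(cu K 5 (by norm_num))⁻¹ = f4 at *
  push_cast at h2
  linear_combination (z * (1 + z) * (1 + z + z ^ 2) * (1 + z + z ^ 2 + z ^ 3) * (1 + z + z ^ 2 + z ^ 3 + z ^ 4)) * h2 - ((n 0 : Rq K) * ((1 + z) * (1 + z + z ^ 2) * (1 + z + z ^ 2 + z ^ 3) * (1 + z + z ^ 2 + z ^ 3 + z ^ 4)) * ((z - 1) * 1)) * e0 - ((n 1 : Rq K) * (z * (1 + z + z ^ 2) * (1 + z + z ^ 2 + z ^ 3) * (1 + z + z ^ 2 + z ^ 3 + z ^ 4)) * ((z - 1) * 1)) * e1 - ((n 2 : Rq K) * (z * (1 + z) * (1 + z + z ^ 2 + z ^ 3) * (1 + z + z ^ 2 + z ^ 3 + z ^ 4))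 * ((z - 1) * (1 + 2 * z))) * e2 - ((n 3 : Rq K) * (z * (1 + z) * (1 + z + z ^ 2) * (1 + z + z ^ 2 + z ^ 3 + z ^ 4)) * ((z - 1) * (1 + 2 * z + 3 * z ^ 2))) * e3 - ((n 4 : Rq K) * (z * (1 + z) * (1 + z + z ^ 2) * (1 + z + z ^ 2 + z ^ 3)) * ((z - 1) * (1 + 2 * z + 3 * z ^ 2 + 4 * z ^ 3))) * e4


lemma lam_pow_nine_dvd_Gform (n : Fin 5 → ℤ) (m : ℤ)
    (h : (11 : 𝓞 K) ∣ ((∏ i, cfam K i ^ n i : (𝓞 K)ˣ) : 𝓞 K) - (m : 𝓞 K)) :
    (zt K - 1) ^ 9 ∣ Gform K n := by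
  have h1 := eleven_dvd_lam_mul_Gform K n m h
  have h2 : (zt K - 1) ^ (9 + 1) ∣ (zt K - 1) * Gform K n := (lam_pow_ten_assoc K).dvd.trans h1
  rw [pow_succ' (zt K - 1) 9] at h2
  exact (mul_dvd_mul_iff_left (lam_ne_zero K)).1 h2

theorem independent_units_aux (n : Fin 5 → ℤ) (m : ℤ)
    (h : (11 : 𝓞 K) ∣ ((∏ i, cfam K i ^ n i : (𝓞 K)ˣ) : 𝓞 K) - (m : 𝓞 K)) :
    ∀ i, (11 : ℤ) ∣ n i := by
  have h9 := lam_pow_nine_dvd_Gform K n m h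
  rw [Gform_horner] at h9
  obtain ⟨d0, h8⟩ := filt_step K 8 (by norm_num) _ _ h9
  obtain ⟨d1, h7⟩ := filt_step K 7 (by norm_num) _ _ h8
  obtain ⟨d2, h6⟩ := filt_step K 6 (by norm_num) _ _ h7
  obtain ⟨d3, h5⟩ := filt_step K 5 (by norm_num) _ _ h6
  obtain ⟨d4, h4⟩ := filt_step K 4 (by norm_num) _ _ h5
  obtain ⟨d5, h3⟩ := filt_step K 3 (by norm_num) _ _ h4
  obtain ⟨d6, h2⟩ := filt_step K 2 (by norm_num) _ _ h3
  obtain ⟨d7, h1⟩ := filt_step K 1 (by norm_num) _ _ h2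
  obtain ⟨d8, -⟩ := filt_step K 0 (by norm_num) _ _ h1
  clear h9 h8 h7 h6 h5 h4 h3 h2 h1 h
  have k0 : (11 : ℤ) ∣ n 0 := by
    have e : n 0 = ((5) * (n 0 * 600 + n 1 * 330 + n 2 * 680 + n 3 * 1050 + n 4 * 1440) + (-1) * (n 0 * 2200 + n 1 * 1395 + n 2 * 2980 + n 3 * 4745 + n 4 * 6676) + (-5) * (n 0 * 1717 + n 1 * 1232 + n 2 * 2673 + n 3 * 4268 + n 4 * 5950) + (2) * (n 0 * 351 + n 1 * 285 + n 2 * 615 + n 3 * 963 + n 4 * 1314)) + 11 * ((644) * n 0 + (485) * n 1 + (1065) * n 2 + (1719) * n 3 + (2418) * n 4) := by ring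
    rw [e]
    exact dvd_add (dvd_add (dvd_add (dvd_add (Dvd.dvd.mul_left d1 (5)) (Dvd.dvd.mul_left d3 (-1))) (Dvd.dvd.mul_left d5 (-5))) (Dvd.dvd.mul_left d7 (2))) (dvd_mul_right 11 _)
  have k1 : (11 : ℤ) ∣ n 1 := by
    have e : n 1 = ((-3) * (n 0 * 120 + n 1 * 60 + n 2 * 120 + n 3 * 180 + n 4 * 240) + (3) * (n 0 * 600 + n 1 * 330 + n 2 * 680 + n 3 * 1050 + n 4 * 1440) + (-2) * (n 0 * 2200 + n 1 * 1395 + n 2 * 2980 + n 3 * 4745 + n 4 * 6676) + (-1) * (n 0 * 351 + n 1 * 285 + n 2 * 615 + n 3 * 963 + n 4 * 1314)) + 11 * ((301) * n 0 + (206) * n 1 + (445) * n 2 + (713) * n 3 + (1006) * n 4) := by ring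
    rw [e]
    exact dvd_add (dvd_add (dvd_add (dvd_add (Dvd.dvd.mul_left d0 (-3)) (Dvd.dvd.mul_left d1 (3))) (Dvd.dvd.mul_left d3 (-2))) (Dvd.dvd.mul_left d7 (-1))) (dvd_mul_right 11 _)
  have k2 : (11 : ℤ) ∣ n 2 := by
    have e : n 2 = ((1) * (n 0 * 120 + n 1 * 60 + n 2 * 120 + n 3 * 180 + n 4 * 240) + (-1) * (n 0 * 600 + n 1 * 330 + n 2 * 680 + n 3 * 1050 + n 4 * 1440) + (5) * (n 0 * 2200 + n 1 * 1395 + n 2 * 2980 + n 3 * 4745 + n 4 * 6676) + (2) * (n 0 * 1717 + n 1 * 1232 + n 2 * 2673 + n 3 * 4268 + n 4 * 5950) + (-5) * (n 0 * 351 + n 1 * 285 + n 2 * 615 + n 3 * 963 + n 4 * 1314)) + 11 * ((-1109) * n 0 + (-704) * n 1 + (-1510) * n 2 + (-2416) * n 3 + (-3410) * n 4) := by ring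
    rw [e]
    exact dvd_add (dvd_add (dvd_add (dvd_add (dvd_add (Dvd.dvd.mul_left d0 (1)) (Dvd.dvd.mul_left d1 (-1))) (Dvd.dvd.mul_left d3 (5))) (Dvd.dvd.mul_left d5 (2))) (Dvd.dvd.mul_left d7 (-5))) (dvd_mul_right 11 _)
  have k3 : (11 : ℤ) ∣ n 3 := by
    have e : n 3 = ((-4) * (n 0 * 120 + n 1 * 60 + n 2 * 120 + n 3 * 180 + n 4 * 240) + (-3) * (n 0 * 600 + n 1 * 330 + n 2 * 680 + n 3 * 1050 + n 4 * 1440) + (3) * (n 0 * 2200 + n 1 * 1395 + n 2 * 2980 + n 3 * 4745 + n 4 * 6676) + (-1) * (n 0 * 1717 + n 1 * 1232 + n 2 * 2673 + n 3 * 4268 + n 4 * 5950) + (-4) * (n 0 * 351 + n 1 * 285 + n 2 * 615 + n 3 * 963 + n 4 * 1314)) + 11 * ((-109) * n 0 + (-53) * n 1 + (-117) * n 2 + (-204) * n 3 + (-322) * n 4) := by ring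
    rw [e]
    exact dvd_add (dvd_add (dvd_add (dvd_add (dvd_add (Dvd.dvd.mul_left d0 (-4)) (Dvd.dvd.mul_left d1 (-3))) (Dvd.dvd.mul_left d3 (3))) (Dvd.dvd.mul_left d5 (-1))) (Dvd.dvd.mul_left d7 (-4))) (dvd_mul_right 11 _)
  have k4 : (11 : ℤ) ∣ n 4 := by
    have e : n 4 = ((5) * (n 0 * 600 + n 1 * 330 + n 2 * 680 + n 3 * 1050 + n 4 * 1440) + (-1) * (n 0 * 2200 + n 1 * 1395 + n 2 * 2980 + n 3 * 4745 + n 4 * 6676) + (5) * (n 0 * 1717 + n 1 * 1232 + n 2 * 2673 + n 3 * 4268 + n 4 * 5950) + (2) * (n 0 * 351 + n 1 * 285 + n 2 * 615 + n 3 * 963 + n 4 * 1314)) + 11 * ((-917) * n 0 + (-635) * n 1 + (-1365) * n 2 + (-2161) * n 3 + (-2991) * n 4) := by ring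
    rw [e]
    exact dvd_add (dvd_add (dvd_add (dvd_add (Dvd.dvd.mul_left d1 (5)) (Dvd.dvd.mul_left d3 (-1))) (Dvd.dvd.mul_left d5 (5))) (Dvd.dvd.mul_left d7 (2))) (dvd_mul_right 11 _)
  intro i
  fin_cases i
  · exact k0
  · exact k1
  · exact k2
  · exact k3
  · exact k4

/-- T3c: the exact interface statement. -/
theorem exists_independent_units :
    ∃ c : Fin 5 → (𝓞 K)ˣ, ∀ n : Fin 5 → ℤ,
      (∃ m : ℤ, (11 : 𝓞 K) ∣ ((∏ i, c i ^ n i : (𝓞 K)ˣ) : 𝓞 K) - (m : 𝓞 K)) →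
        ∀ i, (11 : ℤ) ∣ n i :=
  ⟨cfam K, fun n ⟨m, hm⟩ => independent_units_aux K n m hm⟩

end Fermat.Agent.S11.H791
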