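import Mathlib

/-!
# A principal prime of `ℤ[ζ₁₁]` above `23`

`α = ζ⁴ + ζ³ - 1` has norm `23`; the ideal `(α)` is the kernel of `𝓞 K → ZMod 23`, `ζ ↦ 2`.
-/

set_option autoImplicit false

namespace Fermat.Agent.S11

open NumberField Polynomial

section

variable (K : Type*) [Field K] [NumberField K] [IsCyclotomicExtension {11} ℚ K]

/-- The chosen primitive 11-th root of unity, as an element of `𝓞 K`. -/
noncomputable def p23_zeta : 𝓞 K := (IsCyclotomicExtension.zeta_spec 11 ℚ K).toInteger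

theorem p23_geom :
    1 + p23_zeta K + p23_zeta K ^ 2 + p23_zeta K ^ 3 + p23_zeta K ^ 4 + p23_zeta K ^ 5
      + p23_zeta K ^ 6 + p23_zeta K ^ 7 + p23_zeta K ^ 8 + p23_zeta K ^ 9 + p23_zeta K ^ 10 = 0 := by
  have h := ((IsCyclotomicExtension.zeta_spec 11 ℚ K).toInteger_isPrimitiveRoot).geom_sum_eq_zero
    (by norm_num)
  simpa [Finset.sum_range_succ, p23_zeta] using h

/-- The generator `α = ζ⁴ + ζ³ - 1`. -/
noncomputable def p23_alpha : 𝓞 K := p23_zeta K ^ 4 + p23_zeta K ^ 3 - 1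

/-- Cofactor `γ` with `α γ = ζ - 2`. -/
noncomputable def p23_gamma : 𝓞 K :=
  - p23_zeta K + p23_zeta K ^ 2 - p23_zeta K ^ 4 + p23_zeta K ^ 6 - p23_zeta K ^ 7
    - p23_zeta K ^ 8 + p23_zeta K ^ 9

/-- Cofactor `β` with `α β = 23`. -/
noncomputable def p23_beta : 𝓞 K :=
  1 + 13 * p23_zeta K - 4 * p23_zeta K ^ 2 - p23_zeta K ^ 3 + 12 * p23_zeta K ^ 4
    + 7 * p23_zeta K ^ 5 - 7 * p23_zeta K ^ 6 + 9 * p23_zeta K ^ 7 + 17 * p23_zeta K ^ 8
    - 2 * p23_zeta K ^ 9

theorem p23_zeta_sub_two_eq : p23_zeta K - 2 = p23_alpha K * p23_gamma K := by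
  have h := p23_geom K
  unfold p23_alpha p23_gamma
  linear_combination (-(2 : 𝓞 K) + 2 * p23_zeta K + p23_zeta K ^ 2 - p23_zeta K ^ 3) * h

theorem p23_twentythree_eq : (23 : 𝓞 K) = p23_alpha K * p23_beta K := by
  have h := p23_geom K
  unfold p23_alpha p23_beta
  linear_combination ((24 : 𝓞 K) - 11 * p23_zeta K - 17 * p23_zeta K ^ 2 + 2 * p23_zeta K ^ 3) * h

theorem p23_aeval_two :
    aeval (2 : ZMod 23)
      (minpoly ℤ (IsCyclotomicExtension.zeta_spec 11 ℚ K).integralPowerBasis.gen) = 0 := by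
  have : Fact (Nat.Prime 11) := ⟨by norm_num⟩
  rw [IsPrimitiveRoot.integralPowerBasis_gen, ← RingOfIntegers.minpoly_coe]
  have h1 : ((IsCyclotomicExtension.zeta_spec 11 ℚ K).toInteger : K)
      = IsCyclotomicExtension.zeta 11 ℚ K := rfl
  rw [h1, ← cyclotomic_eq_minpoly (IsCyclotomicExtension.zeta_spec 11 ℚ K) (by norm_num),
    cyclotomic_prime ℤ 11]
  simp only [Finset.sum_range_succ, Finset.sum_range_zero, map_add, map_pow, aeval_X, map_zero]
  decide

/-- The ring hom `𝓞 K → ZMod 23`, `ζ ↦ 2`. -/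
noncomputable def p23_phi : 𝓞 K →ₐ[ℤ] ZMod 23 :=
  (IsCyclotomicExtension.zeta_spec 11 ℚ K).integralPowerBasis.lift (2 : ZMod 23) (p23_aeval_two K)

theorem p23_phi_zeta : p23_phi K (p23_zeta K) = 2 := by
  have h := (IsCyclotomicExtension.zeta_spec 11 ℚ K).integralPowerBasis.lift_gen (2 : ZMod 23)
    (p23_aeval_two K)
  rw [IsPrimitiveRoot.integralPowerBasis_gen] at h
  exact h

theorem p23_phi_alpha : p23_phi K (p23_alpha K) = 0 := by
  unfold p23_alpha
  rw [map_sub, map_add, map_pow, map_pow, map_one, p23_phi_zeta]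
  decide

theorem p23_exists_int (x : 𝓞 K) : ∃ (n : ℤ) (y : 𝓞 K), x = (n : 𝓞 K) + (p23_zeta K - 2) * y := by
  obtain ⟨f, hf⟩ := (IsCyclotomicExtension.zeta_spec 11 ℚ K).integralPowerBasis.exists_eq_aeval' x
  rw [IsPrimitiveRoot.integralPowerBasis_gen] at hf
  have hdvd := Polynomial.sub_dvd_eval_sub (p23_zeta K) (2 : 𝓞 K) (f.map (algebraMap ℤ (𝓞 K)))
  obtain ⟨y, hy⟩ := hdvd
  refine ⟨f.eval 2, y, ?_⟩
  have h2 : (f.map (algebraMap ℤ (𝓞 K))).eval (2 : 𝓞 K) = ((f.eval 2 : ℤ) : 𝓞 K) := by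
    have : (2 : 𝓞 K) = algebraMap ℤ (𝓞 K) 2 := by simp
    rw [this, Polynomial.eval_map_algebraMap, Polynomial.aeval_algebraMap_apply]
    simp
  have h3 : (f.map (algebraMap ℤ (𝓞 K))).eval (p23_zeta K) = x := by
    rw [hf, Polynomial.eval_map_algebraMap]
    rfl
  rw [h2, h3] at hy
  rw [← hy]
  ring

theorem p23_ker_eq : RingHom.ker (p23_phi K) = Ideal.span {p23_alpha K} := by
  apply le_antisymm
  · intro x hx
    rw [RingHom.mem_ker] at hx
    obtain ⟨n, y, rfl⟩ := p23_exists_int K x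
    rw [map_add, map_mul, map_sub, p23_phi_zeta, map_intCast] at hx
    have h2 : p23_phi K (2 : 𝓞 K) = 2 := map_ofNat _ 2
    rw [h2, sub_self, zero_mul, add_zero] at hx
    have hn : (23 : ℤ) ∣ n := by
      have := (ZMod.intCast_zmod_eq_zero_iff_dvd n 23).mp hx
      exact_mod_cast this
    obtain ⟨m, rfl⟩ := hn
    rw [Ideal.mem_span_singleton]
    refine ⟨p23_beta K * m + p23_gamma K * y, ?_⟩
    have e1 := p23_zeta_sub_two_eq K
    have e2 := p23_twentythree_eq K
    push_cast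
    linear_combination (m : 𝓞 K) * e2 + y * e1
  · rw [Ideal.span_le, Set.singleton_subset_iff]
    exact (RingHom.mem_ker).mpr (p23_phi_alpha K)

theorem p23_isPrime : (Ideal.span {p23_alpha K}).IsPrime := by
  have : Fact (Nat.Prime 23) := ⟨by norm_num⟩
  rw [← p23_ker_eq]
  exact RingHom.ker_isPrime _

theorem p23_liesOver : (Ideal.span {p23_alpha K}).LiesOver (Ideal.span {(23 : ℤ)}) := by
  have := p23_isPrime K
  constructor
  have hmax : (Ideal.span {(23 : ℤ)}).IsMaximal :=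
    PrincipalIdealRing.isMaximal_of_irreducible
      (Int.prime_iff_natAbs_prime.mpr (by norm_num)).irreducible
  have hle : Ideal.span {(23 : ℤ)} ≤ (Ideal.span {p23_alpha K}).under ℤ := by
    rw [Ideal.span_le, Set.singleton_subset_iff]
    show algebraMap ℤ (𝓞 K) 23 ∈ Ideal.span {p23_alpha K}
    rw [Ideal.mem_span_singleton]
    refine ⟨p23_beta K, ?_⟩
    have := p23_twentythree_eq K
    simpa using this
  exact hmax.eq_of_le (Ideal.IsPrime.under ℤ _).ne_top hle

/-- **T2b**: there is a principal prime of `𝓞 K` above `23`. -/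
theorem p23_exists_principal :
    ∃ P ∈ Ideal.primesOver (Ideal.span {(23 : ℤ)}) (𝓞 K), Submodule.IsPrincipal P :=
  ⟨Ideal.span {p23_alpha K}, ⟨p23_isPrime K, p23_liesOver K⟩, ⟨p23_alpha K, rfl⟩⟩

end

end Fermat.Agent.S11

namespace Fermat.Agent.S11

open NumberField

/-- Same as `p23_exists_principal`, with the cast shape produced by
`RingOfIntegers.isPrincipalIdealRing_of_isPrincipal_of_lt_or_isPrincipal_of_mem_primesOver_of_mem_Icc`. -/
theorem p23_exists_principal_natCast (K : Type*) [Field K] [NumberField K]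
    [IsCyclotomicExtension {11} ℚ K] :
    ∃ P ∈ Ideal.primesOver (Ideal.span {((23 : ℕ) : ℤ)}) (𝓞 K), Submodule.IsPrincipal P := by
  simpa using p23_exists_principal K

end Fermat.Agent.S11
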